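import Fermat.Agent.HW.Plan2
import Fermat.Agent.EC.Pencil

/-!
# HW brick, part 2, piece K1: `#ker α = ht R` for separable represented endomorphisms (helper46)

`stmtKerCount : StmtKerCount E`.  Proof: choose a good point `P₀` with `u = x(α P₀)` outside the
finite set of exceptional values; then the fibre `α⁻¹(α P₀) = P₀ + ker α` is mapped bijectively by
`x` onto the `ht R` distinct roots of `kcPoly R u = num − u · denom`.

Also usable on their own: `kc_card_roots` (generic member of the pencil `num − u · denom` has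
`ht R` distinct roots), `kc_eq_or_eq_neg` (same `x` ⇒ equal or opposite).
-/

set_option autoImplicit false

open Polynomial

namespace Fermat.Agent.HW

noncomputable section

section KcPoly

variable {K : Type*} [Field K]

/-- the pencil member `num − u · denom` -/
def kcPoly (R : RatFunc K) (u : K) : K[X] := R.num - C u * R.denom

lemma kc_eval (R : RatFunc K) (u a : K) :
    (kcPoly R u).eval a = R.num.eval a - u * R.denom.eval a := by
  simp [kcPoly]

lemma kc_natDegree_le (R : RatFunc K) (u : K) : (kcPoly R u).natDegree ≤ ht R := by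
  unfold kcPoly ht
  refine (natDegree_sub_le _ _).trans ?_
  exact max_le_max le_rfl (natDegree_C_mul_le _ _)

lemma kc_coeff (R : RatFunc K) (u : K) :
    (kcPoly R u).coeff (ht R) = R.num.coeff (ht R) - u * R.denom.coeff (ht R) := by
  simp [kcPoly]

lemma kc_ht_ne_zero {R : RatFunc K} (h : RSep R) : ht R ≠ 0 := by
  intro h0
  apply h
  have h1 : R.num.natDegree = 0 := by
    have := le_max_left R.num.natDegree R.denom.natDegree
    unfold ht at h0
    omega
  have h2 : R.denom.natDegree = 0 := by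
    have := le_max_right R.num.natDegree R.denom.natDegree
    unfold ht at h0
    omega
  rw [derivative_of_natDegree_zero h1, derivative_of_natDegree_zero h2]
  simp

lemma kc_natDegree (R : RatFunc K) (hR : ht R ≠ 0) (u : K)
    (hu : u ≠ R.num.coeff (ht R) / R.denom.coeff (ht R)) : (kcPoly R u).natDegree = ht R := by
  apply natDegree_eq_of_le_of_coeff_ne_zero (kc_natDegree_le R u)
  rw [kc_coeff]
  by_cases hd : R.denom.coeff (ht R) = 0
  · rw [hd, mul_zero, sub_zero]
    have hdne : R.denom ≠ 0 := R.denom_ne_zero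
    have h1 : R.denom.natDegree ≠ ht R := by
      intro h
      rw [← h] at hd
      exact hdne (leadingCoeff_eq_zero.mp hd)
    have h2 : ht R = R.num.natDegree := by
      unfold ht at h1 ⊢
      rcases max_choice R.num.natDegree R.denom.natDegree with h | h
      · exact h
      · exact absurd h.symm h1
    rw [h2]
    intro h0
    have h3 : R.num = 0 := leadingCoeff_eq_zero.mp h0
    rw [h3, natDegree_zero] at h2
    exact hR h2
  · intro h
    apply hu
    field_simp
    linear_combination -h

lemma kc_ne_zero (R : RatFunc K) (hR : ht R ≠ 0) (u : K)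
    (hu : u ≠ R.num.coeff (ht R) / R.denom.coeff (ht R)) : kcPoly R u ≠ 0 := by
  intro h
  have := kc_natDegree R hR u hu
  rw [h, natDegree_zero] at this
  exact hR this.symm

lemma kc_denom_ne_zero_of_root (R : RatFunc K) {u a : K} (h : (kcPoly R u).eval a = 0) :
    R.denom.eval a ≠ 0 := by
  intro hd
  have hn : R.num.eval a = 0 := by
    rw [kc_eval, hd, mul_zero, sub_zero] at h
    exact h
  obtain ⟨s, t, hst⟩ := R.isCoprime_num_denom
  have := congrArg (eval a) hst
  simp [hn, hd] at this

lemma kc_rev_of_root (R : RatFunc K) {u a : K} (h : (kcPoly R u).eval a = 0) :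
    Reg R a ∧ rev R a = u := by
  have hd := kc_denom_ne_zero_of_root R h
  refine ⟨hd, ?_⟩
  rw [hwEv_rev_eq]
  rw [kc_eval] at h
  field_simp
  linear_combination h

lemma kc_root_of_rev (R : RatFunc K) {u a : K} (hreg : Reg R a) (h : rev R a = u) :
    (kcPoly R u).eval a = 0 := by
  rw [hwEv_rev_eq] at h
  rw [kc_eval, ← h]
  have : R.denom.eval a ≠ 0 := hreg
  field_simp
  ring

variable [DecidableEq K]

lemma kc_nodup (R : RatFunc K) (hsep : RSep R) (u : K) (hf : kcPoly R u ≠ 0)
    (hu : u ∉ (derivative R.num * R.denom - R.num * derivative R.denom).roots.toFinset.image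
      (fun a => rev R a)) : (kcPoly R u).roots.Nodup := by
  rw [Multiset.nodup_iff_count_le_one]
  intro a
  rw [count_roots]
  by_contra hcon
  have hlt : 1 < (kcPoly R u).rootMultiplicity a := by omega
  obtain ⟨h0, h1⟩ := (one_lt_rootMultiplicity_iff_isRoot hf).1 hlt
  have hwr := Fermat.Agent.EC.pencil_wronskian_root h0 h1
  apply hu
  rw [Finset.mem_image]
  refine ⟨a, ?_, (kc_rev_of_root R h0).2⟩
  rw [Multiset.mem_toFinset, mem_roots hsep]
  exact hwr

lemma kc_card_roots [IsAlgClosed K] (R : RatFunc K) (hsep : RSep R) (u : K)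
    (hu1 : u ≠ R.num.coeff (ht R) / R.denom.coeff (ht R))
    (hu2 : u ∉ (derivative R.num * R.denom - R.num * derivative R.denom).roots.toFinset.image
      (fun a => rev R a)) : (kcPoly R u).roots.toFinset.card = ht R := by
  have hR := kc_ht_ne_zero hsep
  have hf := kc_ne_zero R hR u hu1
  rw [Multiset.toFinset_card_of_nodup (kc_nodup R hsep u hf hu2), ← kc_natDegree R hR u hu1]
  exact IsAlgClosed.card_roots_eq_natDegree

end KcPoly

section KerMain

variable {K : Type*} [Field K] [DecidableEq K] (E : WeierstrassCurve K)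

/-- two finite points with the same `x` are equal or opposite -/
lemma kc_eq_or_eq_neg (h2 : (2 : K) ≠ 0) {P Q : E.toAffine.Point} (hP : P ≠ 0) (hQ : Q ≠ 0)
    (hx : ptX E P = ptX E Q) : P = Q ∨ P = -Q := by
  have e1 := cp_stmtEtaSq E P hP
  have e2 := cp_stmtEtaSq E Q hQ
  rw [hx] at e1
  have e3 : (ptEta E P - ptEta E Q) * (ptEta E P + ptEta E Q) = 0 := by
    linear_combination e1 - e2
  obtain ⟨hnQ, hxnQ, henQ⟩ := cp_stmtNegPt E Q hQ
  rcases mul_eq_zero.mp e3 with h | h
  · left
    exact cp_stmtPtExt E h2 P Q hP hQ hx (sub_eq_zero.mp h)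
  · right
    exact cp_stmtPtExt E h2 P (-Q) hP hnQ (hx.trans hxnQ.symm)
      (by rw [henQ]; linear_combination h)

/-- a finite point of order two has `η = 0` -/
lemma kc_eta_zero_of_eq_neg (h2 : (2 : K) ≠ 0) {Q : E.toAffine.Point} (hQ : Q ≠ 0)
    (h : Q = -Q) : ptEta E Q = 0 := by
  obtain ⟨_, _, he⟩ := cp_stmtNegPt E Q hQ
  rw [← h] at he
  have : 2 * ptEta E Q = 0 := by linear_combination he
  rcases mul_eq_zero.mp this with h' | h'
  · exact absurd h' h2
  · exact h'

lemma kc_finite_psi2 (h2 : (2 : K) ≠ 0) : {u : K | Psi2form E u = 0}.Finite := by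
  set q : K[X] := C 4 * X ^ 3 + C E.b₂ * X ^ 2 + C (2 * E.b₄) * X + C E.b₆ with hq
  have h4 : (4 : K) ≠ 0 := by
    have : (4 : K) = 2 * 2 := by norm_num
    rw [this]; exact mul_ne_zero h2 h2
  have hq0 : q ≠ 0 := by
    intro h0
    have := congrArg (fun f : K[X] => f.coeff 3) h0
    simp [hq, coeff_X_pow] at this
    exact h4 this
  refine (q.roots.toFinset.finite_toSet).subset ?_
  intro x hx
  simp only [Finset.mem_coe, Multiset.mem_toFinset]
  refine (mem_roots hq0).mpr ?_
  rw [Set.mem_ofPred_eq] at hx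
  simp only [Psi2form, Algebra.algebraMap_self, RingHom.id_apply] at hx
  simp only [IsRoot.def, hq, eval_add, eval_mul, eval_C, eval_pow, eval_X]
  linear_combination hx

/-- **K1**: a represented endomorphism with separable `x`-function `R` has `#ker α = ht R`. -/
theorem stmtKerCount : StmtKerCount E := by
  intro hyp α R S hRep hSep
  have := hyp.algClosed
  have I := parInput E hyp
  have : Infinite E.toAffine.Point := I.infinite_pt
  have h2 := hyp.two_ne
  have hN : ht R ≠ 0 := kc_ht_ne_zero hSep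
  have hB : {P | ¬ GoodAt E (⇑α) R S P}.Finite := Filter.eventually_cofinite.mp hRep
  have hker : {P : E.toAffine.Point | α P = 0}.Finite :=
    hB.subset fun P hP hg => hg.2.1 hP
  have hT1 : (Set.image2 (fun b k => b - k) {P | ¬ GoodAt E (⇑α) R S P}
      {P : E.toAffine.Point | α P = 0}).Finite := hB.image2 _ hker
  -- exceptional values
  obtain ⟨U, hUdef⟩ : ∃ U : Set K, U = {u | Psi2form E u = 0} ∪
      ↑((derivative R.num * R.denom - R.num * derivative R.denom).roots.toFinset.image
        (fun a => rev R a)) ∪ {R.num.coeff (ht R) / R.denom.coeff (ht R)} ∪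
      (fun b => rev R (ptX E b)) '' {P | ¬ GoodAt E (⇑α) R S P} := ⟨_, rfl⟩
  have hU : U.Finite := by
    rw [hUdef]
    exact (((kc_finite_psi2 E h2).union (Finset.finite_toSet _)).union
      (Set.finite_singleton _)).union (hB.image _)
  have hT2 : {P : E.toAffine.Point | rev R (ptX E P) ∈ U}.Finite := by
    have h1 : (⋃ c ∈ U, {x : K | rev R x = c}).Finite :=
      hU.biUnion fun c _ => stmtRevFiber R hN c
    have h2 : (⋃ x ∈ (⋃ c ∈ U, {x : K | rev R x = c}),
        {P : E.toAffine.Point | ptX E P = x}).Finite :=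
      h1.biUnion fun x _ => cp_stmtFiberPt E x
    refine h2.subset ?_
    intro P hP
    simp only [Set.mem_iUnion, Set.mem_ofPred_eq, exists_prop]
    exact ⟨ptX E P, ⟨_, hP, rfl⟩, rfl⟩
  obtain ⟨P₀, hP₀⟩ := ((hB.union hT1).union hT2).exists_notMem
  have hP₀B : GoodAt E (⇑α) R S P₀ := by
    by_contra h
    exact hP₀ (Or.inl (Or.inl h))
  have hP₀T1 : ∀ k, α k = 0 → GoodAt E (⇑α) R S (P₀ + k) := by
    intro k hk
    by_contra h
    apply hP₀
    left; right
    exact ⟨P₀ + k, h, k, hk, by simp⟩
  have hP₀U : rev R (ptX E P₀) ∉ U := fun h => hP₀ (Or.inr h)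
  obtain ⟨u, hu⟩ : ∃ u, u = rev R (ptX E P₀) := ⟨_, rfl⟩
  rw [← hu] at hP₀U
  have hu_psi : Psi2form E u ≠ 0 := fun h =>
    hP₀U (by rw [hUdef]; exact Or.inl (Or.inl (Or.inl h)))
  have hu_w : u ∉ (derivative R.num * R.denom - R.num * derivative R.denom).roots.toFinset.image
      (fun a => rev R a) := fun h =>
    hP₀U (by rw [hUdef]; exact Or.inl (Or.inl (Or.inr h)))
  have hu_d : u ≠ R.num.coeff (ht R) / R.denom.coeff (ht R) := fun h =>
    hP₀U (by rw [hUdef]; exact Or.inl (Or.inr h))
  have hu_b : ∀ b, ¬ GoodAt E (⇑α) R S b → rev R (ptX E b) ≠ u := fun b hb h =>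
    hP₀U (by rw [hUdef]; exact Or.inr ⟨b, hb, h⟩)
  have hcard := kc_card_roots R hSep u hu_d hu_w
  have hf := kc_ne_zero R hN u hu_d
  have hxα : ptX E (α P₀) = u := by rw [hu]; exact hP₀B.2.2.2.2.1
  have hαP₀ : α P₀ ≠ 0 := hP₀B.2.1
  have hη : ptEta E (α P₀) ≠ 0 := by
    intro h
    apply hu_psi
    rw [← hxα, ← cp_stmtEtaSq E _ hαP₀, h]
    ring
  have e1 : Nat.card {P : E.toAffine.Point // α P = 0}
      = Nat.card {P : E.toAffine.Point // α P = α P₀} := by
    apply Nat.card_congr
    exact
      { toFun := fun k => ⟨k.1 + P₀, by rw [map_add, k.2, zero_add]⟩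
        invFun := fun P => ⟨P.1 - P₀, by rw [map_sub, P.2, sub_self]⟩
        left_inv := fun k => by ext; simp
        right_inv := fun P => by ext; simp }
  rw [e1, ← hcard]
  have hgood : ∀ P : E.toAffine.Point, α P = α P₀ → GoodAt E (⇑α) R S P := by
    intro P hP
    have := hP₀T1 (P - P₀) (by rw [map_sub, hP, sub_self])
    simpa using this
  have hroot : ∀ P : E.toAffine.Point, α P = α P₀ →
      ptX E P ∈ (kcPoly R u).roots.toFinset := by
    intro P hP
    have hg := hgood P hP
    rw [Multiset.mem_toFinset, mem_roots hf, IsRoot.def]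
    apply kc_root_of_rev R hg.2.2.1
    rw [← hg.2.2.2.2.1, hP, hxα]
  rw [← Nat.card_eq_finsetCard]
  apply Nat.card_eq_of_bijective
    (fun P : {P : E.toAffine.Point // α P = α P₀} =>
      (⟨ptX E P.1, hroot P.1 P.2⟩ : {a // a ∈ (kcPoly R u).roots.toFinset}))
  constructor
  · intro P P' h
    have hx : ptX E P.1 = ptX E P'.1 := congrArg Subtype.val h
    have hP := hgood P.1 P.2
    have hP' := hgood P'.1 P'.2
    rcases kc_eq_or_eq_neg E h2 hP.1 hP'.1 hx with h' | h'
    · exact Subtype.ext h'
    · exfalso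
      apply hη
      apply kc_eta_zero_of_eq_neg E h2 hαP₀
      have h3 : α P.1 = - α P'.1 := by rw [h', map_neg]
      rw [P.2, P'.2] at h3
      exact h3
  · rintro ⟨a, ha⟩
    rw [Multiset.mem_toFinset, mem_roots hf, IsRoot.def] at ha
    obtain ⟨hreg, hrev⟩ := kc_rev_of_root R ha
    obtain ⟨P, hP0, hPx⟩ := cp_stmtExistsPt E hyp.algClosed hyp.disc_ne a
    have hg : GoodAt E (⇑α) R S P := by
      by_contra h
      exact hu_b P h (by rw [hPx, hrev])
    have hxP : ptX E (α P) = ptX E (α P₀) := by rw [hg.2.2.2.2.1, hPx, hrev, hxα]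
    rcases kc_eq_or_eq_neg E h2 hg.2.1 hαP₀ hxP with h' | h'
    · exact ⟨⟨P, h'⟩, Subtype.ext hPx⟩
    · refine ⟨⟨-P, by rw [map_neg, h', neg_neg]⟩, Subtype.ext ?_⟩
      show ptX E (-P) = a
      rw [(cp_stmtNegPt E P hP0).2.1, hPx]

end KerMain

end

end Fermat.Agent.HW
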