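import Fermat.Agent.HW.KerFrob
import Fermat.Agent.HW.KerCount

/-!
# HW brick, part 2: final statements (helper51)

* `stmtKerFrob` : `#{P ∈ E(K) | φ P = m • P} = m² − t m + p` whenever `p ∤ m² − t m + p`
  (`p ≠ 2`, `W` over `ZMod p`, `Δ ≠ 0`, `K ⊇ ZMod p` algebraically closed, `t = W.traceOfFrobenius`).
* `card_ker_of_rep` : K1 restated.
-/

set_option autoImplicit false

namespace Fermat.Agent.HW

noncomputable section

variable (p : ℕ) [Fact p.Prime] (W : WeierstrassCurve (ZMod p))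
  (K : Type*) [Field K] [DecidableEq K] [Algebra (ZMod p) K]

theorem stmtKerFrob : StmtKerFrob p W K := stmtKerFrob_of p W K (stmtKerCount _)

/-- `#ker (φ − m) = m² − t m + p` for `p ∤ m² − t m + p`. -/
theorem card_frobPt_eq_zsmul (hp2 : p ≠ 2) (hΔ : W.Δ ≠ 0) [hK : IsAlgClosed K] (m : ℤ)
    (hm : ¬ (p : ℤ) ∣ m ^ 2 - W.traceOfFrobenius * m + p) :
    (Nat.card {P : (EK p W K).toAffine.Point // frobPt p W K P = m • P} : ℤ)
      = m ^ 2 - W.traceOfFrobenius * m + p :=
  stmtKerFrob p W K hp2 hΔ hK m hm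

end

end Fermat.Agent.HW
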