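import Fermat.Agent.HW.Defs

/-!
# HW brick — interface statements (helper51)

Each `Stmt…` below is a `Prop`; the owner of a piece proves `theorem … : Stmt…` in the piece's own
file (importing this file).  Piece table, owners and status: `NOTES/HW.md`.
-/

set_option autoImplicit false

open Polynomial

namespace Fermat.Agent.HW

noncomputable section

/-! ### HW-1a  `Eval.lean` : evaluation of rational functions -/

section Eval

variable (K : Type*) [Field K]

/-- a rational function is regular at all but finitely many points -/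
def StmtRegEv : Prop := ∀ R : RatFunc K, ∀ᶠ x in Filter.cofinite, Reg R x

/-- `rev` is a ring homomorphism on functions regular at `x` -/
def StmtRevRing : Prop := ∀ (x : K) (R S : RatFunc K), Reg R x → Reg S x →
  (Reg (R + S) x ∧ rev (R + S) x = rev R x + rev S x) ∧
  (Reg (R * S) x ∧ rev (R * S) x = rev R x * rev S x) ∧
  (Reg (-R) x ∧ rev (-R) x = -rev R x) ∧
  (Reg (R - S) x ∧ rev (R - S) x = rev R x - rev S x) ∧
  (rev S x ≠ 0 → Reg (R / S) x ∧ rev (R / S) x = rev R x / rev S x)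

/-- constants, `X`, polynomials and powers -/
def StmtRevBase : Prop := ∀ x : K,
  (∀ c : K, Reg (RatFunc.C c) x ∧ rev (RatFunc.C c) x = c) ∧
  (Reg (RatFunc.X : RatFunc K) x ∧ rev (RatFunc.X : RatFunc K) x = x) ∧
  (∀ q : K[X], Reg (algebraMap K[X] (RatFunc K) q) x ∧
      rev (algebraMap K[X] (RatFunc K) q) x = q.eval x) ∧
  (∀ (R : RatFunc K) (n : ℕ), Reg R x → Reg (R ^ n) x ∧ rev (R ^ n) x = rev R x ^ n)

/-- a nonzero rational function has finitely many zeros -/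
def StmtRevZeros : Prop := ∀ R : RatFunc K, R ≠ 0 → {x : K | rev R x = 0}.Finite

/-- identity principle -/
def StmtRatExt : Prop := ∀ R S : RatFunc K,
  {x : K | Reg R x ∧ Reg S x ∧ rev R x = rev S x}.Infinite → R = S

/-- composition is compatible with evaluation -/
def StmtRevComp : Prop := ∀ (x : K) (R T : RatFunc K), Reg T x → Reg R (rev T x) →
  Reg (rcomp R T) x ∧ rev (rcomp R T) x = rev R (rev T x)

/-- a nonconstant function takes each value finitely often -/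
def StmtRevFiber : Prop := ∀ (T : RatFunc K), ht T ≠ 0 → ∀ c : K, {x : K | rev T x = c}.Finite

end Eval

/-! ### HW-1b  `HeightComp.lean` (helper44, DONE) : `ht (rcomp R T) = ht R * ht T` -/

section Comp

variable (K : Type*) [Field K]

def StmtHtComp : Prop := ∀ R T : RatFunc K, ht (rcomp R T) = ht R * ht T

def StmtHtConst : Prop := ∀ R : RatFunc K, ht R = 0 ↔ ∃ c : K, R = RatFunc.C c

end Comp

/-! ### HW-2  `Height.lean` (helper46) : the algebraic parallelogram law -/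

section Height

variable {K : Type*} [Field K] (E : WeierstrassCurve K)

def StmtHtAddSub : Prop := E.Δ ≠ 0 → ∀ R₁ R₂ Rp Rm : RatFunc K, R₁ ≠ R₂ →
  (Rp + Rm) * (R₁ - R₂) ^ 2 = Gform E R₁ R₂ →
  Rp * Rm * (R₁ - R₂) ^ 2 = Fform E R₁ R₂ →
  ht Rp + ht Rm = 2 * ht R₁ + 2 * ht R₂

def StmtHtDup : Prop := E.Δ ≠ 0 → ∀ R : RatFunc K, ht (dupR E R) = 4 * ht R

end Height

/-! ### HW-3b  `Chord.lean` : pointwise formulas on `E(K)` -/

section Chord

variable {K : Type*} [Field K] [DecidableEq K] (E : WeierstrassCurve K)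

def StmtEtaSq : Prop := ∀ P : E.toAffine.Point, P ≠ 0 →
  ptEta E P ^ 2 = Psi2form E (ptX E P)

def StmtNegPt : Prop := ∀ P : E.toAffine.Point, P ≠ 0 →
  -P ≠ 0 ∧ ptX E (-P) = ptX E P ∧ ptEta E (-P) = -ptEta E P

def StmtPtExt : Prop := (2 : K) ≠ 0 → ∀ P Q : E.toAffine.Point, P ≠ 0 → Q ≠ 0 →
  ptX E P = ptX E Q → ptEta E P = ptEta E Q → P = Q

def StmtChord : Prop := (2 : K) ≠ 0 → ∀ P Q : E.toAffine.Point, P ≠ 0 → Q ≠ 0 →
  ptX E P ≠ ptX E Q →
  P + Q ≠ 0 ∧
  ptX E (P + Q) = (Gform E (ptX E P) (ptX E Q) - ptEta E P * ptEta E Q)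
      / (2 * (ptX E P - ptX E Q) ^ 2) ∧
  ptEta E (P + Q) = -(ptEta E P - ptEta E Q) * (ptX E (P + Q) - ptX E P)
      / (ptX E P - ptX E Q) - ptEta E P

def StmtTangent : Prop := ∀ P : E.toAffine.Point, P ≠ 0 → ptEta E P ≠ 0 →
  P + P ≠ 0 ∧
  ptX E (P + P) = Fform E (ptX E P) (ptX E P) / Psi2form E (ptX E P) ∧
  ptEta E (P + P) = ptEta E P * Pre4form E (ptX E P) / Psi2form E (ptX E P) ^ 2

/-- every `x` is the x-coordinate of a point, and of finitely many -/
def StmtExistsPt : Prop := IsAlgClosed K → E.Δ ≠ 0 → ∀ x : K,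
  ∃ P : E.toAffine.Point, P ≠ 0 ∧ ptX E P = x

def StmtFiberPt : Prop := ∀ x : K, {P : E.toAffine.Point | ptX E P = x}.Finite

end Chord

section FrobPt

variable (p : ℕ) [Fact p.Prime] (W : WeierstrassCurve (ZMod p))
  (K : Type*) [Field K] [DecidableEq K] [Algebra (ZMod p) K]

def StmtFrobPt : Prop := ∀ P : (EK p W K).toAffine.Point, P ≠ 0 →
  frobPt p W K P ≠ 0 ∧ ptX _ (frobPt p W K P) = ptX _ P ^ p ∧
  ptEta _ (frobPt p W K P) = ptEta _ P ^ p

end FrobPt

/-! ### HW-3a  `RepBasic.lean` : represented maps -/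

section RepBasic

variable {K : Type*} [Field K] [DecidableEq K] (E : WeierstrassCurve K)

/-- hypotheses common to all `Rep` statements -/
structure Hyp : Prop where
  algClosed : IsAlgClosed K
  two_ne : (2 : K) ≠ 0
  disc_ne : E.Δ ≠ 0

def StmtRepId : Prop := Hyp E → Rep E id RatFunc.X 1

def StmtRepNeg : Prop := Hyp E → ∀ (α : E.toAffine.Point → E.toAffine.Point) (R S : RatFunc K),
  Rep E α R S → Rep E (-α) R (-S)

def StmtRepEtaSq : Prop := Hyp E → ∀ (α : E.toAffine.Point → E.toAffine.Point)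
  (R S : RatFunc K), Rep E α R S → Psi2form E R = Psi2form E RatFunc.X * S ^ 2

def StmtRepUnique : Prop := Hyp E → ∀ (α : E.toAffine.Point → E.toAffine.Point)
  (R S R' S' : RatFunc K), Rep E α R S → Rep E α R' S' → R = R' ∧ S = S'

def StmtRepNonconst : Prop := Hyp E → ∀ (α : AddMonoid.End E.toAffine.Point)
  (R S : RatFunc K), Rep E (⇑α) R S → ht R ≠ 0

def StmtRepInj : Prop := Hyp E → ∀ (α β : AddMonoid.End E.toAffine.Point)
  (R S : RatFunc K), Rep E (⇑α) R S → Rep E (⇑β) R S → α = β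

def StmtRepComp : Prop := Hyp E → ∀ (α β : E.toAffine.Point → E.toAffine.Point)
  (R S R' S' : RatFunc K), Rep E α R S → Rep E β R' S' → ht R' ≠ 0 →
  Rep E (α ∘ β) (rcomp R R') (S' * rcomp S R')

end RepBasic

section RepFrob

variable (p : ℕ) [Fact p.Prime] (W : WeierstrassCurve (ZMod p))
  (K : Type*) [Field K] [DecidableEq K] [Algebra (ZMod p) K]

def StmtRepFrob : Prop := Hyp (EK p W K) →
  Rep (EK p W K) (⇑(frobPt p W K)) (RatFunc.X ^ p)
    (Psi2form (EK p W K) (RatFunc.X : RatFunc K) ^ ((p - 1) / 2))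

end RepFrob

/-! ### HW-3c  `RepAdd.lean` : sum and duplication rules -/

section RepAdd

variable {K : Type*} [Field K] [DecidableEq K] (E : WeierstrassCurve K)

def StmtRepAdd : Prop := Hyp E → ∀ (α β : E.toAffine.Point → E.toAffine.Point)
  (R₁ S₁ R₂ S₂ : RatFunc K), Rep E α R₁ S₁ → Rep E β R₂ S₂ → R₁ ≠ R₂ →
  Rep E (α + β) (sumR E R₁ S₁ R₂ S₂) (sumS E R₁ S₁ R₂ S₂)

def StmtRepDup : Prop := Hyp E → ∀ (α : E.toAffine.Point → E.toAffine.Point)
  (R S : RatFunc K), Rep E α R S → ht R ≠ 0 → Rep E (α + α) (dupR E R) (dupS E R S)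

/-- the two identities feeding `StmtHtAddSub` -/
def StmtSumProd : Prop := (2 : K) ≠ 0 → ∀ (R₁ S₁ R₂ S₂ : RatFunc K), R₁ ≠ R₂ →
  Psi2form E R₁ = Psi2form E RatFunc.X * S₁ ^ 2 →
  Psi2form E R₂ = Psi2form E RatFunc.X * S₂ ^ 2 →
  (sumR E R₁ S₁ R₂ S₂ + sumR E R₁ S₁ R₂ (-S₂)) * (R₁ - R₂) ^ 2 = Gform E R₁ R₂ ∧
  sumR E R₁ S₁ R₂ S₂ * sumR E R₁ S₁ R₂ (-S₂) * (R₁ - R₂) ^ 2 = Fform E R₁ R₂

end RepAdd

/-! ### HW-3d  `Par.lean` : the degree function on represented endomorphisms -/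

section Par

variable {K : Type*} [Field K] [DecidableEq K] (E : WeierstrassCurve K)

def StmtIsReprRing : Prop := Hyp E → IsRepr E 1 ∧
  (∀ α β : AddMonoid.End E.toAffine.Point, IsRepr E α → IsRepr E β →
    IsRepr E (α + β) ∧ IsRepr E (-α) ∧ IsRepr E (α * β))

def StmtHdeg : Prop := Hyp E → hdeg E 1 = 1 ∧
  (∀ α : AddMonoid.End E.toAffine.Point, IsRepr E α → hdeg E α = 0 → α = 0) ∧
  (∀ α β : AddMonoid.End E.toAffine.Point, IsRepr E α → IsRepr E β →
    hdeg E (α * β) = hdeg E α * hdeg E β) ∧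
  (∀ α β : AddMonoid.End E.toAffine.Point, IsRepr E α → IsRepr E β →
    hdeg E (α + β) + hdeg E (α - β) = 2 * hdeg E α + 2 * hdeg E β)

/-- `hdeg` can be read off from any representation -/
def StmtHdegEq : Prop := Hyp E → ∀ (α : AddMonoid.End E.toAffine.Point) (R S : RatFunc K),
  Rep E (⇑α) R S → hdeg E α = ht R

end Par

/-! ### HW-5  `Count.lean` (helper22) : `ht R_{φ−1} = #E(𝔽_p)` -/

section Count

variable (p : ℕ) [Fact p.Prime] (W : WeierstrassCurve (ZMod p))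
  (K : Type*) [Field K] [Algebra (ZMod p) K]

/-- `R_{φ−1} = sumR (X^p) (Ψ₂²^((p−1)/2)) X (−1)`, written out -/
def StmtCount : Prop := p ≠ 2 → W.Δ ≠ 0 →
  ht ((Gform (EK p W K) (RatFunc.X ^ p) (RatFunc.X : RatFunc K)
        + Psi2form (EK p W K) (RatFunc.X : RatFunc K) ^ ((p + 1) / 2))
      / (2 * ((RatFunc.X : RatFunc K) ^ p - RatFunc.X) ^ 2))
    = Nat.card W.toAffine.Point

end Count

/-! ### HW-6  `Main.lean` : the Frobenius relation -/

section Main

variable (p : ℕ) [Fact p.Prime] (W : WeierstrassCurve (ZMod p))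
  (K : Type*) [Field K] [DecidableEq K] [Algebra (ZMod p) K]

/-- `φ² − t φ + p = 0` with `t = p + 1 − #E(𝔽_p)` (`= W.traceOfFrobenius` of the prelude) -/
def StmtFrobRelation : Prop := p ≠ 2 → W.Δ ≠ 0 → IsAlgClosed K →
  ∀ P : (EK p W K).toAffine.Point,
    frobPt p W K (frobPt p W K P)
      - ((p : ℤ) + 1 - (Nat.card W.toAffine.Point : ℤ)) • frobPt p W K P + (p : ℤ) • P = 0

end Main

end

end Fermat.Agent.HW
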