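/-
HW brick, piece HW-3b (helper12): the pointwise statements of `Plan.lean`
(`StmtEtaSq`, `StmtNegPt`, `StmtPtExt`, `StmtChord`, `StmtTangent`, `StmtExistsPt`,
`StmtFiberPt`, `StmtFrobPt`) in the `(ptX, ptEta)` coordinates of `Defs.lean`.
Self-contained on top of Mathlib and `Plan.lean`.
-/
import Fermat.Agent.HW.Plan

set_option autoImplicit false
set_option linter.unusedSectionVars false

open Polynomial

namespace Fermat.Agent.HW

open WeierstrassCurve WeierstrassCurve.Affine

noncomputable section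

section Basic

variable {K : Type*} [Field K] [DecidableEq K] (E : WeierstrassCurve K)

@[simp] lemma cp_ptX_some {x y : K} (h : E.toAffine.Nonsingular x y) :
    ptX E (Point.some x y h) = x := rfl

@[simp] lemma cp_ptY_some {x y : K} (h : E.toAffine.Nonsingular x y) :
    ptY E (Point.some x y h) = y := rfl

@[simp] lemma cp_ptEta_some {x y : K} (h : E.toAffine.Nonsingular x y) :
    ptEta E (Point.some x y h) = 2 * y + E.a₁ * x + E.a₃ := rfl

lemma cp_Psi2form_eq (x : K) :
    Psi2form E x = 4 * x ^ 3 + E.b₂ * x ^ 2 + 2 * E.b₄ * x + E.b₆ := by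
  simp [Psi2form]

lemma cp_Gform_eq (x₁ x₂ : K) :
    Gform E x₁ x₂ = 2 * x₁ * x₂ * (x₁ + x₂) + E.b₂ * x₁ * x₂ + E.b₄ * (x₁ + x₂) + E.b₆ := by
  simp [Gform]

lemma cp_Fform_eq (x₁ x₂ : K) :
    Fform E x₁ x₂ = x₁ ^ 2 * x₂ ^ 2 - E.b₄ * x₁ * x₂ - E.b₆ * (x₁ + x₂) - E.b₈ := by
  simp [Fform]

lemma cp_Pre4form_eq (x : K) :
    Pre4form E x = 2 * x ^ 6 + E.b₂ * x ^ 5 + 5 * E.b₄ * x ^ 4 + 10 * E.b₆ * x ^ 3
      + 10 * E.b₈ * x ^ 2 + (E.b₂ * E.b₈ - E.b₄ * E.b₆) * x + (E.b₄ * E.b₈ - E.b₆ ^ 2) := by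
  simp [Pre4form, WeierstrassCurve.preΨ₄]

/-- the Weierstrass equation in the form `η² = 4x³ + b₂x² + 2b₄x + b₆`. -/
lemma cp_eta_sq_of_equation {x y : K} (h : E.toAffine.Equation x y) :
    (2 * y + E.a₁ * x + E.a₃) ^ 2 = 4 * x ^ 3 + E.b₂ * x ^ 2 + 2 * E.b₄ * x + E.b₆ := by
  have h' := (Affine.equation_iff (W := E.toAffine) x y).mp h
  simp only [WeierstrassCurve.b₂, WeierstrassCurve.b₄, WeierstrassCurve.b₆]
  linear_combination 4 * h'

theorem cp_stmtEtaSq : StmtEtaSq E := by
  intro P hP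
  cases P with
  | zero => exact absurd rfl hP
  | some x y h =>
    rw [cp_ptEta_some, cp_ptX_some, cp_Psi2form_eq]
    exact cp_eta_sq_of_equation E h.1

theorem cp_stmtNegPt : StmtNegPt E := by
  intro P hP
  cases P with
  | zero => exact absurd rfl hP
  | some x y h =>
    rw [Point.neg_some]
    refine ⟨Point.some_ne_zero _, rfl, ?_⟩
    simp only [cp_ptEta_some, Affine.negY]
    ring

theorem cp_stmtPtExt : StmtPtExt E := by
  intro h2 P Q hP hQ hx hη
  cases P with
  | zero => exact absurd rfl hP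
  | some x₁ y₁ h₁ =>
    cases Q with
    | zero => exact absurd rfl hQ
    | some x₂ y₂ h₂ =>
      simp only [cp_ptX_some, cp_ptEta_some] at hx hη
      subst hx
      have hy : y₁ = y₂ := by
        have : 2 * (y₁ - y₂) = 0 := by linear_combination hη
        have := (mul_eq_zero.mp this).resolve_left h2
        exact sub_eq_zero.mp this
      subst hy
      rfl

theorem cp_stmtChord : StmtChord E := by
  intro h2 P Q hP hQ hx
  cases P with
  | zero => exact absurd rfl hP
  | some x₁ y₁ h₁ =>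
    cases Q with
    | zero => exact absurd rfl hQ
    | some x₂ y₂ h₂ =>
      simp only [cp_ptX_some] at hx
      rw [Point.add_of_X_ne hx]
      have e₁ := (Affine.equation_iff (W := E.toAffine) x₁ y₁).mp h₁.1
      have e₂ := (Affine.equation_iff (W := E.toAffine) x₂ y₂).mp h₂.1
      have hd : x₁ - x₂ ≠ 0 := sub_ne_zero.mpr hx
      refine ⟨Point.some_ne_zero _, ?_, ?_⟩
      · simp only [cp_ptX_some, cp_ptEta_some, cp_Gform_eq, Affine.addX,
          Affine.slope_of_X_ne hx, WeierstrassCurve.b₂, WeierstrassCurve.b₄,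
          WeierstrassCurve.b₆]
        field_simp
        linear_combination 2 * e₁ + 2 * e₂
      · simp only [cp_ptX_some, cp_ptEta_some, Affine.addX, Affine.addY, Affine.negAddY,
          Affine.negY, Affine.slope_of_X_ne hx]
        field_simp
        ring

/-- numerator identity for the `x`-coordinate of `2P`. -/
lemma cp_dup_x_num {x y : K} (h : E.toAffine.Equation x y) :
    (3 * x ^ 2 + 2 * E.a₂ * x + E.a₄ - E.a₁ * y) ^ 2
      + E.a₁ * (3 * x ^ 2 + 2 * E.a₂ * x + E.a₄ - E.a₁ * y) * (2 * y + E.a₁ * x + E.a₃)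
      - (E.a₂ + 2 * x) * (2 * y + E.a₁ * x + E.a₃) ^ 2
      = x ^ 2 * x ^ 2 - E.b₄ * x * x - E.b₆ * (x + x) - E.b₈ := by
  have e := (Affine.equation_iff (W := E.toAffine) x y).mp h
  simp only [WeierstrassCurve.b₄, WeierstrassCurve.b₆, WeierstrassCurve.b₈]
  linear_combination (-8 * x - E.a₁ ^ 2 - 4 * E.a₂) * e

/-- numerator identity for `η(2P)`. -/
lemma cp_dup_eta_num {x y : K} (h : E.toAffine.Equation x y) :
    -2 * (3 * x ^ 2 + 2 * E.a₂ * x + E.a₄ - E.a₁ * y)
        * ((x ^ 2 * x ^ 2 - E.b₄ * x * x - E.b₆ * (x + x) - E.b₈)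
            - x * (2 * y + E.a₁ * x + E.a₃) ^ 2)
      - E.a₁ * (x ^ 2 * x ^ 2 - E.b₄ * x * x - E.b₆ * (x + x) - E.b₈)
          * (2 * y + E.a₁ * x + E.a₃)
      - (2 * y + E.a₃) * (2 * y + E.a₁ * x + E.a₃) ^ 3
      = 2 * x ^ 6 + E.b₂ * x ^ 5 + 5 * E.b₄ * x ^ 4 + 10 * E.b₆ * x ^ 3
        + 10 * E.b₈ * x ^ 2 + (E.b₂ * E.b₈ - E.b₄ * E.b₆) * x + (E.b₄ * E.b₈ - E.b₆ ^ 2) := by
  have e := (Affine.equation_iff (W := E.toAffine) x y).mp h
  have e1 := cp_dup_x_num E h
  simp only [WeierstrassCurve.b₂, WeierstrassCurve.b₄, WeierstrassCurve.b₆,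
    WeierstrassCurve.b₈] at e1 ⊢
  linear_combination
    (-16 * y ^ 2 - 16 * y * x * E.a₁ - 16 * y * E.a₃ + 56 * x ^ 3 + 10 * x ^ 2 * E.a₁ ^ 2
      + 56 * x ^ 2 * E.a₂ + x * E.a₁ ^ 4 + 8 * x * E.a₁ ^ 2 * E.a₂ - 4 * x * E.a₁ * E.a₃
      + 16 * x * E.a₂ ^ 2 + 8 * x * E.a₄ + E.a₁ ^ 3 * E.a₃ + 2 * E.a₁ ^ 2 * E.a₄
      + 4 * E.a₁ * E.a₂ * E.a₃ + 8 * E.a₂ * E.a₄ - 8 * E.a₃ ^ 2 - 16 * E.a₆) * e
    + (2 * (3 * x ^ 2 + 2 * E.a₂ * x + E.a₄ - E.a₁ * y)
        + E.a₁ * (2 * y + E.a₁ * x + E.a₃)) * e1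

theorem cp_stmtTangent : StmtTangent E := by
  intro P hP hη
  cases P with
  | zero => exact absurd rfl hP
  | some x y h =>
    simp only [cp_ptEta_some, cp_ptX_some] at hη ⊢
    have hden : y - E.toAffine.negY x y = 2 * y + E.a₁ * x + E.a₃ := by
      simp only [Affine.negY]; ring
    have hy : y ≠ E.toAffine.negY x y := by
      intro h0
      apply hη
      rw [← hden, sub_eq_zero]
      exact h0
    rw [Point.add_self_of_Y_ne hy]
    have hΨ : Psi2form E x = (2 * y + E.a₁ * x + E.a₃) ^ 2 := by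
      rw [cp_Psi2form_eq]; exact (cp_eta_sq_of_equation E h.1).symm
    have e1 := cp_dup_x_num E h.1
    have e2 := cp_dup_eta_num E h.1
    set η := 2 * y + E.a₁ * x + E.a₃ with hηdef
    set N := 3 * x ^ 2 + 2 * E.a₂ * x + E.a₄ - E.a₁ * y with hNdef
    have hx3 : E.toAffine.addX x x (E.toAffine.slope x x y y) = Fform E x x / η ^ 2 := by
      rw [Affine.slope_of_Y_ne rfl hy, hden, eq_div_iff (pow_ne_zero 2 hη), cp_Fform_eq, ← e1]
      simp only [Affine.addX]
      field_simp
      ring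
    refine ⟨Point.some_ne_zero _, ?_, ?_⟩
    · rw [cp_ptX_some, hΨ]
      exact hx3
    · rw [cp_ptEta_some, hΨ]
      simp only [Affine.addY, Affine.negAddY, Affine.negY]
      rw [hx3]
      rw [Affine.slope_of_Y_ne rfl hy, hden, cp_Pre4form_eq, ← e2, cp_Fform_eq]
      field_simp
      ring

/-- the quadratic polynomial in `y` cutting out the points above `x`. -/
def cp_fiberPoly (x : K) : K[X] :=
  X ^ 2 + C (E.a₁ * x + E.a₃) * X - C (x ^ 3 + E.a₂ * x ^ 2 + E.a₄ * x + E.a₆)

lemma cp_fiberPoly_natDegree (x : K) : (cp_fiberPoly E x).natDegree = 2 := by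
  unfold cp_fiberPoly
  compute_degree!

lemma cp_fiberPoly_ne_zero (x : K) : cp_fiberPoly E x ≠ 0 := by
  intro h
  have := cp_fiberPoly_natDegree E x
  rw [h] at this
  simp at this

lemma cp_fiberPoly_eval (x y : K) :
    (cp_fiberPoly E x).eval y
      = y ^ 2 + E.a₁ * x * y + E.a₃ * y - (x ^ 3 + E.a₂ * x ^ 2 + E.a₄ * x + E.a₆) := by
  simp [cp_fiberPoly]; ring

lemma cp_equation_iff_root (x y : K) :
    E.toAffine.Equation x y ↔ (cp_fiberPoly E x).IsRoot y := by
  rw [Polynomial.IsRoot, cp_fiberPoly_eval, Affine.equation_iff, sub_eq_zero]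

theorem cp_stmtExistsPt : StmtExistsPt E := by
  intro hK hΔ x
  have := hK
  have hdeg : (cp_fiberPoly E x).degree ≠ 0 := by
    rw [Polynomial.degree_eq_natDegree (cp_fiberPoly_ne_zero E x), cp_fiberPoly_natDegree]
    norm_num
  obtain ⟨y, hy⟩ := IsAlgClosed.exists_root (cp_fiberPoly E x) hdeg
  have heq : E.toAffine.Equation x y := (cp_equation_iff_root E x y).mpr hy
  have hns : E.toAffine.Nonsingular x y :=
    (Affine.equation_iff_nonsingular_of_Δ_ne_zero (W := E.toAffine) hΔ).mp heq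
  exact ⟨Point.some x y hns, Point.some_ne_zero _, rfl⟩

/-- coordinates of a point as an element of `Option (K × K)`. -/
def cp_coords : E.toAffine.Point → Option (K × K)
  | .zero => none
  | .some x y _ => some (x, y)

lemma cp_coords_injective : Function.Injective (cp_coords E) := by
  intro P Q h
  cases P with
  | zero =>
    cases Q with
    | zero => rfl
    | some x y h' => simp [cp_coords] at h
  | some x y h' =>
    cases Q with
    | zero => simp [cp_coords] at h
    | some x' y' h'' =>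
      simp only [cp_coords, Option.some.injEq, Prod.mk.injEq] at h
      obtain ⟨rfl, rfl⟩ := h
      rfl

theorem cp_stmtFiberPt : StmtFiberPt E := by
  intro x
  have hfin : (insert (none : Option (K × K))
      ((fun y : K => some (x, y)) '' {y : K | (cp_fiberPoly E x).IsRoot y})).Finite :=
    ((Polynomial.finite_setOfPred_isRoot (cp_fiberPoly_ne_zero E x)).image _).insert _
  refine Set.Finite.of_finite_image (f := cp_coords E) (hfin.subset ?_)
    ((cp_coords_injective E).injOn)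
  rintro _ ⟨P, hP, rfl⟩
  cases P with
  | zero => exact Set.mem_insert _ _
  | some x' y' h' =>
    have hx : x' = x := hP
    subst hx
    exact Set.mem_insert_of_mem _ ⟨y', (cp_equation_iff_root E x' y').mp h'.1, rfl⟩

end Basic

section Frob

variable (p : ℕ) [Fact p.Prime] (W : WeierstrassCurve (ZMod p))
  (K : Type*) [Field K] [DecidableEq K] [Algebra (ZMod p) K]

lemma cp_frob_apply (x : K) : FiniteField.frobeniusAlgHom (ZMod p) K x = x ^ p := by
  simp [FiniteField.frobeniusAlgHom, ZMod.card]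

lemma cp_algebraMap_pow (a : ZMod p) : (algebraMap (ZMod p) K a) ^ p = algebraMap (ZMod p) K a := by
  rw [← map_pow, ZMod.pow_card]

theorem cp_stmtFrobPt : StmtFrobPt p W K := by
  intro P hP
  have : CharP K p := by
    have : CharP (ZMod p) p := ZMod.charP p
    exact charP_of_injective_algebraMap (algebraMap (ZMod p) K).injective p
  cases P with
  | zero => exact absurd rfl hP
  | some x y h =>
    have hmap := Point.map_some (W' := W) (FiniteField.frobeniusAlgHom (ZMod p) K) h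
    rw [show frobPt p W K (Point.some x y h) = _ from hmap]
    refine ⟨Point.some_ne_zero _, ?_, ?_⟩
    · change FiniteField.frobeniusAlgHom (ZMod p) K x = x ^ p
      exact cp_frob_apply p K x
    · change 2 * FiniteField.frobeniusAlgHom (ZMod p) K y
          + (EK p W K).a₁ * FiniteField.frobeniusAlgHom (ZMod p) K x + (EK p W K).a₃
        = (2 * y + (EK p W K).a₁ * x + (EK p W K).a₃) ^ p
      rw [cp_frob_apply, cp_frob_apply]
      have h2 : ((2 : K)) ^ p = 2 := by
        have := cp_algebraMap_pow p K (2 : ZMod p)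
        rwa [map_ofNat] at this
      have ha1 : (EK p W K).a₁ ^ p = (EK p W K).a₁ := by
        simpa [EK] using cp_algebraMap_pow p K W.a₁
      have ha3 : (EK p W K).a₃ ^ p = (EK p W K).a₃ := by
        simpa [EK] using cp_algebraMap_pow p K W.a₃
      rw [add_pow_char, add_pow_char, mul_pow, mul_pow, h2, ha1]
      rw [ha3]

end Frob

end

end Fermat.Agent.HW
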