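import Fermat.Agent.HW.Plan

/-!
# HW brick, piece HW-1a: evaluation of rational functions (helper44)

Proofs of `StmtRegEv`, `StmtRevRing`, `StmtRevBase`, `StmtRevZeros`, `StmtRatExt`, `StmtRevComp`,
`StmtRevFiber` of `Plan.lean`.
-/

set_option autoImplicit false

open Polynomial

namespace Fermat.Agent.HW

variable {K : Type*} [Field K]

lemma hwEv_rev_eq (R : RatFunc K) (x : K) : rev R x = R.num.eval x / R.denom.eval x := by
  simp [rev, RatFunc.eval, Polynomial.eval₂_id]

/-- Evaluation of a quotient of polynomials at a point where the denominator does not vanish. -/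
lemma hwEv_div (a b : K[X]) (x : K) (hb : b.eval x ≠ 0) :
    Reg (algebraMap K[X] (RatFunc K) a / algebraMap K[X] (RatFunc K) b) x ∧
      rev (algebraMap K[X] (RatFunc K) a / algebraMap K[X] (RatFunc K) b) x =
        a.eval x / b.eval x := by
  have hb0 : b ≠ 0 := by
    rintro rfl
    simp at hb
  set R := algebraMap K[X] (RatFunc K) a / algebraMap K[X] (RatFunc K) b with hR
  have hdvd : R.denom ∣ b := RatFunc.denom_div_dvd a b
  have hreg : R.denom.eval x ≠ 0 := by
    intro h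
    obtain ⟨c, hc⟩ := hdvd
    apply hb
    rw [hc, eval_mul, h, zero_mul]
  refine ⟨hreg, ?_⟩
  have hrel : R.num * b = a * R.denom := (RatFunc.num_mul_eq_mul_denom_iff hb0).mpr hR
  have hrel' := congrArg (Polynomial.eval x) hrel
  rw [eval_mul, eval_mul] at hrel'
  rw [hwEv_rev_eq, div_eq_div_iff hreg hb, hrel']

lemma hwEv_self (R : RatFunc K) :
    algebraMap K[X] (RatFunc K) R.num / algebraMap K[X] (RatFunc K) R.denom = R :=
  RatFunc.num_div_denom R

theorem stmtRegEv : StmtRegEv K := by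
  intro R
  rw [Filter.eventually_cofinite]
  refine (Polynomial.finite_setOf_isRoot (RatFunc.denom_ne_zero R)).subset ?_
  intro x hx
  simp only [Reg, not_not, Set.mem_setOf_eq] at hx
  exact hx

lemma hwEv_add (x : K) (R S : RatFunc K) (hR : Reg R x) (hS : Reg S x) :
    Reg (R + S) x ∧ rev (R + S) x = rev R x + rev S x := by
  have h : R + S = algebraMap K[X] (RatFunc K) (R.num * S.denom + S.num * R.denom) /
      algebraMap K[X] (RatFunc K) (R.denom * S.denom) := by
    conv_lhs => rw [← hwEv_self R, ← hwEv_self S]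
    have h1 : algebraMap K[X] (RatFunc K) R.denom ≠ 0 := by
      simpa using RatFunc.denom_ne_zero R
    have h2 : algebraMap K[X] (RatFunc K) S.denom ≠ 0 := by
      simpa using RatFunc.denom_ne_zero S
    rw [div_add_div _ _ h1 h2]
    simp only [map_add, map_mul]
    ring
  have hb : (R.denom * S.denom).eval x ≠ 0 := by
    rw [eval_mul]; exact mul_ne_zero hR hS
  obtain ⟨h1, h2⟩ := hwEv_div (R.num * S.denom + S.num * R.denom) (R.denom * S.denom) x hb
  rw [← h] at h1 h2
  refine ⟨h1, ?_⟩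
  rw [h2, hwEv_rev_eq, hwEv_rev_eq, eval_add, eval_mul, eval_mul, eval_mul]
  unfold Reg at hR hS
  field_simp

lemma hwEv_mul (x : K) (R S : RatFunc K) (hR : Reg R x) (hS : Reg S x) :
    Reg (R * S) x ∧ rev (R * S) x = rev R x * rev S x := by
  have h : R * S = algebraMap K[X] (RatFunc K) (R.num * S.num) /
      algebraMap K[X] (RatFunc K) (R.denom * S.denom) := by
    conv_lhs => rw [← hwEv_self R, ← hwEv_self S]
    rw [div_mul_div_comm]
    simp only [map_mul]
  have hb : (R.denom * S.denom).eval x ≠ 0 := by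
    rw [eval_mul]; exact mul_ne_zero hR hS
  obtain ⟨h1, h2⟩ := hwEv_div (R.num * S.num) (R.denom * S.denom) x hb
  rw [← h] at h1 h2
  refine ⟨h1, ?_⟩
  rw [h2, hwEv_rev_eq, hwEv_rev_eq, eval_mul, eval_mul]
  unfold Reg at hR hS
  field_simp

lemma hwEv_neg (x : K) (R : RatFunc K) (hR : Reg R x) :
    Reg (-R) x ∧ rev (-R) x = -rev R x := by
  have h : -R = algebraMap K[X] (RatFunc K) (-R.num) / algebraMap K[X] (RatFunc K) R.denom := by
    conv_lhs => rw [← hwEv_self R]
    rw [map_neg, neg_div]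
  obtain ⟨h1, h2⟩ := hwEv_div (-R.num) R.denom x hR
  rw [← h] at h1 h2
  refine ⟨h1, ?_⟩
  rw [h2, hwEv_rev_eq, eval_neg, neg_div]

lemma hwEv_sub (x : K) (R S : RatFunc K) (hR : Reg R x) (hS : Reg S x) :
    Reg (R - S) x ∧ rev (R - S) x = rev R x - rev S x := by
  obtain ⟨h1, h2⟩ := hwEv_neg x S hS
  obtain ⟨h3, h4⟩ := hwEv_add x R (-S) hR h1
  rw [sub_eq_add_neg]
  exact ⟨h3, by rw [h4, h2, sub_eq_add_neg]⟩

lemma hwEv_quot (x : K) (R S : RatFunc K) (hR : Reg R x) (hS : Reg S x) (h0 : rev S x ≠ 0) :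
    Reg (R / S) x ∧ rev (R / S) x = rev R x / rev S x := by
  have hSn : S.num.eval x ≠ 0 := by
    intro h
    apply h0
    rw [hwEv_rev_eq, h, zero_div]
  have hS0 : S ≠ 0 := by
    rintro rfl
    simp [rev] at h0
  have h : R / S = algebraMap K[X] (RatFunc K) (R.num * S.denom) /
      algebraMap K[X] (RatFunc K) (R.denom * S.num) := by
    conv_lhs => rw [← hwEv_self R, ← hwEv_self S]
    rw [div_div_div_eq]
    simp only [map_mul]
  have hb : (R.denom * S.num).eval x ≠ 0 := by
    rw [eval_mul]; exact mul_ne_zero hR hSn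
  obtain ⟨h1, h2⟩ := hwEv_div (R.num * S.denom) (R.denom * S.num) x hb
  rw [← h] at h1 h2
  refine ⟨h1, ?_⟩
  rw [h2, hwEv_rev_eq, hwEv_rev_eq, eval_mul, eval_mul]
  unfold Reg at hR hS
  field_simp

theorem stmtRevRing : StmtRevRing K := by
  intro x R S hR hS
  exact ⟨hwEv_add x R S hR hS, hwEv_mul x R S hR hS, hwEv_neg x R hR, hwEv_sub x R S hR hS,
    fun h0 => hwEv_quot x R S hR hS h0⟩

lemma hwEv_C (x c : K) : Reg (RatFunc.C c) x ∧ rev (RatFunc.C c) x = c := by
  constructor
  · simp [Reg]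
  · simp [rev]

lemma hwEv_X (x : K) : Reg (RatFunc.X : RatFunc K) x ∧ rev (RatFunc.X : RatFunc K) x = x := by
  constructor
  · simp [Reg]
  · simp [rev]

lemma hwEv_poly (x : K) (q : K[X]) : Reg (algebraMap K[X] (RatFunc K) q) x ∧
    rev (algebraMap K[X] (RatFunc K) q) x = q.eval x := by
  constructor
  · simp [Reg]
  · rw [hwEv_rev_eq]
    simp

lemma hwEv_pow (x : K) (R : RatFunc K) (n : ℕ) (hR : Reg R x) :
    Reg (R ^ n) x ∧ rev (R ^ n) x = rev R x ^ n := by
  induction n with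
  | zero =>
    rw [pow_zero, pow_zero]
    have := hwEv_C x (1 : K)
    rwa [map_one] at this
  | succ n ih =>
    obtain ⟨h1, h2⟩ := hwEv_mul x (R ^ n) R ih.1 hR
    rw [pow_succ, pow_succ]
    exact ⟨h1, by rw [h2, ih.2]⟩

theorem stmtRevBase : StmtRevBase K := by
  intro x
  exact ⟨fun c => hwEv_C x c, hwEv_X x, fun q => hwEv_poly x q, fun R n hR => hwEv_pow x R n hR⟩

theorem stmtRevZeros : StmtRevZeros K := by
  intro R hR
  have hn : R.num ≠ 0 := RatFunc.num_ne_zero hR
  refine ((Polynomial.finite_setOf_isRoot hn).union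
    (Polynomial.finite_setOf_isRoot (RatFunc.denom_ne_zero R))).subset ?_
  intro x hx
  simp only [Set.mem_setOf_eq, hwEv_rev_eq, div_eq_zero_iff] at hx
  rcases hx with h | h
  · exact Or.inl h
  · exact Or.inr h

theorem stmtRatExt : StmtRatExt K := by
  intro R S hinf
  by_contra hne
  have h0 : R - S ≠ 0 := sub_ne_zero.mpr hne
  apply hinf
  refine (stmtRevZeros (K := K) (R - S) h0).subset ?_
  rintro x ⟨hR, hS, h⟩
  simp only [Set.mem_setOf_eq]
  rw [(hwEv_sub x R S hR hS).2, h, sub_self]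

lemma hwEv_aeval (x : K) (T : RatFunc K) (hT : Reg T x) (q : K[X]) :
    Reg (aeval T q) x ∧ rev (aeval T q) x = q.eval (rev T x) := by
  induction q using Polynomial.induction_on' with
  | add a b ha hb =>
    obtain ⟨h1, h2⟩ := hwEv_add x _ _ ha.1 hb.1
    rw [map_add, eval_add]
    exact ⟨h1, by rw [h2, ha.2, hb.2]⟩
  | monomial n c =>
    rw [aeval_monomial, eval_monomial]
    obtain ⟨h1, h2⟩ := hwEv_pow x T n hT
    obtain ⟨h3, h4⟩ := hwEv_mul x (algebraMap K (RatFunc K) c) (T ^ n)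
      (by rw [RatFunc.algebraMap_eq_C]; exact (hwEv_C x c).1) h1
    refine ⟨h3, ?_⟩
    rw [h4, h2, RatFunc.algebraMap_eq_C, (hwEv_C x c).2]

lemma hwEv_rcomp_eq (R T : RatFunc K) :
    rcomp R T = aeval T R.num / aeval T R.denom := rfl

theorem stmtRevComp : StmtRevComp K := by
  intro x R T hT hR
  obtain ⟨h1, h2⟩ := hwEv_aeval x T hT R.num
  obtain ⟨h3, h4⟩ := hwEv_aeval x T hT R.denom
  have h0 : rev (aeval T R.denom) x ≠ 0 := by
    rw [h4]; exact hR
  obtain ⟨h5, h6⟩ := hwEv_quot x _ _ h1 h3 h0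
  rw [hwEv_rcomp_eq]
  refine ⟨h5, ?_⟩
  rw [h6, h2, h4]
  exact (hwEv_rev_eq R _).symm

theorem stmtRevFiber : StmtRevFiber K := by
  intro T hT c
  have hne : T - RatFunc.C c ≠ 0 := by
    intro h
    apply hT
    rw [sub_eq_zero] at h
    rw [h]
    simp [ht]
  have h1 : {x : K | ¬ Reg T x}.Finite := by
    have := stmtRegEv (K := K) T
    rwa [Filter.eventually_cofinite] at this
  refine (h1.union (stmtRevZeros (K := K) _ hne)).subset ?_
  intro x hx
  simp only [Set.mem_setOf_eq] at hx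
  by_cases hreg : Reg T x
  · right
    simp only [Set.mem_setOf_eq]
    rw [(hwEv_sub x T (RatFunc.C c) hreg (hwEv_C x c).1).2, hx, (hwEv_C x c).2, sub_self]
  · left
    exact hreg

end Fermat.Agent.HW
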