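import Fermat.Agent.HW.Plan

/-!
# HW-3c : sum and duplication rules for represented maps (helper46)

* `stmtSumProd : StmtSumProd E` (pure algebra in `RatFunc K`);
* `stmtRepAdd_of`, `stmtRepDup_of` : `StmtRepAdd E`, `StmtRepDup E` from the statements of HW-1a / HW-3a / HW-3b.
-/

set_option autoImplicit false

open Polynomial

namespace Fermat.Agent.HW

noncomputable section

section SumProd

variable {K : Type*} [Field K] (E : WeierstrassCurve K)

/-- the classical identity `G² − Ψ₂²(x₁)Ψ₂²(x₂) = 4 (x₁ − x₂)² F` in any commutative `K`-algebra -/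
theorem Gform_sq_sub {A : Type*} [CommRing A] [Algebra K A] (x₁ x₂ : A) :
    Gform E x₁ x₂ ^ 2 - Psi2form E x₁ * Psi2form E x₂ = 4 * (x₁ - x₂) ^ 2 * Fform E x₁ x₂ := by
  have hb : algebraMap K A E.b₂ * algebraMap K A E.b₆ - algebraMap K A E.b₄ ^ 2
      = 4 * algebraMap K A E.b₈ := by
    have := congrArg (algebraMap K A) E.b_relation
    simp only [map_mul, map_sub, map_pow, map_ofNat] at this
    linear_combination -this
  simp only [Gform, Psi2form, Fform]
  linear_combination (-(x₁ - x₂) ^ 2) * hb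

theorem stmtSumProd : StmtSumProd E := by
  intro h2 R₁ S₁ R₂ S₂ hne h1 h2'
  have hd : R₁ - R₂ ≠ 0 := sub_ne_zero.mpr hne
  have h2K : (2 : RatFunc K) ≠ 0 := by
    intro h
    apply h2
    have : (algebraMap K (RatFunc K)) 2 = 0 := by rw [map_ofNat]; exact h
    exact (map_eq_zero _).mp this
  have hden : (2 * (R₁ - R₂) ^ 2 : RatFunc K) ≠ 0 := mul_ne_zero h2K (pow_ne_zero 2 hd)
  have key := Gform_sq_sub E R₁ R₂
  constructor
  · simp only [sumR]
    field_simp
    ring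
  · simp only [sumR]
    field_simp
    linear_combination key + (Psi2form E R₂) * h1 + (Psi2form E RatFunc.X * S₁ ^ 2) * h2'

end SumProd

/-! ### regular values -/

section RegVal

variable {K : Type*} [Field K]

/-- `R` is regular at `x` with value `v` -/
def RegVal (R : RatFunc K) (x v : K) : Prop := Reg R x ∧ rev R x = v

variable (hRing : StmtRevRing K) (hBase : StmtRevBase K)
include hRing hBase

omit hRing in
theorem RegVal.const (x c : K) : RegVal (RatFunc.C c) x c := (hBase x).1 c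

omit hRing in
theorem RegVal.algMap (x c : K) : RegVal (algebraMap K (RatFunc K) c) x c := by
  rw [RatFunc.algebraMap_eq_C]; exact (hBase x).1 c

omit hRing in
theorem RegVal.two (x : K) : RegVal (2 : RatFunc K) x 2 := by
  have : (2 : RatFunc K) = RatFunc.C 2 := (map_ofNat RatFunc.C 2).symm
  rw [this]; exact (hBase x).1 2

omit hRing in
theorem RegVal.four (x : K) : RegVal (4 : RatFunc K) x 4 := by
  have : (4 : RatFunc K) = RatFunc.C 4 := (map_ofNat RatFunc.C 4).symm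
  rw [this]; exact (hBase x).1 4

omit hRing in
theorem RegVal.X (x : K) : RegVal (RatFunc.X : RatFunc K) x x := (hBase x).2.1

omit hRing in
theorem RegVal.pow {R : RatFunc K} {x v : K} (h : RegVal R x v) (n : ℕ) :
    RegVal (R ^ n) x (v ^ n) := by
  obtain ⟨h1, h2⟩ := (hBase x).2.2.2 R n h.1
  exact ⟨h1, by rw [h2, h.2]⟩

omit hBase in
theorem RegVal.add {R S : RatFunc K} {x v w : K} (h : RegVal R x v) (h' : RegVal S x w) :
    RegVal (R + S) x (v + w) := by
  obtain ⟨h1, h2⟩ := (hRing x R S h.1 h'.1).1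
  exact ⟨h1, by rw [h2, h.2, h'.2]⟩

omit hBase in
theorem RegVal.mul {R S : RatFunc K} {x v w : K} (h : RegVal R x v) (h' : RegVal S x w) :
    RegVal (R * S) x (v * w) := by
  obtain ⟨h1, h2⟩ := (hRing x R S h.1 h'.1).2.1
  exact ⟨h1, by rw [h2, h.2, h'.2]⟩

omit hBase in
theorem RegVal.neg {R : RatFunc K} {x v : K} (h : RegVal R x v) :
    RegVal (-R) x (-v) := by
  obtain ⟨h1, h2⟩ := (hRing x R R h.1 h.1).2.2.1
  exact ⟨h1, by rw [h2, h.2]⟩

omit hBase in
theorem RegVal.sub {R S : RatFunc K} {x v w : K} (h : RegVal R x v) (h' : RegVal S x w) :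
    RegVal (R - S) x (v - w) := by
  obtain ⟨h1, h2⟩ := (hRing x R S h.1 h'.1).2.2.2.1
  exact ⟨h1, by rw [h2, h.2, h'.2]⟩

omit hBase in
theorem RegVal.div {R S : RatFunc K} {x v w : K} (h : RegVal R x v) (h' : RegVal S x w)
    (hw : w ≠ 0) : RegVal (R / S) x (v / w) := by
  obtain ⟨h1, h2⟩ := (hRing x R S h.1 h'.1).2.2.2.2 (by rw [h'.2]; exact hw)
  exact ⟨h1, by rw [h2, h.2, h'.2]⟩

variable (E : WeierstrassCurve K)

theorem RegVal.gform {R₁ R₂ : RatFunc K} {x v₁ v₂ : K} (h₁ : RegVal R₁ x v₁)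
    (h₂ : RegVal R₂ x v₂) : RegVal (Gform E R₁ R₂) x (Gform E v₁ v₂) := by
  unfold Gform
  have a : ∀ {R S : RatFunc K} {x v w : K}, RegVal R x v → RegVal S x w →
      RegVal (R + S) x (v + w) := fun h h' => RegVal.add hRing h h'
  have m : ∀ {R S : RatFunc K} {x v w : K}, RegVal R x v → RegVal S x w →
      RegVal (R * S) x (v * w) := fun h h' => RegVal.mul hRing h h'
  exact a (a (a (m (m (m (RegVal.two hBase x) h₁) h₂) (a h₁ h₂))
    (m (m (RegVal.algMap hBase x _) h₁) h₂))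
    (m (RegVal.algMap hBase x _) (a h₁ h₂))) (RegVal.algMap hBase x _)

theorem RegVal.fform {R₁ R₂ : RatFunc K} {x v₁ v₂ : K} (h₁ : RegVal R₁ x v₁)
    (h₂ : RegVal R₂ x v₂) : RegVal (Fform E R₁ R₂) x (Fform E v₁ v₂) := by
  unfold Fform
  have a : ∀ {R S : RatFunc K} {x v w : K}, RegVal R x v → RegVal S x w →
      RegVal (R + S) x (v + w) := fun h h' => RegVal.add hRing h h'
  have sb : ∀ {R S : RatFunc K} {x v w : K}, RegVal R x v → RegVal S x w →
      RegVal (R - S) x (v - w) := fun h h' => RegVal.sub hRing h h'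
  have m : ∀ {R S : RatFunc K} {x v w : K}, RegVal R x v → RegVal S x w →
      RegVal (R * S) x (v * w) := fun h h' => RegVal.mul hRing h h'
  have pw : ∀ {R : RatFunc K} {x v : K}, RegVal R x v → ∀ n : ℕ,
      RegVal (R ^ n) x (v ^ n) := fun h n => RegVal.pow hBase h n
  exact sb (sb (sb (m (pw h₁ 2) (pw h₂ 2)) (m (m (RegVal.algMap hBase x _) h₁) h₂))
    (m (RegVal.algMap hBase x _) (a h₁ h₂))) (RegVal.algMap hBase x _)

theorem RegVal.psi2form {R : RatFunc K} {x v : K} (h : RegVal R x v) :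
    RegVal (Psi2form E R) x (Psi2form E v) := by
  unfold Psi2form
  have a : ∀ {R S : RatFunc K} {x v w : K}, RegVal R x v → RegVal S x w →
      RegVal (R + S) x (v + w) := fun h h' => RegVal.add hRing h h'
  have m : ∀ {R S : RatFunc K} {x v w : K}, RegVal R x v → RegVal S x w →
      RegVal (R * S) x (v * w) := fun h h' => RegVal.mul hRing h h'
  have pw : ∀ {R : RatFunc K} {x v : K}, RegVal R x v → ∀ n : ℕ,
      RegVal (R ^ n) x (v ^ n) := fun h n => RegVal.pow hBase h n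
  exact a (a (a (m (RegVal.four hBase x) (pw h 3)) (m (RegVal.algMap hBase x _) (pw h 2)))
    (m (m (RegVal.two hBase x) (RegVal.algMap hBase x _)) h)) (RegVal.algMap hBase x _)

theorem RegVal.aeval {R : RatFunc K} {x v : K} (h : RegVal R x v) (q : K[X]) :
    RegVal (Polynomial.aeval R q) x (Polynomial.aeval v q) := by
  induction q using Polynomial.induction_on with
  | C a =>
    simp only [Polynomial.aeval_C]
    exact RegVal.algMap hBase x a
  | add p q hp hq =>
    simp only [map_add]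
    exact RegVal.add hRing hp hq
  | monomial n a ih =>
    simp only [map_mul, Polynomial.aeval_C, map_pow, Polynomial.aeval_X]
    exact RegVal.mul hRing (RegVal.algMap hBase x a) (RegVal.pow hBase h (n + 1))

theorem RegVal.pre4form {R : RatFunc K} {x v : K} (h : RegVal R x v) :
    RegVal (Pre4form E R) x (Pre4form E v) :=
  RegVal.aeval hRing hBase h _

end RegVal

/-! ### the sum rule -/

section RepAdd

variable {K : Type*} [Field K] [DecidableEq K] (E : WeierstrassCurve K)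

omit [DecidableEq K] in
/-- points lying over a finite set of `x`-coordinates form a finite set -/
theorem finite_ptX_mem (hFib : StmtFiberPt E) {X₀ : Set K} (hX : X₀.Finite) :
    {P : E.toAffine.Point | ptX E P ∈ X₀}.Finite := by
  have : {P : E.toAffine.Point | ptX E P ∈ X₀} = ⋃ x ∈ X₀, {P | ptX E P = x} := by
    ext P
    simp
  rw [this]
  exact hX.biUnion (fun x _ => hFib x)

/-- **Sum rule.** -/
theorem stmtRepAdd_of (hRing : StmtRevRing K) (hBase : StmtRevBase K) (hExt : StmtRatExt K)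
    (hEta : StmtEtaSq E) (hChord : StmtChord E) (hFib : StmtFiberPt E) : StmtRepAdd E := by
  intro hyp α β R₁ S₁ R₂ S₂ hα hβ hne
  have h2 := hyp.two_ne
  -- the finitely many `x` where `R₁ = R₂`
  have hfin : {x : K | Reg R₁ x ∧ Reg R₂ x ∧ rev R₁ x = rev R₂ x}.Finite := by
    by_contra hinf
    exact hne (hExt R₁ R₂ hinf)
  have hev : ∀ᶠ P in Filter.cofinite,
      ¬ (Reg R₁ (ptX E P) ∧ Reg R₂ (ptX E P) ∧ rev R₁ (ptX E P) = rev R₂ (ptX E P)) :=
    (finite_ptX_mem E hFib hfin).compl_mem_cofinite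
  unfold Rep at hα hβ ⊢
  filter_upwards [hα, hβ, hev] with P hP₁ hP₂ hP₃
  obtain ⟨hP0, hα0, hR₁, hS₁, hx₁, hη₁⟩ := hP₁
  obtain ⟨-, hβ0, hR₂, hS₂, hx₂, hη₂⟩ := hP₂
  set x := ptX E P with hx
  have hxne : rev R₁ x ≠ rev R₂ x := fun h => hP₃ ⟨hR₁, hR₂, h⟩
  have hxne' : ptX E (α P) ≠ ptX E (β P) := by rw [hx₁, hx₂]; exact hxne
  obtain ⟨hsum0, hsumx, hsumη⟩ := hChord h2 (α P) (β P) hα0 hβ0 hxne'
  -- regular values
  have r₁ : RegVal R₁ x (rev R₁ x) := ⟨hR₁, rfl⟩
  have r₂ : RegVal R₂ x (rev R₂ x) := ⟨hR₂, rfl⟩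
  have s₁ : RegVal S₁ x (rev S₁ x) := ⟨hS₁, rfl⟩
  have s₂ : RegVal S₂ x (rev S₂ x) := ⟨hS₂, rfl⟩
  have hd : rev R₁ x - rev R₂ x ≠ 0 := sub_ne_zero.mpr hxne
  have hden : (2 : K) * (rev R₁ x - rev R₂ x) ^ 2 ≠ 0 := mul_ne_zero h2 (pow_ne_zero 2 hd)
  have rsum : RegVal (sumR E R₁ S₁ R₂ S₂) x
      ((Gform E (rev R₁ x) (rev R₂ x) - Psi2form E x * rev S₁ x * rev S₂ x)
        / (2 * (rev R₁ x - rev R₂ x) ^ 2)) := by
    unfold sumR
    exact RegVal.div hRing
      (RegVal.sub hRing (RegVal.gform hRing hBase E r₁ r₂)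
        (RegVal.mul hRing (RegVal.mul hRing
          (RegVal.psi2form hRing hBase E (RegVal.X hBase x)) s₁) s₂))
      (RegVal.mul hRing (RegVal.two hBase x)
        (RegVal.pow hBase (RegVal.sub hRing r₁ r₂) 2)) hden
  have hηsq : ptEta E P ^ 2 = Psi2form E x := hEta P hP0
  have hxsum : ptX E (α P + β P) = rev (sumR E R₁ S₁ R₂ S₂) x := by
    rw [rsum.2, hsumx, hx₁, hx₂, hη₁, hη₂, ← hηsq]
    ring
  have rsumS : RegVal (sumS E R₁ S₁ R₂ S₂) x
      (-(rev S₁ x - rev S₂ x) * (rev (sumR E R₁ S₁ R₂ S₂) x - rev R₁ x)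
        / (rev R₁ x - rev R₂ x) - rev S₁ x) := by
    unfold sumS
    exact RegVal.sub hRing
      (RegVal.div hRing
        (RegVal.mul hRing (RegVal.neg hRing (RegVal.sub hRing s₁ s₂))
          (RegVal.sub hRing ⟨rsum.1, rfl⟩ r₁))
        (RegVal.sub hRing r₁ r₂) hd) s₁
  refine ⟨hP0, hsum0, rsum.1, rsumS.1, hxsum, ?_⟩
  show ptEta E (α P + β P) = ptEta E P * rev (sumS E R₁ S₁ R₂ S₂) x
  rw [rsumS.2, hsumη, hxsum, hx₁, hx₂, hη₁, hη₂]
  field_simp

omit [DecidableEq K] in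
/-- `Ψ₂²(R) ≠ 0` for a nonconstant rational function `R` (`char ≠ 2`) -/
theorem psi2form_ne_zero (h2 : (2 : K) ≠ 0) {R : RatFunc K} (hR : ht R ≠ 0) :
    Psi2form E R ≠ 0 := by
  intro h0
  have hnc : ¬ ∃ c, R = RatFunc.C c := by
    rintro ⟨c, rfl⟩
    apply hR
    simp [ht, RatFunc.num_C, RatFunc.denom_C]
  have htr := RatFunc.transcendental_of_ne_C R hnc
  have hq : E.Ψ₂Sq ≠ 0 := by
    intro hz
    have h3 : E.Ψ₂Sq.coeff 3 = 4 := by
      simp [WeierstrassCurve.Ψ₂Sq]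
    rw [hz, Polynomial.coeff_zero] at h3
    have h4 : (4 : K) = 2 * 2 := by norm_num
    rw [h4] at h3
    exact (mul_ne_zero h2 h2) h3.symm
  apply htr
  refine ⟨E.Ψ₂Sq, hq, ?_⟩
  rw [← h0]
  simp [WeierstrassCurve.Ψ₂Sq, Psi2form, RatFunc.algebraMap_eq_C, map_ofNat]

/-- **Duplication rule.** -/
theorem stmtRepDup_of (hRing : StmtRevRing K) (hBase : StmtRevBase K) (hZeros : StmtRevZeros K)
    (hEta : StmtEtaSq E) (hTan : StmtTangent E) (hFib : StmtFiberPt E) : StmtRepDup E := by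
  intro hyp α R S hα hht
  have h2 := hyp.two_ne
  have hΨ : Psi2form E R ≠ 0 := psi2form_ne_zero E h2 hht
  have hfin : {x : K | rev (Psi2form E R) x = 0}.Finite := hZeros _ hΨ
  have hev : ∀ᶠ P in Filter.cofinite, ¬ rev (Psi2form E R) (ptX E P) = 0 :=
    (finite_ptX_mem E hFib hfin).compl_mem_cofinite
  unfold Rep at hα ⊢
  filter_upwards [hα, hev] with P hP₁ hP₂
  obtain ⟨hP0, hα0, hR, hS, hx, hη⟩ := hP₁
  set x := ptX E P with hxdef
  have r : RegVal R x (rev R x) := ⟨hR, rfl⟩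
  have s : RegVal S x (rev S x) := ⟨hS, rfl⟩
  have rΨ : RegVal (Psi2form E R) x (Psi2form E (rev R x)) := RegVal.psi2form hRing hBase E r
  have hΨx : Psi2form E (rev R x) ≠ 0 := by rw [← rΨ.2]; exact hP₂
  have hηα : ptEta E (α P) ≠ 0 := by
    intro h0
    have := hEta (α P) hα0
    rw [h0, hx] at this
    apply hΨx
    rw [← this]; ring
  obtain ⟨h20, h2x, h2η⟩ := hTan (α P) hα0 hηα
  have rdup : RegVal (dupR E R) x (Fform E (rev R x) (rev R x) / Psi2form E (rev R x)) := by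
    unfold dupR
    exact RegVal.div hRing (RegVal.fform hRing hBase E r r) rΨ hΨx
  have rdupS : RegVal (dupS E R S) x
      (rev S x * Pre4form E (rev R x) / Psi2form E (rev R x) ^ 2) := by
    unfold dupS
    exact RegVal.div hRing (RegVal.mul hRing s (RegVal.pre4form hRing hBase E r))
      (RegVal.pow hBase rΨ 2) (pow_ne_zero 2 hΨx)
  refine ⟨hP0, h20, rdup.1, rdupS.1, ?_, ?_⟩
  · show ptX E (α P + α P) = rev (dupR E R) x
    rw [rdup.2, h2x, hx]
  · show ptEta E (α P + α P) = ptEta E P * rev (dupS E R S) x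
    rw [rdupS.2, h2η, hx, hη]
    ring

end RepAdd

end

end Fermat.Agent.HW
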