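import Fermat.Agent.HW.Plan

/-!
# HW-3a : represented maps (helper81)

Proofs of `StmtRepId`, `StmtRepNeg`, `StmtRepEtaSq`, `StmtRepUnique`, `StmtRepNonconst`,
`StmtRepInj`, `StmtRepComp` of `Plan.lean`.  The statements of HW-1a (`Eval.lean`) and HW-3b
(pointwise formulas) that are used are taken as explicit hypotheses, so that this file only
depends on `Plan.lean`.
-/

set_option autoImplicit false
set_option linter.unusedVariables false
set_option linter.unusedSectionVars false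

open Polynomial

namespace Fermat.Agent.HW

noncomputable section

section RepBasic

variable {K : Type*} [Field K] [DecidableEq K] (E : WeierstrassCurve K)

/-! ### generalities -/

theorem rb_rep_iff (α : E.toAffine.Point → E.toAffine.Point) (R S : RatFunc K) :
    Rep E α R S ↔ {P | ¬ GoodAt E α R S P}.Finite :=
  Filter.eventually_cofinite

/-- all but finitely many `x` are `x`-coordinates of a point outside a given finite set -/
theorem rb_infinite_x [Infinite K]
    (hEx : ∀ x : K, ∃ P : E.toAffine.Point, P ≠ 0 ∧ ptX E P = x)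
    {Bad : Set E.toAffine.Point} (hBad : Bad.Finite) :
    {x : K | ∃ P : E.toAffine.Point, P ∉ Bad ∧ P ≠ 0 ∧ ptX E P = x}.Infinite := by
  have hfin : {x : K | ¬ ∃ P : E.toAffine.Point, P ∉ Bad ∧ P ≠ 0 ∧ ptX E P = x}.Finite := by
    refine (hBad.image (ptX E)).subset ?_
    intro x hx
    obtain ⟨P, hP0, hPx⟩ := hEx x
    refine ⟨P, ?_, hPx⟩
    by_contra hPB
    exact hx ⟨P, hPB, hP0, hPx⟩
  have := hfin.infinite_compl
  simpa [Set.compl_def] using this

/-- the group of points is infinite -/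
theorem rb_infinite_points [Infinite K]
    (hEx : ∀ x : K, ∃ P : E.toAffine.Point, P ≠ 0 ∧ ptX E P = x) :
    Infinite E.toAffine.Point := by
  choose f hf0 hfx using hEx
  exact Infinite.of_injective f (fun x y hxy => by rw [← hfx x, ← hfx y, hxy])

/-- in an infinite group every element is a sum of two elements of a cofinite set -/
theorem rb_exists_add {G : Type*} [AddCommGroup G] [Infinite G] {Bad : Set G} (hBad : Bad.Finite)
    (g : G) : ∃ u v : G, u ∉ Bad ∧ v ∉ Bad ∧ g = u + v := by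
  have h1 : (Bad ∪ (fun u => g - u) '' Bad).Finite := hBad.union (hBad.image _)
  obtain ⟨u, hu⟩ := h1.infinite_compl.nonempty
  rw [Set.mem_compl_iff, Set.mem_union, not_or] at hu
  refine ⟨u, g - u, hu.1, ?_, by abel⟩
  intro hgu
  exact hu.2 ⟨g - u, hgu, sub_sub_cancel g u⟩

/-! ### `StmtRepId` -/

theorem repId : StmtRepId E := by
  intro _
  rw [Rep, Filter.eventually_cofinite]
  refine (Set.finite_singleton (0 : E.toAffine.Point)).subset ?_
  intro P hP
  by_contra h0
  apply hP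
  refine ⟨h0, h0, ?_, ?_, ?_, ?_⟩
  · simp [Reg, RatFunc.denom_X]
  · simp [Reg, RatFunc.denom_one]
  · simp [rev, RatFunc.eval_X]
  · simp [rev, RatFunc.eval_one]

/-! ### `StmtRepNeg` -/

theorem repNeg (hRing : StmtRevRing K) (hNeg : StmtNegPt E) : StmtRepNeg E := by
  intro _ α R S hα
  rw [rb_rep_iff] at hα ⊢
  refine hα.subset ?_
  intro P hP hgood
  apply hP
  obtain ⟨hP0, hαP, hR, hS, hx, hη⟩ := hgood
  obtain ⟨hn0, hnx, hnη⟩ := hNeg (α P) hαP
  obtain ⟨-, -, ⟨hSreg, hSrev⟩, -, -⟩ := hRing (ptX E P) S S hS hS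
  refine ⟨hP0, ?_, hR, hSreg, ?_, ?_⟩
  · rw [Pi.neg_apply]; exact hn0
  · rw [Pi.neg_apply, hnx, hx]
  · rw [Pi.neg_apply, hnη, hη, hSrev]; ring

/-! ### evaluation of `Psi2form` -/

/-- `R` is regular at `x` with value `v`. -/
def RV (R : RatFunc K) (x v : K) : Prop := Reg R x ∧ rev R x = v

theorem RV.add (hRing : StmtRevRing K) {R S : RatFunc K} {x v w : K} (h₁ : RV R x v)
    (h₂ : RV S x w) : RV (R + S) x (v + w) := by
  obtain ⟨⟨h, e⟩, -⟩ := hRing x R S h₁.1 h₂.1
  exact ⟨h, by rw [e, h₁.2, h₂.2]⟩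

theorem RV.mul (hRing : StmtRevRing K) {R S : RatFunc K} {x v w : K} (h₁ : RV R x v)
    (h₂ : RV S x w) : RV (R * S) x (v * w) := by
  obtain ⟨-, ⟨h, e⟩, -⟩ := hRing x R S h₁.1 h₂.1
  exact ⟨h, by rw [e, h₁.2, h₂.2]⟩

theorem RV.pow (hBase : StmtRevBase K) {R : RatFunc K} {x v : K} (h₁ : RV R x v) (n : ℕ) :
    RV (R ^ n) x (v ^ n) := by
  obtain ⟨h, e⟩ := (hBase x).2.2.2 R n h₁.1
  exact ⟨h, by rw [e, h₁.2]⟩

theorem RV.const (hBase : StmtRevBase K) (c x : K) : RV (RatFunc.C c) x c :=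
  (hBase x).1 c

theorem RV.algMap (hBase : StmtRevBase K) (c x : K) : RV (algebraMap K (RatFunc K) c) x c := by
  rw [RatFunc.algebraMap_eq_C]
  exact RV.const hBase c x

theorem RV.ofNat (hBase : StmtRevBase K) (n : ℕ) (x : K) : RV ((n : RatFunc K)) x (n : K) := by
  have := RV.const hBase (n : K) x
  rwa [map_natCast] at this

theorem RV.X (hBase : StmtRevBase K) (x : K) : RV (RatFunc.X : RatFunc K) x x :=
  (hBase x).2.1

theorem RV.psi2 (hRing : StmtRevRing K) (hBase : StmtRevBase K) {R : RatFunc K} {x v : K}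
    (h : RV R x v) : RV (Psi2form E R) x (Psi2form E v) := by
  unfold Psi2form
  have h4 : RV (4 : RatFunc K) x (4 : K) := by
    have := RV.ofNat hBase 4 x
    simpa using this
  have h2 : RV (2 : RatFunc K) x (2 : K) := by
    have := RV.ofNat hBase 2 x
    simpa using this
  have hb (c : K) : RV (algebraMap K (RatFunc K) c) x (algebraMap K K c) := by
    rw [Algebra.algebraMap_self, RingHom.id_apply]
    exact RV.algMap hBase c x
  exact (((h4.mul hRing (h.pow hBase 3)).add hRing ((hb E.b₂).mul hRing (h.pow hBase 2))).add hRing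
    ((h2.mul hRing (hb E.b₄)).mul hRing h)).add hRing (hb E.b₆)

/-! ### `StmtRepEtaSq` -/

theorem repEtaSq (hRing : StmtRevRing K) (hBase : StmtRevBase K) (hExt : StmtRatExt K)
    (hEta : StmtEtaSq E) (hEx : StmtExistsPt E) : StmtRepEtaSq E := by
  intro hyp α R S hα
  have := hyp.algClosed
  have : Infinite K := IsAlgClosed.instInfinite
  rw [rb_rep_iff] at hα
  apply hExt
  refine (rb_infinite_x E (hEx hyp.algClosed hyp.disc_ne) hα).mono ?_
  rintro x ⟨P, hPgood, hP0, rfl⟩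
  obtain ⟨-, hαP, hR, hS, hx, hη⟩ := not_not.mp hPgood
  have e1 := hEta (α P) hαP
  have e2 := hEta P hP0
  have r1 : RV (Psi2form E R) (ptX E P) (Psi2form E (rev R (ptX E P))) :=
    RV.psi2 E hRing hBase ⟨hR, rfl⟩
  have r2 : RV (Psi2form E RatFunc.X * S ^ 2) (ptX E P)
      (Psi2form E (ptX E P) * rev S (ptX E P) ^ 2) :=
    (RV.psi2 E hRing hBase (RV.X hBase _)).mul hRing (RV.pow hBase ⟨hS, rfl⟩ 2)
  refine ⟨r1.1, r2.1, ?_⟩
  rw [r1.2, r2.2, ← hx, ← e1, hη, ← e2]
  ring

/-! ### points with `η = 0` -/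

theorem rb_finite_eta_zero (h2 : (2 : K) ≠ 0) (hEta : StmtEtaSq E) (hFiber : StmtFiberPt E) :
    {P : E.toAffine.Point | ptEta E P = 0}.Finite := by
  set q : K[X] := C 4 * X ^ 3 + C E.b₂ * X ^ 2 + C (2 * E.b₄) * X + C E.b₆ with hq
  have h4 : (4 : K) ≠ 0 := by
    have : (4 : K) = 2 * 2 := by norm_num
    rw [this]; exact mul_ne_zero h2 h2
  have hq0 : q ≠ 0 := by
    intro h0
    have := congrArg (fun f : K[X] => f.coeff 3) h0
    simp [hq, coeff_X_pow] at this
    exact h4 this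
  have hroots : {x : K | q.eval x = 0}.Finite := by
    refine (q.roots.toFinset.finite_toSet).subset ?_
    intro x hx
    simp only [Finset.mem_coe, Multiset.mem_toFinset]
    exact (mem_roots hq0).mpr hx
  have hfin : (⋃ x ∈ {x : K | q.eval x = 0}, {P : E.toAffine.Point | ptX E P = x}).Finite :=
    hroots.biUnion fun x _ => hFiber x
  refine (hfin.union (Set.finite_singleton (0 : E.toAffine.Point))).subset ?_
  intro P hP
  by_cases hP0 : P = 0
  · exact Or.inr hP0
  · left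
    simp only [Set.mem_iUnion, Set.mem_ofPred_eq, exists_prop]
    refine ⟨ptX E P, ?_, rfl⟩
    have e := hEta P hP0
    rw [Set.mem_ofPred_eq] at hP
    rw [hP] at e
    simp only [Psi2form, Algebra.algebraMap_self, RingHom.id_apply] at e
    simp only [hq, eval_add, eval_mul, eval_C, eval_pow, eval_X]
    linear_combination -e

/-! ### `StmtRepUnique` -/

theorem repUnique (hExt : StmtRatExt K) (hEta : StmtEtaSq E) (hEx : StmtExistsPt E)
    (hFiber : StmtFiberPt E) : StmtRepUnique E := by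
  intro hyp α R S R' S' h₁ h₂
  have := hyp.algClosed
  have : Infinite K := IsAlgClosed.instInfinite
  rw [rb_rep_iff] at h₁ h₂
  have hBad := (h₁.union h₂).union (rb_finite_eta_zero E hyp.two_ne hEta hFiber)
  have hinf := rb_infinite_x E (hEx hyp.algClosed hyp.disc_ne) hBad
  constructor
  · apply hExt
    refine hinf.mono ?_
    rintro x ⟨P, hPB, hP0, rfl⟩
    simp only [Set.mem_union, Set.mem_ofPred_eq, not_or, not_not] at hPB
    obtain ⟨⟨g₁, g₂⟩, -⟩ := hPB
    exact ⟨g₁.2.2.1, g₂.2.2.1, by rw [← g₁.2.2.2.2.1, ← g₂.2.2.2.2.1]⟩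
  · apply hExt
    refine hinf.mono ?_
    rintro x ⟨P, hPB, hP0, rfl⟩
    simp only [Set.mem_union, Set.mem_ofPred_eq, not_or, not_not] at hPB
    obtain ⟨⟨g₁, g₂⟩, hη⟩ := hPB
    refine ⟨g₁.2.2.2.1, g₂.2.2.2.1, ?_⟩
    have := g₁.2.2.2.2.2.symm.trans g₂.2.2.2.2.2
    exact mul_left_cancel₀ hη this

/-! ### `StmtRepNonconst` -/

theorem repNonconst (hBase : StmtRevBase K) (hConst : StmtHtConst K) (hEx : StmtExistsPt E)
    (hFiber : StmtFiberPt E) : StmtRepNonconst E := by
  intro hyp α R S hα hht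
  have := hyp.algClosed
  have : Infinite K := IsAlgClosed.instInfinite
  have : Infinite E.toAffine.Point := rb_infinite_points E (hEx hyp.algClosed hyp.disc_ne)
  obtain ⟨c, rfl⟩ := (hConst R).mp hht
  rw [rb_rep_iff] at hα
  set Bad : Set E.toAffine.Point := {P | ¬ GoodAt E (⇑α) (RatFunc.C c) S P} with hBadDef
  set F : Set E.toAffine.Point := {Q | ptX E Q = c} with hF
  have hFfin : F.Finite := hFiber c
  have hmaps : ∀ P : (Badᶜ : Set E.toAffine.Point), α P ∈ F := by
    rintro ⟨P, hP⟩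
    have hg : GoodAt E (⇑α) (RatFunc.C c) S P := not_not.mp hP
    show ptX E (α P) = c
    rw [hg.2.2.2.2.1]
    exact ((hBase (ptX E P)).1 c).2
  have : Infinite (Badᶜ : Set E.toAffine.Point) := hα.infinite_compl.to_subtype
  have : Finite F := hFfin.to_subtype
  obtain ⟨y, hy⟩ := Finite.exists_infinite_fiber
    (fun P : (Badᶜ : Set E.toAffine.Point) => (⟨α P, hmaps P⟩ : F))
  obtain ⟨⟨P₁, hP₁⟩⟩ := hy.nonempty
  have : Finite Bad := hα.to_subtype
  have hmem : ∀ P : ((fun P : (Badᶜ : Set E.toAffine.Point) => (⟨α P, hmaps P⟩ : F)) ⁻¹' {y}),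
      (P : E.toAffine.Point) - (P₁ : E.toAffine.Point) ∈ Bad := by
    rintro ⟨P, hP⟩
    intro hg
    apply hg.2.1
    have e1 : (⟨α P, hmaps P⟩ : F) = y := hP
    have e2 : (⟨α P₁, hmaps P₁⟩ : F) = y := hP₁
    have e3 : α (P : E.toAffine.Point) = α (P₁ : E.toAffine.Point) :=
      congrArg Subtype.val (e1.trans e2.symm)
    show α ((P : E.toAffine.Point) - (P₁ : E.toAffine.Point)) = 0
    rw [map_sub, e3, sub_self]
  have hinj : Function.Injective
      (fun P : ((fun P : (Badᶜ : Set E.toAffine.Point) => (⟨α P, hmaps P⟩ : F)) ⁻¹' {y}) =>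
        (⟨(P : E.toAffine.Point) - (P₁ : E.toAffine.Point), hmem P⟩ : Bad)) := by
    intro P Q hPQ
    have := congrArg Subtype.val hPQ
    simp only [sub_left_inj] at this
    exact Subtype.ext (Subtype.ext this)
  have hfinFib : Finite ((fun P : (Badᶜ : Set E.toAffine.Point) =>
      (⟨α P, hmaps P⟩ : F)) ⁻¹' {y}) := Finite.of_injective _ hinj
  exact _root_.not_finite ((fun P : (Badᶜ : Set E.toAffine.Point) =>
      (⟨α P, hmaps P⟩ : F)) ⁻¹' {y})

/-! ### `StmtRepInj` -/

theorem repInj (hPtExt : StmtPtExt E) (hEx : StmtExistsPt E) : StmtRepInj E := by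
  intro hyp α β R S hα hβ
  have := hyp.algClosed
  have : Infinite K := IsAlgClosed.instInfinite
  have : Infinite E.toAffine.Point := rb_infinite_points E (hEx hyp.algClosed hyp.disc_ne)
  rw [rb_rep_iff] at hα hβ
  have hBad := hα.union hβ
  have key : ∀ P : E.toAffine.Point, P ∉ {P | ¬ GoodAt E (⇑α) R S P} ∪ {P | ¬ GoodAt E (⇑β) R S P} →
      α P = β P := by
    intro P hP
    simp only [Set.mem_union, Set.mem_ofPred_eq, not_or, not_not] at hP
    obtain ⟨g₁, g₂⟩ := hP
    exact hPtExt hyp.two_ne _ _ g₁.2.1 g₂.2.1 (g₁.2.2.2.2.1.trans g₂.2.2.2.2.1.symm)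
      (g₁.2.2.2.2.2.trans g₂.2.2.2.2.2.symm)
  ext g
  obtain ⟨u, v, hu, hv, rfl⟩ := rb_exists_add hBad g
  rw [map_add, map_add, key u hu, key v hv]

/-! ### `StmtRepComp` -/

theorem repComp (hRing : StmtRevRing K) (hComp : StmtRevComp K) (hRevFiber : StmtRevFiber K)
    (hFiber : StmtFiberPt E) : StmtRepComp E := by
  intro hyp α β R S R' S' hα hβ hht
  rw [rb_rep_iff] at hα hβ ⊢
  -- points that `β` sends to a bad point of `α`
  have hfin2 : (⋃ Q ∈ {Q | ¬ GoodAt E α R S Q},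
      ⋃ x ∈ {x : K | rev R' x = ptX E Q}, {P : E.toAffine.Point | ptX E P = x}).Finite :=
    hα.biUnion fun Q _ => (hRevFiber R' hht (ptX E Q)).biUnion fun x _ => hFiber x
  refine (hβ.union hfin2).subset ?_
  intro P hP
  by_contra hcon
  rw [Set.mem_union, not_or] at hcon
  obtain ⟨hβP, hP2⟩ := hcon
  have gβ : GoodAt E β R' S' P := not_not.mp hβP
  have gα : GoodAt E α R S (β P) := by
    by_contra hbad
    apply hP2
    simp only [Set.mem_iUnion, Set.mem_ofPred_eq, exists_prop]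
    exact ⟨β P, hbad, ptX E P, gβ.2.2.2.2.1.symm, rfl⟩
  apply hP
  obtain ⟨hP0, hβ0, hR', hS', hxβ, hηβ⟩ := gβ
  obtain ⟨-, hα0, hR, hS, hxα, hηα⟩ := gα
  rw [hxβ] at hR hS
  obtain ⟨c1, c2⟩ := hComp (ptX E P) R R' hR' hR
  obtain ⟨c3, c4⟩ := hComp (ptX E P) S R' hR' hS
  obtain ⟨-, ⟨m1, m2⟩, -⟩ := hRing (ptX E P) S' (rcomp S R') hS' c3
  refine ⟨hP0, hα0, c1, m1, ?_, ?_⟩
  · rw [Function.comp_apply, hxα, hxβ, c2]
  · rw [Function.comp_apply, hηα, hηβ, hxβ, m2, c4]
    ring

end RepBasic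

end

end Fermat.Agent.HW
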