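/-
HW brick: the Frobenius endomorphism is represented by `(X^p, Ψ₂²(X)^((p-1)/2))`
(`StmtFrobPt`, `StmtRepFrob` of `Plan.lean`).
-/
import Fermat.Agent.HW.Plan

set_option autoImplicit false

open Polynomial

namespace Fermat.Agent.HW

namespace RepFrob

section General

variable {K : Type*} [Field K] (E : WeierstrassCurve K)

/-- `η² = Ψ₂²(x)` at an affine point. -/
theorem ptEta_sq_some {x y : K} (h : E.toAffine.Nonsingular x y) :
    ptEta E (.some x y h) ^ 2 = Psi2form E x := by
  have heq := (E.toAffine.nonsingular_iff x y).mp h |>.1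
  rw [WeierstrassCurve.Affine.equation_iff] at heq
  simp only [ptEta, ptX, ptY, Psi2form, Algebra.algebraMap_self, RingHom.id_apply,
    WeierstrassCurve.b₂, WeierstrassCurve.b₄, WeierstrassCurve.b₆]
  linear_combination 4 * heq

/-- The polynomial `Ψ₂²`. -/
theorem psi2form_X_eq :
    Psi2form E (RatFunc.X : RatFunc K) = algebraMap K[X] (RatFunc K) E.Ψ₂Sq := by
  simp only [Psi2form, WeierstrassCurve.Ψ₂Sq, map_add, map_mul, map_pow, RatFunc.algebraMap_X,
    RatFunc.algebraMap_C, RatFunc.algebraMap_eq_C, map_ofNat]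

theorem reg_algebraMap (q : K[X]) (x : K) : Reg (algebraMap K[X] (RatFunc K) q) x := by
  rw [Reg, RatFunc.denom_algebraMap, eval_one]
  exact one_ne_zero

theorem rev_algebraMap (q : K[X]) (x : K) : rev (algebraMap K[X] (RatFunc K) q) x = q.eval x := by
  rw [rev, RatFunc.eval_algebraMap]
  rfl

theorem eval_Ψ₂Sq_eq (x : K) : E.Ψ₂Sq.eval x = Psi2form E x := by
  simp [WeierstrassCurve.Ψ₂Sq, Psi2form]

end General

section Frob

variable (p : ℕ) [hp : Fact p.Prime] (W : WeierstrassCurve (ZMod p))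
  (K : Type*) [Field K] [DecidableEq K] [Algebra (ZMod p) K]

omit [DecidableEq K] in
theorem frob_apply (x : K) : FiniteField.frobeniusAlgHom (ZMod p) K x = x ^ p := by
  rw [FiniteField.coe_frobeniusAlgHom, ZMod.card]

theorem ptX_frobPt_some {x y : K} (h : (EK p W K).toAffine.Nonsingular x y) :
    ptX (EK p W K) (frobPt p W K (.some x y h)) = x ^ p := by
  rw [← frob_apply p K x]
  rfl

theorem ptY_frobPt_some {x y : K} (h : (EK p W K).toAffine.Nonsingular x y) :
    ptY (EK p W K) (frobPt p W K (.some x y h)) = y ^ p := by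
  rw [← frob_apply p K y]
  rfl

theorem frobPt_some_ne_zero {x y : K} (h : (EK p W K).toAffine.Nonsingular x y) :
    frobPt p W K (.some x y h) ≠ 0 := by
  have h1 : frobPt p W K (.some x y h) =
      WeierstrassCurve.Affine.Point.map (W' := W) (FiniteField.frobeniusAlgHom (ZMod p) K)
        (.some x y h) := rfl
  rw [h1, WeierstrassCurve.Affine.Point.map_some]
  exact WeierstrassCurve.Affine.Point.some_ne_zero _

theorem stmtFrobPt : StmtFrobPt p W K := by
  intro P hP
  rcases P with _ | ⟨x, y, h⟩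
  · exact absurd rfl hP
  · refine ⟨frobPt_some_ne_zero p W K h, ptX_frobPt_some p W K h, ?_⟩
    rw [ptEta, ptX_frobPt_some, ptY_frobPt_some]
    simp only [ptEta, ptX, ptY]
    have hx := frob_apply p K x
    have hy := frob_apply p K y
    have hη := frob_apply p K (2 * y + (EK p W K).a₁ * x + (EK p W K).a₃)
    rw [← hη, ← hx, ← hy, map_add, map_add, map_mul, map_mul, map_ofNat]
    have ha1 : FiniteField.frobeniusAlgHom (ZMod p) K (EK p W K).a₁ = (EK p W K).a₁ := by
      rw [WeierstrassCurve.map_a₁]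
      exact AlgHom.commutes _ _
    have ha3 : FiniteField.frobeniusAlgHom (ZMod p) K (EK p W K).a₃ = (EK p W K).a₃ := by
      rw [WeierstrassCurve.map_a₃]
      exact AlgHom.commutes _ _
    rw [ha1, ha3]

theorem stmtRepFrob : StmtRepFrob p W K := by
  intro hyp
  have h2 : (2 : K) ≠ 0 := hyp.two_ne
  have hodd : p % 2 = 1 := by
    rcases hp.out.eq_two_or_odd with h | h
    · exfalso
      have hchar : CharP K p := charP_of_injective_algebraMap' (ZMod p) p
      have : ((p : ℕ) : K) = 0 := CharP.cast_eq_zero K p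
      rw [h] at this
      exact h2 (by exact_mod_cast this)
    · exact h
  rw [Rep, Filter.eventually_cofinite]
  refine Set.Finite.subset (Set.finite_singleton (0 : (EK p W K).toAffine.Point)) ?_
  intro P hP
  change ¬ GoodAt _ _ _ _ P at hP
  rw [Set.mem_singleton_iff]
  by_contra hP0
  apply hP
  obtain ⟨hf0, hfx, hfη⟩ := stmtFrobPt p W K P hP0
  have hX : (RatFunc.X : RatFunc K) ^ p = algebraMap K[X] (RatFunc K) (X ^ p) := by
    rw [map_pow, RatFunc.algebraMap_X]
  have hS : Psi2form (EK p W K) (RatFunc.X : RatFunc K) ^ ((p - 1) / 2) =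
      algebraMap K[X] (RatFunc K) ((EK p W K).Ψ₂Sq ^ ((p - 1) / 2)) := by
    rw [map_pow, psi2form_X_eq]
  refine ⟨hP0, hf0, ?_, ?_, ?_, ?_⟩
  · rw [hX]
    exact reg_algebraMap _ _
  · rw [hS]
    exact reg_algebraMap _ _
  · rw [hfx, hX, rev_algebraMap, eval_pow, eval_X]
  · rw [hfη, hS, rev_algebraMap, eval_pow, eval_Ψ₂Sq_eq]
    rcases P with _ | ⟨x, y, h⟩
    · exact absurd rfl hP0
    · have hsq := ptEta_sq_some (EK p W K) h
      change ptEta (EK p W K) (.some x y h) ^ p =
        ptEta (EK p W K) (.some x y h) * Psi2form (EK p W K) x ^ ((p - 1) / 2)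
      rw [← hsq, ← pow_mul, ← pow_succ']
      congr 1
      omega

end Frob

end RepFrob

end Fermat.Agent.HW
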