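import Fermat.Agent.HW.Main
import Fermat.Agent.HW.Eval
import Fermat.Agent.HW.ChordPt
import Fermat.Agent.HW.RepBasic
import Fermat.Agent.HW.RepAdd
import Fermat.Agent.HW.RepFrob

/-!
# HW brick: the Frobenius relation `φ² − t φ + p = 0` (final statements)

For a prime `p ≠ 2`, a Weierstrass curve `W` over `ZMod p` with `Δ ≠ 0` and an algebraically closed
field `K ⊇ ZMod p`, the Frobenius endomorphism `φ` of `E(K)` (`E = W.map (algebraMap _ K)`)
satisfies `φ² − t φ + p = 0` with `t = p + 1 − #E(𝔽_p) = W.traceOfFrobenius`.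

Pieces: Defs/Plan/Par/Adapt/Main/Final (helper51), QuadForm (helper81), HeightComp + Eval
(helper44), Height + RepAdd (helper46), Count + RepFrob (helper22), RepBasic (helper81),
ChordPt (helper12).
-/

set_option autoImplicit false

open Polynomial

namespace Fermat.Agent.HW

noncomputable section

section General

variable {K : Type*} [Field K] [DecidableEq K] (E : WeierstrassCurve K)

/-- all inputs of `Par.lean`, from the landed pieces -/
theorem parInput (hyp : Hyp E) : ParInput E where
  hyp := hyp
  existsPt := cp_stmtExistsPt E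
  repId := repId E
  repNeg := repNeg E stmtRevRing (cp_stmtNegPt E)
  repEtaSq := repEtaSq E stmtRevRing stmtRevBase stmtRatExt (cp_stmtEtaSq E)
    (cp_stmtExistsPt E)
  repUnique := repUnique E stmtRatExt (cp_stmtEtaSq E) (cp_stmtExistsPt E) (cp_stmtFiberPt E)
  repNonconst := repNonconst E stmtRevBase (stmtHtConst K) (cp_stmtExistsPt E)
    (cp_stmtFiberPt E)
  repInj := repInj E (cp_stmtPtExt E) (cp_stmtExistsPt E)
  repComp := repComp E stmtRevRing stmtRevComp stmtRevFiber (cp_stmtFiberPt E)
  repAdd := stmtRepAdd_of E stmtRevRing stmtRevBase stmtRatExt (cp_stmtEtaSq E)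
    (cp_stmtChord E) (cp_stmtFiberPt E)
  repDup := stmtRepDup_of E stmtRevRing stmtRevBase stmtRevZeros (cp_stmtEtaSq E)
    (cp_stmtTangent E) (cp_stmtFiberPt E)
  sumProd := stmtSumProd E
  htComp := stmtHtComp K
  htAddSub := stmtHtAddSub E
  htDup := stmtHtDup E

/-- the represented endomorphisms form a subring, and `hdeg` is a multiplicative positive
quadratic form on it -/
theorem stmtIsReprRing : StmtIsReprRing E := fun hyp => (parInput E hyp).stmtIsReprRing hyp

theorem stmtHdeg : StmtHdeg E := fun hyp => (parInput E hyp).stmtHdeg hyp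

theorem stmtHdegEq : StmtHdegEq E := fun hyp => (parInput E hyp).stmtHdegEq hyp

end General

section Frob

variable (p : ℕ) [Fact p.Prime] (W : WeierstrassCurve (ZMod p))
  (K : Type*) [Field K] [DecidableEq K] [Algebra (ZMod p) K]

omit [DecidableEq K] in
theorem hyp_EK (hp2 : p ≠ 2) (hΔ : W.Δ ≠ 0) (hK : IsAlgClosed K) : Hyp (EK p W K) where
  algClosed := hK
  two_ne := by
    have hchar : CharP K p := charP_of_injective_algebraMap (algebraMap (ZMod p) K).injective p
    intro h
    have h2 : ((2 : ℕ) : K) = 0 := by exact_mod_cast h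
    rw [CharP.cast_eq_zero_iff K p] at h2
    have hp : p.Prime := Fact.out
    exact hp2 ((Nat.prime_dvd_prime_iff_eq hp Nat.prime_two).mp h2)
  disc_ne := by
    rw [WeierstrassCurve.map_Δ]
    exact fun h => hΔ ((algebraMap (ZMod p) K).injective (by rw [h, map_zero]))

/-- **Frobenius relation** (interface form). -/
theorem stmtFrobRelation : StmtFrobRelation p W K := by
  intro hp2 hΔ hK P
  exact frob_relation_of p W K (parInput _ (hyp_EK p W K hp2 hΔ hK))
    (RepFrob.stmtRepFrob p W K) hp2 hΔ P

/-- **Frobenius relation** in `End E(K)`:  `φ² − t φ + p = 0`. -/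
theorem frobPt_relation (hp2 : p ≠ 2) (hΔ : W.Δ ≠ 0) [hK : IsAlgClosed K] :
    frobPt p W K * frobPt p W K - W.traceOfFrobenius • frobPt p W K
      + (p : ℤ) • (1 : AddMonoid.End (EK p W K).toAffine.Point) = 0 := by
  have h := frob_relation_end p W K (parInput _ (hyp_EK p W K hp2 hΔ hK))
    (RepFrob.stmtRepFrob p W K) hp2 hΔ
  have e : W.traceOfFrobenius = (p : ℤ) + 1 - (Nat.card W.toAffine.Point : ℤ) := by
    rw [WeierstrassCurve.traceOfFrobenius, WeierstrassCurve.card, Nat.card_eq_fintype_card,
      ZMod.card]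
  rw [e]
  exact h

/-- **Frobenius relation** on points, with Mathlib's `Point.map` of the Frobenius
`x ↦ x ^ p` of `K` and the prelude's `traceOfFrobenius`:
`φ(φ P) − t • φ P + p • P = 0` for every `P ∈ E(K)`. -/
theorem frobenius_relation (hp2 : p ≠ 2) (hΔ : W.Δ ≠ 0) [IsAlgClosed K]
    (P : (WeierstrassCurve.Affine.baseChange W K).Point) :
    WeierstrassCurve.Affine.Point.map (W' := W) (FiniteField.frobeniusAlgHom (ZMod p) K)
        (WeierstrassCurve.Affine.Point.map (W' := W) (FiniteField.frobeniusAlgHom (ZMod p) K) P)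
      - W.traceOfFrobenius •
        WeierstrassCurve.Affine.Point.map (W' := W) (FiniteField.frobeniusAlgHom (ZMod p) K) P
      + (p : ℤ) • P = 0 := by
  have h := frobPt_relation p W K hp2 hΔ
  exact DFunLike.congr_fun h P

/-- the same for `frobPt` -/
theorem frobPt_relation_apply (hp2 : p ≠ 2) (hΔ : W.Δ ≠ 0) [IsAlgClosed K]
    (P : (EK p W K).toAffine.Point) :
    frobPt p W K (frobPt p W K P) - W.traceOfFrobenius • frobPt p W K P + (p : ℤ) • P = 0 := by
  have h := frobPt_relation p W K hp2 hΔ
  exact DFunLike.congr_fun h P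

end Frob

end

end Fermat.Agent.HW
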