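import Mathlib

/-!
# HW brick, steps 4 + 6 (abstract, SUBRING-RELATIVE variant of `QuadForm.lean`)

`h : A → ℤ` on a ring `A`, with the parallelogram law and multiplicativity on a subring `S ∋ φ`,
`h 1 = 1`. Then `B(x,y) = h(x+y) − h(x) − h(y)` is biadditive on `S` and
`h (φ² − t·φ + h(φ)) = 0` for `t = h φ + 1 − h (φ − 1)`.
-/

set_option autoImplicit false

namespace Fermat.Agent.HW

section Group

variable {A : Type*} [AddCommGroup A] (S : AddSubgroup A) (h : A → ℤ)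

/-- The parallelogram law on `S`. -/
def HWAbsParLaw : Prop :=
  ∀ a ∈ S, ∀ b ∈ S, h (a + b) + h (a - b) = 2 * h a + 2 * h b

variable {S h}

lemma HWAbsParLaw.zero (hp : HWAbsParLaw S h) : h 0 = 0 := by
  have := hp 0 S.zero_mem 0 S.zero_mem
  simp at this
  linarith

lemma HWAbsParLaw.neg (hp : HWAbsParLaw S h) {a : A} (ha : a ∈ S) : h (-a) = h a := by
  have := hp 0 S.zero_mem a ha
  simp [hp.zero] at this
  linarith

lemma HWAbsParLaw.two (hp : HWAbsParLaw S h) {a : A} (ha : a ∈ S) : h (a + a) = 4 * h a := by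
  have := hp a ha a ha
  simp [hp.zero] at this
  linarith

/-- `h(x+y) − h(x−y)`. -/
def hwAbsPolar (h : A → ℤ) (x y : A) : ℤ := h (x + y) - h (x - y)

lemma HWAbsParLaw.polar_eq (hp : HWAbsParLaw S h) {x y : A} (hx : x ∈ S) (hy : y ∈ S) :
    hwAbsPolar h x y = 2 * (h (x + y) - h x - h y) := by
  have := hp x hx y hy
  unfold hwAbsPolar
  linarith

lemma HWAbsParLaw.polar_zero_left (hp : HWAbsParLaw S h) {y : A} (hy : y ∈ S) : hwAbsPolar h 0 y = 0 := by
  unfold hwAbsPolar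
  simp [hp.neg hy]

lemma HWAbsParLaw.polar_aux (hp : HWAbsParLaw S h) {x y z : A} (hx : x ∈ S) (hy : y ∈ S) (hz : z ∈ S) :
    hwAbsPolar h (x + z) y + hwAbsPolar h (x - z) y = 2 * hwAbsPolar h x y := by
  have h1 := hp (x + y) (S.add_mem hx hy) z hz
  have h2 := hp (x - y) (S.sub_mem hx hy) z hz
  unfold hwAbsPolar
  have e1 : x + z + y = x + y + z := by abel
  have e2 : x + z - y = x - y + z := by abel
  have e3 : x - z + y = x + y - z := by abel
  have e4 : x - z - y = x - y - z := by abel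
  rw [e1, e2, e3, e4]
  linarith

lemma HWAbsParLaw.polar_two (hp : HWAbsParLaw S h) {x y : A} (hx : x ∈ S) (hy : y ∈ S) :
    hwAbsPolar h (x + x) y = 2 * hwAbsPolar h x y := by
  have := hp.polar_aux hx hy hx
  rw [sub_self, hp.polar_zero_left hy, add_zero] at this
  exact this

lemma HWAbsParLaw.polar_add_left (hp : HWAbsParLaw S h) {u v y : A} (hu : u ∈ S) (hv : v ∈ S)
    (hy : y ∈ S) : hwAbsPolar h (u + v) y = hwAbsPolar h u y + hwAbsPolar h v y := by
  have := hp.polar_aux (S.add_mem hu hv) hy (S.sub_mem hu hv)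
  have e1 : u + v + (u - v) = u + u := by abel
  have e2 : u + v - (u - v) = v + v := by abel
  rw [e1, e2, hp.polar_two hu hy, hp.polar_two hv hy] at this
  linarith

lemma HWAbsParLaw.polar_comm (hp : HWAbsParLaw S h) {x y : A} (hx : x ∈ S) (hy : y ∈ S) :
    hwAbsPolar h x y = hwAbsPolar h y x := by
  unfold hwAbsPolar
  have : h (x - y) = h (y - x) := by
    rw [← hp.neg (S.sub_mem hy hx), neg_sub]
  rw [this, add_comm]

/-- The bilinear form `B(x,y) = h(x+y) − h(x) − h(y)`. -/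
def hwAbsBil (h : A → ℤ) (x y : A) : ℤ := h (x + y) - h x - h y

lemma HWAbsParLaw.bil_add_left (hp : HWAbsParLaw S h) {u v y : A} (hu : u ∈ S) (hv : v ∈ S)
    (hy : y ∈ S) : hwAbsBil h (u + v) y = hwAbsBil h u y + hwAbsBil h v y := by
  have h1 := hp.polar_add_left hu hv hy
  rw [hp.polar_eq (S.add_mem hu hv) hy, hp.polar_eq hu hy, hp.polar_eq hv hy] at h1
  unfold hwAbsBil
  linarith

lemma hwAbsBil_comm (h : A → ℤ) (x y : A) : hwAbsBil h x y = hwAbsBil h y x := by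
  unfold hwAbsBil
  rw [add_comm]
  ring

lemma HWAbsParLaw.bil_add_right (hp : HWAbsParLaw S h) {u v y : A} (hu : u ∈ S) (hv : v ∈ S)
    (hy : y ∈ S) : hwAbsBil h y (u + v) = hwAbsBil h y u + hwAbsBil h y v := by
  rw [hwAbsBil_comm h y (u + v), hwAbsBil_comm h y u, hwAbsBil_comm h y v, hp.bil_add_left hu hv hy]

lemma HWAbsParLaw.bil_self (hp : HWAbsParLaw S h) {x : A} (hx : x ∈ S) : hwAbsBil h x x = 2 * h x := by
  unfold hwAbsBil
  rw [hp.two hx]
  ring

lemma HWAbsParLaw.bil_zero_left (hp : HWAbsParLaw S h) (y : A) : hwAbsBil h 0 y = 0 := by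
  unfold hwAbsBil
  simp [hp.zero]

lemma HWAbsParLaw.bil_neg_left (hp : HWAbsParLaw S h) {x y : A} (hx : x ∈ S) (hy : y ∈ S) :
    hwAbsBil h (-x) y = - hwAbsBil h x y := by
  have := hp.bil_add_left hx (S.neg_mem hx) hy
  rw [add_neg_cancel, hp.bil_zero_left _] at this
  linarith

lemma HWAbsParLaw.bil_zsmul_left (hp : HWAbsParLaw S h) {x y : A} (hx : x ∈ S) (hy : y ∈ S) (n : ℤ) :
    hwAbsBil h (n • x) y = n * hwAbsBil h x y := by
  induction n using Int.induction_on with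
  | zero => simp [hp.bil_zero_left _]
  | succ k ih =>
    rw [add_zsmul, one_zsmul, hp.bil_add_left (S.zsmul_mem hx _) hx hy, ih]
    ring
  | pred k ih =>
    rw [sub_zsmul, one_zsmul, sub_eq_add_neg, hp.bil_add_left (S.zsmul_mem hx _) (S.neg_mem hx) hy,
      ih, hp.bil_neg_left hx hy]
    ring

lemma HWAbsParLaw.bil_zsmul_right (hp : HWAbsParLaw S h) {x y : A} (hx : x ∈ S) (hy : y ∈ S) (n : ℤ) :
    hwAbsBil h y (n • x) = n * hwAbsBil h y x := by
  rw [hwAbsBil_comm h y (n • x), hwAbsBil_comm h y x, hp.bil_zsmul_left hx hy]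

lemma hwAbsBil_add_eq (h : A → ℤ) (x y : A) : h (x + y) = h x + h y + hwAbsBil h x y := by
  unfold hwAbsBil; ring

lemma HWAbsParLaw.zsmul_eq (hp : HWAbsParLaw S h) {x : A} (hx : x ∈ S) (n : ℤ) : h (n • x) = n ^ 2 * h x := by
  have h1 : hwAbsBil h (n • x) (n • x) = 2 * h (n • x) := hp.bil_self (S.zsmul_mem hx n)
  rw [hp.bil_zsmul_left hx (S.zsmul_mem hx n), hp.bil_zsmul_right hx hx, hp.bil_self hx] at h1
  nlinarith

/-- The value of `h` on a combination of three elements. -/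
lemma HWAbsParLaw.three (hp : HWAbsParLaw S h) {x y z : A} (hx : x ∈ S) (hy : y ∈ S) (hz : z ∈ S)
    (a b c : ℤ) :
    h (a • x + b • y + c • z) = a ^ 2 * h x + b ^ 2 * h y + c ^ 2 * h z +
      a * b * hwAbsBil h x y + a * c * hwAbsBil h x z + b * c * hwAbsBil h y z := by
  have hax := S.zsmul_mem hx a
  have hby := S.zsmul_mem hy b
  have hcz := S.zsmul_mem hz c
  rw [hwAbsBil_add_eq h (a • x + b • y) (c • z), hwAbsBil_add_eq h (a • x) (b • y),
    hp.bil_add_left hax hby hcz, hp.zsmul_eq hx, hp.zsmul_eq hy, hp.zsmul_eq hz,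
    hp.bil_zsmul_left hx hby, hp.bil_zsmul_right hy hx,
    hp.bil_zsmul_left hx hcz, hp.bil_zsmul_right hz hx,
    hp.bil_zsmul_left hy hcz, hp.bil_zsmul_right hz hy]
  ring

end Group

section Ring

variable {A : Type*} [Ring A] (S : Subring A) (h : A → ℤ)

/-- **HW endgame (abstract).** If `h` satisfies the parallelogram law and is multiplicative on a
subring `S ∋ φ` and `h 1 = 1`, then `h (φ² − t φ + h(φ)) = 0` with `t = h φ + 1 − h (φ − 1)`. -/
theorem hwAbs_relation (φ : A) (hφ : φ ∈ S)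
    (hpar : HWAbsParLaw S.toAddSubgroup h)
    (hmul : ∀ a ∈ S, ∀ b ∈ S, h (a * b) = h a * h b) (h1 : h 1 = 1) :
    h (φ ^ 2 - (h φ + 1 - h (φ - 1)) • φ + (h φ) • (1 : A)) = 0 := by
  have h1S : (1 : A) ∈ S.toAddSubgroup := S.one_mem
  have hφS : φ ∈ S.toAddSubgroup := hφ
  have hφ2S : φ ^ 2 ∈ S.toAddSubgroup := S.pow_mem hφ 2
  set p := h φ with hp
  set N := h (φ - 1) with hN
  set t := p + 1 - N with ht
  -- h(φ+1)
  have e1 : h (φ + 1) = p + 1 + t := by
    have := hpar φ hφS 1 h1S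
    rw [h1] at this
    rw [ht]
    linarith
  have hB1 : hwAbsBil h φ 1 = t := by
    unfold hwAbsBil
    rw [e1, h1]; ring
  have hφ2 : h (φ ^ 2) = p ^ 2 := by
    rw [sq, hmul φ hφ φ hφ]; ring
  have hB2 : hwAbsBil h (φ ^ 2) φ = t * p := by
    unfold hwAbsBil
    have : φ ^ 2 + φ = (φ + 1) * φ := by rw [add_mul, one_mul, sq]
    rw [this, hmul _ (S.add_mem hφ S.one_mem) _ hφ, e1, hφ2]
    ring
  have hB3 : hwAbsBil h (φ ^ 2) 1 = t ^ 2 - 2 * p := by
    unfold hwAbsBil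
    have e2 : h (φ ^ 2 - 1) = N * (p + 1 + t) := by
      have : φ ^ 2 - 1 = (φ - 1) * (φ + 1) := by
        rw [sub_mul, mul_add, mul_add, mul_one, one_mul, one_mul, sq]; abel
      rw [this, hmul _ (S.sub_mem hφ S.one_mem) _ (S.add_mem hφ S.one_mem), e1]
    have := hpar (φ ^ 2) hφ2S 1 h1S
    rw [h1, hφ2, e2] at this
    rw [hφ2, h1]
    have hN' : N = p + 1 - t := by rw [ht]; ring
    rw [hN'] at this
    linarith
  have key := hpar.three hφ2S hφS h1S 1 (-t) p
  have e3 : (1 : ℤ) • φ ^ 2 + (-t) • φ + p • (1 : A) = φ ^ 2 - t • φ + p • (1 : A) := by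
    rw [one_zsmul, neg_zsmul, sub_eq_add_neg]
  rw [e3, hφ2, h1, hB2, hB3, hB1] at key
  rw [key]
  ring

end Ring

end Fermat.Agent.HW
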