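import Mathlib

/-!
# HW brick, step 3: exact parallelogram law for heights of rational functions (helper46)

Pure algebra over `k[X]` (`k` a field).  For a Weierstrass curve `W` over `k` with `Δ ≠ 0`:

* `hwQ W u` : the addition-and-subtraction map of Mathlib (`WeierstrassCurve.addSubMap`) evaluated at a
  triple of polynomials, written out;
* `hwPdeg u` : projective degree `max deg (u i)` of a triple; `HwCoprime u` : the triple generates `⊤`;
* `hwPdeg_hwQ` : `hwQ` doubles the projective degree of coprime triples (no base point);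
* `hwT_coprime`, `hwPdeg_hwT` : Gauss: the triple `(a₁b₁ : a₁b₂ + a₂b₁ : a₂b₂)` of two coprime pairs is
  coprime, of degree `ht a + ht b`;
* `ht_add_ht_of_addSub` : if `R₊R₋·(R₁ − R₂)² = F(R₁,R₂)` and `(R₊ + R₋)(R₁ − R₂)² = G(R₁,R₂)`, then
  `ht R₊ + ht R₋ = 2 ht R₁ + 2 ht R₂`;
* `ht_of_double` : if `R'·Ψ₂Sq(R) = Φ₂(R)` then `ht R' = 4 ht R`.
Here `ht f = max f.num.natDegree f.denom.natDegree` (= `[k(X) : k(f)]`, `RatFunc.finrank_eq_max_natDegree`).
-/

namespace Fermat.Agent.HW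

open Polynomial

variable {k : Type*} [Field k]

/-- The addition-and-subtraction map on polynomial triples, written out. -/
noncomputable def hwQ (W : WeierstrassCurve k) (u : Fin 3 → k[X]) : Fin 3 → k[X] :=
  ![u 0 ^ 2 - C W.b₄ * u 0 * u 2 - C W.b₆ * u 1 * u 2 - C W.b₈ * u 2 ^ 2,
    C 2 * u 1 * u 0 + C W.b₂ * u 0 * u 2 + C W.b₄ * u 1 * u 2 + C W.b₆ * u 2 ^ 2,
    u 1 ^ 2 - C 4 * u 0 * u 2]

/-- Projective degree of a triple of polynomials. -/
noncomputable def hwPdeg (u : Fin 3 → k[X]) : ℕ :=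
  max (u 0).natDegree (max (u 1).natDegree (u 2).natDegree)

/-- A triple of polynomials without common zero. -/
def HwCoprime (u : Fin 3 → k[X]) : Prop := Ideal.span (Set.range u) = ⊤

lemma hwPdeg_le (u : Fin 3 → k[X]) (i : Fin 3) : (u i).natDegree ≤ hwPdeg u := by
  unfold hwPdeg
  fin_cases i <;> simp

lemma hwQ_eq_eval (W : WeierstrassCurve k) (u : Fin 3 → k[X]) (j : Fin 3) :
    hwQ W u j = MvPolynomial.eval u
      (WeierstrassCurve.addSubMap (W.map (algebraMap k k[X])) j) := by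
  fin_cases j <;>
    simp [hwQ, WeierstrassCurve.addSubMap, Polynomial.algebraMap_eq, map_ofNat]

/-- `hwQ` has no base point: it preserves coprimality. -/
lemma hwQ_coprime (W : WeierstrassCurve k) [W.IsElliptic] {u : Fin 3 → k[X]} (hu : HwCoprime u) :
    HwCoprime (hwQ W u) := by
  unfold HwCoprime at hu ⊢
  set J : Ideal k[X] := Ideal.span (Set.range (hwQ W u)) with hJ
  have hmem : ∀ j, hwQ W u j ∈ J := fun j => Ideal.subset_span ⟨j, rfl⟩
  have hpow : ∀ i, u i ^ 4 ∈ J := by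
    intro i
    have h := WeierstrassCurve.addSubMapCoeff_condition (W.map (algebraMap k k[X])) u i
    rw [← h]
    refine Ideal.sum_mem _ fun j _ => ?_
    rw [← hwQ_eq_eval]
    exact Ideal.mul_mem_left _ _ (hmem j)
  have hrad : Ideal.span (Set.range u) ≤ J.radical := by
    rw [Ideal.span_le]
    rintro _ ⟨i, rfl⟩
    exact ⟨4, hpow i⟩
  rw [hu, top_le_iff] at hrad
  exact Ideal.radical_eq_top.mp hrad

/-! ### Degree bound together with the top coefficient -/

/-- `p` has degree `≤ d` and coefficient `c` at `X ^ d`. -/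
def HwTop (d : ℕ) (p : k[X]) (c : k) : Prop := p.natDegree ≤ d ∧ p.coeff d = c

lemma HwTop.add {d : ℕ} {p q : k[X]} {a b : k} (hp : HwTop d p a) (hq : HwTop d q b) :
    HwTop d (p + q) (a + b) :=
  ⟨natDegree_add_le_of_degree_le hp.1 hq.1, by rw [coeff_add, hp.2, hq.2]⟩

lemma HwTop.sub {d : ℕ} {p q : k[X]} {a b : k} (hp : HwTop d p a) (hq : HwTop d q b) :
    HwTop d (p - q) (a - b) :=
  ⟨(natDegree_sub_le_of_le hp.1 hq.1).trans (by simp), by rw [coeff_sub, hp.2, hq.2]⟩

lemma HwTop.mul {d e : ℕ} {p q : k[X]} {a b : k} (hp : HwTop d p a) (hq : HwTop e q b) :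
    HwTop (d + e) (p * q) (a * b) :=
  ⟨natDegree_mul_le_of_le hp.1 hq.1, by
    rw [coeff_mul_add_eq_of_natDegree_le hp.1 hq.1, hp.2, hq.2]⟩

lemma HwTop.C_mul {d : ℕ} {p : k[X]} {a : k} (c : k) (hp : HwTop d p a) :
    HwTop d (C c * p) (c * a) :=
  ⟨(natDegree_C_mul_le c p).trans hp.1, by rw [coeff_C_mul, hp.2]⟩

lemma HwTop.sq {d : ℕ} {p : k[X]} {a : k} (hp : HwTop d p a) :
    HwTop (d + d) (p ^ 2) (a ^ 2) := by
  rw [pow_two, pow_two]; exact hp.mul hp

lemma hwTop_of_le {d : ℕ} {p : k[X]} (hp : p.natDegree ≤ d) : HwTop d p (p.coeff d) := ⟨hp, rfl⟩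

/-- The addition-and-subtraction map on triples of constants, written out. -/
def hwQk (W : WeierstrassCurve k) (x : Fin 3 → k) : Fin 3 → k :=
  ![x 0 ^ 2 - W.b₄ * x 0 * x 2 - W.b₆ * x 1 * x 2 - W.b₈ * x 2 ^ 2,
    2 * x 1 * x 0 + W.b₂ * x 0 * x 2 + W.b₄ * x 1 * x 2 + W.b₆ * x 2 ^ 2,
    x 1 ^ 2 - 4 * x 0 * x 2]

lemma hwQk_eq_eval (W : WeierstrassCurve k) (x : Fin 3 → k) (j : Fin 3) :
    hwQk W x j = MvPolynomial.eval x (WeierstrassCurve.addSubMap W j) := by
  fin_cases j <;> simp [hwQk, WeierstrassCurve.addSubMap, map_ofNat]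

lemma hwQk_ne_zero (W : WeierstrassCurve k) [W.IsElliptic] {x : Fin 3 → k} (hx : x ≠ 0) :
    hwQk W x ≠ 0 := by
  intro h
  apply WeierstrassCurve.addSubMap_ne_zero W hx
  funext j
  rw [← hwQk_eq_eval, h]

lemma hwQ_top (W : WeierstrassCurve k) {u : Fin 3 → k[X]} {d : ℕ}
    (hd : ∀ i, (u i).natDegree ≤ d) (j : Fin 3) :
    HwTop (d + d) (hwQ W u j) (hwQk W (fun i => (u i).coeff d) j) := by
  have h0 := hwTop_of_le (hd 0)
  have h1 := hwTop_of_le (hd 1)
  have h2 := hwTop_of_le (hd 2)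
  fin_cases j
  · simp only [hwQ, hwQk, Fin.zero_eta, Fin.isValue, Matrix.cons_val_zero, mul_assoc]
    exact (((h0.sq).sub ((h0.mul h2).C_mul _)).sub ((h1.mul h2).C_mul _)).sub ((h2.sq).C_mul _)
  · simp only [hwQ, hwQk, Fin.mk_one, Fin.isValue, Matrix.cons_val_one, Matrix.cons_val_zero,
      mul_assoc]
    exact ((((h1.mul h0).C_mul 2).add ((h0.mul h2).C_mul _)).add ((h1.mul h2).C_mul _)).add
      ((h2.sq).C_mul _)
  · simp only [hwQ, hwQk, Fin.reduceFinMk, Fin.isValue, Matrix.cons_val, mul_assoc]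
    exact (h1.sq).sub ((h0.mul h2).C_mul 4)

lemma hwCoprime_ne_zero {u : Fin 3 → k[X]} (hu : HwCoprime u) : u ≠ 0 := by
  rintro rfl
  unfold HwCoprime at hu
  have : Ideal.span (Set.range (0 : Fin 3 → k[X])) = ⊥ := by
    rw [Ideal.span_eq_bot]
    rintro _ ⟨i, rfl⟩
    rfl
  rw [this] at hu
  exact bot_ne_top hu

/-- At the projective degree, the vector of coefficients of a nonzero triple is nonzero. -/
lemma hwCoeff_ne_zero {u : Fin 3 → k[X]} (hu : u ≠ 0) :
    (fun i => (u i).coeff (hwPdeg u)) ≠ 0 := by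
  classical
  -- an index where the maximum is attained
  obtain ⟨i₀, hi₀⟩ : ∃ i, (u i).natDegree = hwPdeg u := by
    unfold hwPdeg
    rcases max_cases (u 0).natDegree (max (u 1).natDegree (u 2).natDegree) with h | h
    · exact ⟨0, h.1.symm⟩
    · rcases max_cases (u 1).natDegree (u 2).natDegree with h' | h'
      · exact ⟨1, by rw [h.1, h'.1]⟩
      · exact ⟨2, by rw [h.1, h'.1]⟩
  obtain ⟨i₁, hi₁⟩ : ∃ i, u i ≠ 0 := by
    by_contra hcon
    push Not at hcon
    exact hu (funext hcon)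
  intro hzero
  by_cases h0 : u i₀ = 0
  · -- then the degree is zero and `u i₁` is a nonzero constant
    have hd : hwPdeg u = 0 := by rw [← hi₀, h0, natDegree_zero]
    have h1 : (u i₁).natDegree = 0 := Nat.le_zero.mp (hd ▸ hwPdeg_le u i₁)
    have := congrFun hzero i₁
    simp only [Pi.zero_apply, hd] at this
    rw [← h1] at this
    exact hi₁ (leadingCoeff_eq_zero.mp this)
  · have := congrFun hzero i₀
    simp only [Pi.zero_apply] at this
    rw [← hi₀] at this
    exact h0 (leadingCoeff_eq_zero.mp this)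

/-- **No base point ⇒ exact doubling of the projective degree.** -/
theorem hwPdeg_hwQ (W : WeierstrassCurve k) [W.IsElliptic] {u : Fin 3 → k[X]} (hu : u ≠ 0) :
    hwPdeg (hwQ W u) = 2 * hwPdeg u := by
  set d := hwPdeg u with hd
  have htop := fun j => hwQ_top W (fun i => hwPdeg_le u i) j
  apply le_antisymm
  · unfold hwPdeg
    have h0 := (htop 0).1
    have h1 := (htop 1).1
    have h2 := (htop 2).1
    rw [← hd] at h0 h1 h2
    simp only [max_le_iff]
    refine ⟨by omega, by omega, by omega⟩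
  · have hne := hwQk_ne_zero W (hwCoeff_ne_zero hu)
    obtain ⟨j, hj⟩ : ∃ j, hwQk W (fun i => (u i).coeff (hwPdeg u)) j ≠ 0 := by
      by_contra hcon
      push Not at hcon
      exact hne (funext hcon)
    rw [← (htop j).2] at hj
    have := le_natDegree_of_ne_zero hj
    rw [← hd] at this
    calc 2 * d = d + d := two_mul d
      _ ≤ (hwQ W u j).natDegree := this
      _ ≤ hwPdeg (hwQ W u) := hwPdeg_le _ j

/-- Two coprime triples which are proportional have the same projective degree. -/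
theorem hwPdeg_eq_of_proportional {u w : Fin 3 → k[X]} (hu : HwCoprime u) (hw : HwCoprime w)
    {s t : k[X]} (hs : s ≠ 0) (ht : t ≠ 0) (h : ∀ i, s * u i = t * w i) :
    hwPdeg u = hwPdeg w := by
  -- `t ∣ s` and `s ∣ t`
  have hts : t ∣ s := by
    have : Ideal.span (Set.range fun i => s * u i) ≤ Ideal.span {t} := by
      rw [Ideal.span_le]
      rintro _ ⟨i, rfl⟩
      show s * u i ∈ Ideal.span {t}
      rw [h i]
      exact Ideal.mul_mem_right _ _ (Ideal.mem_span_singleton_self t)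
    have hs' : s ∈ Ideal.span (Set.range fun i => s * u i) := by
      have h1 : (1 : k[X]) ∈ Ideal.span (Set.range u) := by rw [hu]; trivial
      have : s * 1 ∈ Ideal.span (Set.range fun i => s * u i) := by
        refine Submodule.span_induction (p := fun x _ => s * x ∈
          Ideal.span (Set.range fun i => s * u i)) ?_ ?_ ?_ ?_ h1
        · rintro _ ⟨i, rfl⟩
          exact Ideal.subset_span ⟨i, rfl⟩
        · simp
        · intro x y _ _ hx hy
          rw [mul_add]; exact Ideal.add_mem _ hx hy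
        · intro a x _ hx
          rw [smul_eq_mul, mul_left_comm]; exact Ideal.mul_mem_left _ _ hx
      simpa using this
    exact Ideal.mem_span_singleton.mp (this hs')
  have hst : s ∣ t := by
    have : Ideal.span (Set.range fun i => t * w i) ≤ Ideal.span {s} := by
      rw [Ideal.span_le]
      rintro _ ⟨i, rfl⟩
      show t * w i ∈ Ideal.span {s}
      rw [← h i]
      exact Ideal.mul_mem_right _ _ (Ideal.mem_span_singleton_self s)
    have ht' : t ∈ Ideal.span (Set.range fun i => t * w i) := by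
      have h1 : (1 : k[X]) ∈ Ideal.span (Set.range w) := by rw [hw]; trivial
      have : t * 1 ∈ Ideal.span (Set.range fun i => t * w i) := by
        refine Submodule.span_induction (p := fun x _ => t * x ∈
          Ideal.span (Set.range fun i => t * w i)) ?_ ?_ ?_ ?_ h1
        · rintro _ ⟨i, rfl⟩
          exact Ideal.subset_span ⟨i, rfl⟩
        · simp
        · intro x y _ _ hx hy
          rw [mul_add]; exact Ideal.add_mem _ hx hy
        · intro a x _ hx
          rw [smul_eq_mul, mul_left_comm]; exact Ideal.mul_mem_left _ _ hx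
      simpa using this
    exact Ideal.mem_span_singleton.mp (this ht')
  -- hence `s = t * e` with `e` a unit, and `w i = e * u i`
  obtain ⟨e, he⟩ := hts
  obtain ⟨e', he'⟩ := hst
  have hee : e * e' = 1 := by
    have : s * (e' * e) = s * 1 := by
      rw [mul_one, ← mul_assoc, ← he', ← he]
    have := mul_left_cancel₀ hs this
    rw [mul_comm] at this
    exact this
  have heu : IsUnit e := IsUnit.of_mul_eq_one _ hee
  have hwi : ∀ i, w i = e * u i := by
    intro i
    have := h i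
    rw [he, mul_assoc] at this
    exact (mul_left_cancel₀ ht this).symm
  have hdeg : ∀ i, (w i).natDegree = (u i).natDegree := by
    intro i
    rw [hwi i]
    obtain ⟨c, hc, rfl⟩ := Polynomial.isUnit_iff.mp heu
    exact natDegree_C_mul (IsUnit.ne_zero hc)
  unfold hwPdeg
  rw [hdeg 0, hdeg 1, hdeg 2]

/-! ### Gauss: the symmetric triple of two fractions -/

/-- The triple `(a₁b₁ : a₁b₂ + a₂b₁ : a₂b₂)`, i.e. `(ab : a + b : 1)` for `a = a₁/a₂`, `b = b₁/b₂`. -/
noncomputable def hwT (a₁ a₂ b₁ b₂ : k[X]) : Fin 3 → k[X] :=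
  ![a₁ * b₁, a₁ * b₂ + a₂ * b₁, a₂ * b₂]

lemma hwT_coprime {a₁ a₂ b₁ b₂ : k[X]} (ha : IsCoprime a₁ a₂) (hb : IsCoprime b₁ b₂) :
    HwCoprime (hwT a₁ a₂ b₁ b₂) := by
  unfold HwCoprime
  by_contra hne
  obtain ⟨M, hM, hle⟩ := Ideal.exists_le_maximal _ hne
  have hprime : M.IsPrime := hM.isPrime
  have hmem : ∀ i, hwT a₁ a₂ b₁ b₂ i ∈ M := fun i => hle (Ideal.subset_span ⟨i, rfl⟩)
  have h0 : a₁ * b₁ ∈ M := hmem 0
  have h1 : a₁ * b₂ + a₂ * b₁ ∈ M := hmem 1
  have h2 : a₂ * b₂ ∈ M := hmem 2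
  have hcop : ∀ {x y : k[X]}, IsCoprime x y → x ∈ M → y ∈ M → False := by
    intro x y hxy hx hy
    obtain ⟨c, d, hcd⟩ := hxy
    apply hM.ne_top
    rw [Ideal.eq_top_iff_one, ← hcd]
    exact Ideal.add_mem _ (Ideal.mul_mem_left _ _ hx) (Ideal.mul_mem_left _ _ hy)
  rcases hprime.mem_or_mem h2 with h | h
  · -- `a₂ ∈ M`, so `a₁ ∉ M`, `b₁ ∈ M`, `b₂ ∈ M`
    have ha1 : a₁ ∉ M := fun h' => hcop ha h' h
    have hb1 : b₁ ∈ M := (hprime.mem_or_mem h0).resolve_left ha1
    have : a₁ * b₂ ∈ M := by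
      have := Ideal.sub_mem _ h1 (Ideal.mul_mem_right b₁ _ h)
      simpa using this
    have hb2 : b₂ ∈ M := (hprime.mem_or_mem this).resolve_left ha1
    exact hcop hb hb1 hb2
  · have hb1 : b₁ ∉ M := fun h' => hcop hb h' h
    have ha1 : a₁ ∈ M := (hprime.mem_or_mem h0).resolve_right hb1
    have : a₂ * b₁ ∈ M := by
      have := Ideal.sub_mem _ h1 (Ideal.mul_mem_right b₂ _ ha1)
      simpa using this
    have ha2 : a₂ ∈ M := (hprime.mem_or_mem this).resolve_right hb1
    exact hcop ha ha1 ha2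

lemma hwPair_coeff_ne_zero {a₁ a₂ : k[X]} (h : a₁ ≠ 0 ∨ a₂ ≠ 0) :
    a₁.coeff (max a₁.natDegree a₂.natDegree) ≠ 0 ∨
      a₂.coeff (max a₁.natDegree a₂.natDegree) ≠ 0 := by
  rcases le_total a₁.natDegree a₂.natDegree with hle | hle
  · rw [max_eq_right hle]
    by_cases h2 : a₂ = 0
    · have hd : a₂.natDegree = 0 := by rw [h2, natDegree_zero]
      have h1 : a₁ ≠ 0 := h.resolve_right (not_not.mpr h2)
      left
      rw [hd] at hle ⊢
      have : a₁.natDegree = 0 := Nat.le_zero.mp hle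
      rw [← this]
      exact leadingCoeff_ne_zero.mpr h1
    · right; exact leadingCoeff_ne_zero.mpr h2
  · rw [max_eq_left hle]
    by_cases h1 : a₁ = 0
    · have hd : a₁.natDegree = 0 := by rw [h1, natDegree_zero]
      have h2 : a₂ ≠ 0 := h.resolve_left (not_not.mpr h1)
      right
      rw [hd] at hle ⊢
      have : a₂.natDegree = 0 := Nat.le_zero.mp hle
      rw [← this]
      exact leadingCoeff_ne_zero.mpr h2
    · left; exact leadingCoeff_ne_zero.mpr h1

lemma hwCoprime_pair_ne {a₁ a₂ : k[X]} (ha : IsCoprime a₁ a₂) : a₁ ≠ 0 ∨ a₂ ≠ 0 := by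
  by_contra hcon
  push Not at hcon
  obtain ⟨c, d, hcd⟩ := ha
  rw [hcon.1, hcon.2] at hcd
  simp at hcd

/-- **Gauss' lemma for heights**: `pdeg (ab : a + b : 1) = ht a + ht b`. -/
theorem hwPdeg_hwT {a₁ a₂ b₁ b₂ : k[X]} (ha : a₁ ≠ 0 ∨ a₂ ≠ 0) (hb : b₁ ≠ 0 ∨ b₂ ≠ 0) :
    hwPdeg (hwT a₁ a₂ b₁ b₂) =
      max a₁.natDegree a₂.natDegree + max b₁.natDegree b₂.natDegree := by
  set d := max a₁.natDegree a₂.natDegree with hd
  set e := max b₁.natDegree b₂.natDegree with he
  have A1 : HwTop d a₁ (a₁.coeff d) := hwTop_of_le (le_max_left _ _)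
  have A2 : HwTop d a₂ (a₂.coeff d) := hwTop_of_le (le_max_right _ _)
  have B1 : HwTop e b₁ (b₁.coeff e) := hwTop_of_le (le_max_left _ _)
  have B2 : HwTop e b₂ (b₂.coeff e) := hwTop_of_le (le_max_right _ _)
  have T0 := A1.mul B1
  have T1 := (A1.mul B2).add (A2.mul B1)
  have T2 := A2.mul B2
  apply le_antisymm
  · unfold hwPdeg hwT
    simp only [Fin.isValue, Matrix.cons_val_zero, Matrix.cons_val_one, Matrix.cons_val, max_le_iff]
    exact ⟨T0.1, T1.1, T2.1⟩
  · -- one of the three top coefficients is nonzero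
    have hA := hwPair_coeff_ne_zero ha
    have hB := hwPair_coeff_ne_zero hb
    rw [← hd] at hA
    rw [← he] at hB
    have key : a₁.coeff d * b₁.coeff e ≠ 0 ∨
        a₁.coeff d * b₂.coeff e + a₂.coeff d * b₁.coeff e ≠ 0 ∨
        a₂.coeff d * b₂.coeff e ≠ 0 := by
      by_contra hcon
      push Not at hcon
      obtain ⟨h0, h1, h2⟩ := hcon
      rcases mul_eq_zero.mp h0 with hA1 | hB1
      · have hA2 : a₂.coeff d ≠ 0 := hA.resolve_left (not_not.mpr hA1)
        have hB2 : b₂.coeff e = 0 := (mul_eq_zero.mp h2).resolve_left hA2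
        have hB1 : b₁.coeff e ≠ 0 := hB.resolve_right (not_not.mpr hB2)
        rw [hA1, zero_mul, zero_add] at h1
        exact (mul_ne_zero hA2 hB1) h1
      · have hB2 : b₂.coeff e ≠ 0 := hB.resolve_left (not_not.mpr hB1)
        have hA2 : a₂.coeff d = 0 := (mul_eq_zero.mp h2).resolve_right hB2
        have hA1 : a₁.coeff d ≠ 0 := hA.resolve_right (not_not.mpr hA2)
        rw [hA2, zero_mul, add_zero] at h1
        exact (mul_ne_zero hA1 hB2) h1
    rcases key with h | h | h
    · rw [← T0.2] at h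
      exact (le_natDegree_of_ne_zero h).trans (hwPdeg_le (hwT a₁ a₂ b₁ b₂) 0)
    · rw [← T1.2] at h
      exact (le_natDegree_of_ne_zero h).trans (hwPdeg_le (hwT a₁ a₂ b₁ b₂) 1)
    · rw [← T2.2] at h
      exact (le_natDegree_of_ne_zero h).trans (hwPdeg_le (hwT a₁ a₂ b₁ b₂) 2)

/-! ### Rational functions -/

/-- The coprime polynomial triple representing `(fg : f + g : 1)`. -/
noncomputable def hwS (f g : RatFunc k) : Fin 3 → k[X] :=
  hwT f.num f.denom g.num g.denom

lemma hwS_coprime (f g : RatFunc k) : HwCoprime (hwS f g) :=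
  hwT_coprime (RatFunc.isCoprime_num_denom f) (RatFunc.isCoprime_num_denom g)

lemma hwPdeg_hwS (f g : RatFunc k) :
    hwPdeg (hwS f g) =
      max f.num.natDegree f.denom.natDegree + max g.num.natDegree g.denom.natDegree :=
  hwPdeg_hwT (Or.inr (RatFunc.denom_ne_zero f)) (Or.inr (RatFunc.denom_ne_zero g))

lemma hwS_num_eq (f : RatFunc k) :
    algebraMap k[X] (RatFunc k) f.num = f * algebraMap k[X] (RatFunc k) f.denom := by
  have hf := RatFunc.num_div_denom f
  have hf0 : algebraMap k[X] (RatFunc k) f.denom ≠ 0 :=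
    RatFunc.algebraMap_ne_zero (RatFunc.denom_ne_zero f)
  exact (div_eq_iff hf0).mp hf

lemma hwS_zero (f g : RatFunc k) :
    algebraMap k[X] (RatFunc k) (hwS f g 0) =
      f * g * algebraMap k[X] (RatFunc k) (f.denom * g.denom) := by
  simp only [hwS, hwT, Fin.isValue, Matrix.cons_val_zero, map_mul]
  rw [hwS_num_eq f, hwS_num_eq g]
  ring

lemma hwS_one (f g : RatFunc k) :
    algebraMap k[X] (RatFunc k) (hwS f g 1) =
      (f + g) * algebraMap k[X] (RatFunc k) (f.denom * g.denom) := by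
  simp only [hwS, hwT, Fin.isValue, Matrix.cons_val_one, Matrix.cons_val_zero, map_mul, map_add]
  rw [hwS_num_eq f, hwS_num_eq g]
  ring

lemma hwS_two (f g : RatFunc k) : hwS f g 2 = f.denom * g.denom := by
  simp [hwS, hwT]

lemma hwS_two_ne_zero (f g : RatFunc k) : hwS f g 2 ≠ 0 := by
  rw [hwS_two]
  exact mul_ne_zero (RatFunc.denom_ne_zero f) (RatFunc.denom_ne_zero g)

lemma hwQ_map_zero (W : WeierstrassCurve k) (u : Fin 3 → k[X]) :
    algebraMap k[X] (RatFunc k) (hwQ W u 0) =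
      algebraMap k[X] (RatFunc k) (u 0) ^ 2
        - RatFunc.C W.b₄ * algebraMap k[X] (RatFunc k) (u 0) * algebraMap k[X] (RatFunc k) (u 2)
        - RatFunc.C W.b₆ * algebraMap k[X] (RatFunc k) (u 1) * algebraMap k[X] (RatFunc k) (u 2)
        - RatFunc.C W.b₈ * algebraMap k[X] (RatFunc k) (u 2) ^ 2 := by
  simp [hwQ, RatFunc.algebraMap_C]

lemma hwQ_map_one (W : WeierstrassCurve k) (u : Fin 3 → k[X]) :
    algebraMap k[X] (RatFunc k) (hwQ W u 1) =
      2 * algebraMap k[X] (RatFunc k) (u 1) * algebraMap k[X] (RatFunc k) (u 0)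
        + RatFunc.C W.b₂ * algebraMap k[X] (RatFunc k) (u 0) * algebraMap k[X] (RatFunc k) (u 2)
        + RatFunc.C W.b₄ * algebraMap k[X] (RatFunc k) (u 1) * algebraMap k[X] (RatFunc k) (u 2)
        + RatFunc.C W.b₆ * algebraMap k[X] (RatFunc k) (u 2) ^ 2 := by
  simp [hwQ, RatFunc.algebraMap_C, map_ofNat]

lemma hwQ_map_two (W : WeierstrassCurve k) (u : Fin 3 → k[X]) :
    algebraMap k[X] (RatFunc k) (hwQ W u 2) =
      algebraMap k[X] (RatFunc k) (u 1) ^ 2
        - 4 * algebraMap k[X] (RatFunc k) (u 0) * algebraMap k[X] (RatFunc k) (u 2) := by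
  simp [hwQ, map_ofNat]

/-- **Exact parallelogram law for heights** (generic case).  If `R₊`, `R₋` are the `x`-coordinate
functions of `α + β`, `α − β` and `R₁`, `R₂` those of `α`, `β`, i.e.
`R₊R₋ (R₁ − R₂)² = F(R₁, R₂)` and `(R₊ + R₋)(R₁ − R₂)² = G(R₁, R₂)` with the biquadratic forms of
`WeierstrassCurve.addSubMap`, then `ht R₊ + ht R₋ = 2 ht R₁ + 2 ht R₂`. -/
theorem ht_add_ht_of_addSub (W : WeierstrassCurve k) [W.IsElliptic] (R₁ R₂ Rp Rm : RatFunc k)
    (h0 : Rp * Rm * (R₁ - R₂) ^ 2 =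
      (R₁ * R₂) ^ 2 - RatFunc.C W.b₄ * (R₁ * R₂) - RatFunc.C W.b₆ * (R₁ + R₂) - RatFunc.C W.b₈)
    (h1 : (Rp + Rm) * (R₁ - R₂) ^ 2 =
      2 * (R₁ + R₂) * (R₁ * R₂) + RatFunc.C W.b₂ * (R₁ * R₂) + RatFunc.C W.b₄ * (R₁ + R₂)
        + RatFunc.C W.b₆) :
    max Rp.num.natDegree Rp.denom.natDegree + max Rm.num.natDegree Rm.denom.natDegree =
      2 * max R₁.num.natDegree R₁.denom.natDegree +
        2 * max R₂.num.natDegree R₂.denom.natDegree := by
  set u := hwS R₁ R₂ with hu
  set v := hwQ W u with hv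
  set w := hwS Rp Rm with hw
  have hinj : Function.Injective (algebraMap k[X] (RatFunc k)) := RatFunc.algebraMap_injective k
  have hucop : HwCoprime u := hwS_coprime R₁ R₂
  have hvcop : HwCoprime v := hwQ_coprime W hucop
  have hwcop : HwCoprime w := hwS_coprime Rp Rm
  have key : ∀ i, w 2 * v i = v 2 * w i := by
    intro i
    apply hinj
    fin_cases i
    · simp only [Fin.zero_eta, Fin.isValue, map_mul, hv, hw, hu, hwQ_map_zero, hwQ_map_two,
        hwS_zero, hwS_one, hwS_two]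
      linear_combination (-(algebraMap k[X] (RatFunc k) Rp.denom *
        algebraMap k[X] (RatFunc k) Rm.denom) * (algebraMap k[X] (RatFunc k) R₁.denom *
        algebraMap k[X] (RatFunc k) R₂.denom) ^ 2) * h0
    · simp only [Fin.mk_one, Fin.isValue, map_mul, hv, hw, hu, hwQ_map_one, hwQ_map_two,
        hwS_zero, hwS_one, hwS_two]
      linear_combination (-(algebraMap k[X] (RatFunc k) Rp.denom *
        algebraMap k[X] (RatFunc k) Rm.denom) * (algebraMap k[X] (RatFunc k) R₁.denom *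
        algebraMap k[X] (RatFunc k) R₂.denom) ^ 2) * h1
    · simp only [Fin.reduceFinMk, Fin.isValue, map_mul]
      ring
  have hw2 : w 2 ≠ 0 := hwS_two_ne_zero Rp Rm
  have hv2 : v 2 ≠ 0 := by
    intro hzero
    apply hwCoprime_ne_zero hvcop
    funext i
    have := key i
    rw [hzero, zero_mul] at this
    exact (mul_eq_zero.mp this).resolve_left hw2
  have hdeg := hwPdeg_eq_of_proportional hvcop hwcop hw2 hv2 key
  have h2 := hwPdeg_hwQ W (hwCoprime_ne_zero hucop)
  rw [← hv] at h2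
  rw [h2, hu, hw, hwPdeg_hwS, hwPdeg_hwS] at hdeg
  omega

/-- **Duplication**: if `R' · Ψ₂Sq(R) = Φ₂(R)` (so that `R'` is the `x`-coordinate function of `2α`),
then `ht R' = 4 ht R`. -/
theorem ht_of_double (W : WeierstrassCurve k) [W.IsElliptic] (R R' : RatFunc k)
    (h : R' * (4 * R ^ 3 + RatFunc.C W.b₂ * R ^ 2 + 2 * RatFunc.C W.b₄ * R + RatFunc.C W.b₆) =
      R ^ 4 - RatFunc.C W.b₄ * R ^ 2 - 2 * RatFunc.C W.b₆ * R - RatFunc.C W.b₈) :
    max R'.num.natDegree R'.denom.natDegree = 4 * max R.num.natDegree R.denom.natDegree := by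
  set u := hwS R R with hu
  set v := hwQ W u with hv
  set w : Fin 3 → k[X] := ![R'.num, R'.denom, 0] with hw
  have hinj : Function.Injective (algebraMap k[X] (RatFunc k)) := RatFunc.algebraMap_injective k
  have hucop : HwCoprime u := hwS_coprime R R
  have hvcop : HwCoprime v := hwQ_coprime W hucop
  have hwcop : HwCoprime w := by
    unfold HwCoprime
    obtain ⟨c, d, hcd⟩ := RatFunc.isCoprime_num_denom R'
    rw [Ideal.eq_top_iff_one, ← hcd]
    refine Ideal.add_mem _ (Ideal.mul_mem_left _ _ (Ideal.subset_span ⟨0, ?_⟩))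
      (Ideal.mul_mem_left _ _ (Ideal.subset_span ⟨1, ?_⟩))
    · simp [hw]
    · simp [hw]
  have hv2 : v 2 = 0 := by
    simp only [hv, hu, hwQ, hwS, hwT, Fin.isValue, Matrix.cons_val, Matrix.cons_val_one,
      Matrix.cons_val_zero]
    have : (C 4 : k[X]) = 4 := map_ofNat C 4
    rw [this]
    ring
  have key : ∀ i, R'.denom * v i = v 1 * w i := by
    intro i
    fin_cases i
    · apply hinj
      simp only [Fin.zero_eta, Fin.isValue, map_mul, hv, hw, hu, hwQ_map_zero, hwQ_map_one,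
        hwS_zero, hwS_one, hwS_two, Matrix.cons_val_zero, hwS_num_eq R']
      linear_combination (-(algebraMap k[X] (RatFunc k) R'.denom) *
        (algebraMap k[X] (RatFunc k) R.denom * algebraMap k[X] (RatFunc k) R.denom) ^ 2) * h
    · simp only [Fin.mk_one, Fin.isValue, hw, Matrix.cons_val_one, Matrix.cons_val_zero]
      ring
    · simp only [Fin.reduceFinMk, Fin.isValue, hw, Matrix.cons_val, hv2, mul_zero]
  have hs : R'.denom ≠ 0 := RatFunc.denom_ne_zero R'
  have hv1 : v 1 ≠ 0 := by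
    intro hzero
    apply hwCoprime_ne_zero hvcop
    funext i
    have := key i
    rw [hzero, zero_mul] at this
    exact (mul_eq_zero.mp this).resolve_left hs
  have hdeg := hwPdeg_eq_of_proportional hvcop hwcop hs hv1 key
  have h2 := hwPdeg_hwQ W (hwCoprime_ne_zero hucop)
  rw [← hv] at h2
  rw [h2, hu, hwPdeg_hwS] at hdeg
  have hwdeg : hwPdeg w = max R'.num.natDegree R'.denom.natDegree := by
    simp [hwPdeg, hw]
  rw [hwdeg] at hdeg
  omega

end Fermat.Agent.HW

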