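import Mathlib

/-!
# HW brick, step 1b: heights of rational functions are multiplicative under composition

`ht f = max (deg num) (deg denom) = [K(X) : K(f)]` (Mathlib `RatFunc.finrank_eq_max_natDegree`),
and `ht (R ∘ T) = ht R * ht T` by the tower law `K(R∘T) ⊆ K(T) ⊆ K(X)`.
-/

set_option autoImplicit false

namespace Fermat.Agent.HW

open IntermediateField Polynomial

variable {K : Type*} [Field K]

/-- The height (degree) of a rational function. -/
noncomputable def hwTowerHeight (f : RatFunc K) : ℕ := max f.num.natDegree f.denom.natDegree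

/-- Composition `R ∘ T` of rational functions. -/
noncomputable def hwTowerComp (R T : RatFunc K) : RatFunc K :=
  RatFunc.eval (algebraMap K (RatFunc K)) T R

lemma hwTowerComp_eq (R T : RatFunc K) :
    hwTowerComp R T = aeval T R.num / aeval T R.denom := rfl

lemma hwTowerHeight_eq_finrank (f : RatFunc K) :
    hwTowerHeight f = Module.finrank K⟮f⟯ (RatFunc K) :=
  (RatFunc.finrank_eq_max_natDegree f).symm

lemma hwTowerHeight_C (c : K) : hwTowerHeight (RatFunc.C c) = 0 := by
  simp [hwTowerHeight]

lemma hwTowerComp_C_right (R : RatFunc K) (c : K) :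
    hwTowerComp R (RatFunc.C c) = RatFunc.C (R.num.eval c / R.denom.eval c) := by
  rw [hwTowerComp_eq]
  have h : ∀ q : K[X], aeval (RatFunc.C c : RatFunc K) q = RatFunc.C (q.eval c) := by
    intro q
    rw [← RatFunc.algebraMap_eq_C, aeval_algebraMap_apply, Polynomial.aeval_def,
      Polynomial.eval₂_eq_eval_map]
    simp
  rw [h, h, map_div₀]

/-- The tower law for composition (nonconstant inner function). -/
lemma hwTowerHeight_comp_of_transcendental (R T : RatFunc K) (hT : Transcendental K T) :
    hwTowerHeight (hwTowerComp R T) = hwTowerHeight R * hwTowerHeight T := by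
  set e := RatFunc.algEquivOfTranscendental T hT with he
  set ψ : RatFunc K →ₐ[K] RatFunc K := (K⟮T⟯.val).comp e.toAlgHom with hψ
  have hψR : ψ R = hwTowerComp R T := by
    rw [hwTowerComp_eq]
    exact RatFunc.algEquivOfTranscendental_apply T hT R
  set g := hwTowerComp R T with hg
  have hgT : g ∈ K⟮T⟯ := by
    rw [← hψR]
    exact (e R).2
  have hle : K⟮g⟯ ≤ K⟮T⟯ := adjoin_simple_le_iff.mpr hgT
  rw [hwTowerHeight_eq_finrank g, hwTowerHeight_eq_finrank R, hwTowerHeight_eq_finrank T,
    ← relfinrank_mul_finrank_top hle, relfinrank_eq_finrank_of_le hle]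
  congr 1
  -- the two ring equivalences
  have hmap : K⟮R⟯.map ψ = K⟮g⟯ := by
    rw [adjoin_map, Set.image_singleton, hψR]
  let i : K⟮R⟯ ≃+* K⟮g⟯ :=
    ((IntermediateField.equivMap K⟮R⟯ ψ).trans (IntermediateField.equivOfEq hmap)).toRingEquiv
  let j : RatFunc K ≃+* ↥(extendScalars hle) :=
    { toFun := fun x => ⟨(e x : RatFunc K), (e x).2⟩
      invFun := fun y => e.symm ⟨y.1, y.2⟩
      left_inv := fun x => by simp
      right_inv := fun y => by
        apply Subtype.ext
        simp
      map_mul' := fun x y => Subtype.ext (by rw [map_mul]; rfl)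
      map_add' := fun x y => Subtype.ext (by rw [map_add]; rfl) }
  symm
  refine Algebra.finrank_eq_of_equiv_equiv i j ?_
  ext x
  rfl

/-- **HW-1b**: heights are multiplicative under composition of rational functions. -/
theorem hwTowerHeight_comp (R T : RatFunc K) :
    hwTowerHeight (hwTowerComp R T) = hwTowerHeight R * hwTowerHeight T := by
  by_cases hT : ∃ c, T = RatFunc.C c
  · obtain ⟨c, rfl⟩ := hT
    rw [hwTowerComp_C_right, hwTowerHeight_C, hwTowerHeight_C, mul_zero]
  · exact hwTowerHeight_comp_of_transcendental R T (T.transcendental_of_ne_C hT)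

/-- The same statement without auxiliary definitions. -/
theorem hwTowerHeight_comp_raw (R T : RatFunc K) :
    max (RatFunc.eval (algebraMap K (RatFunc K)) T R).num.natDegree
        (RatFunc.eval (algebraMap K (RatFunc K)) T R).denom.natDegree =
      max R.num.natDegree R.denom.natDegree * max T.num.natDegree T.denom.natDegree :=
  hwTowerHeight_comp R T

lemma hwTowerHeight_eq_zero_iff (f : RatFunc K) : hwTowerHeight f = 0 ↔ ∃ c, f = RatFunc.C c := by
  rw [hwTowerHeight, Nat.max_eq_zero_iff, ← RatFunc.eq_C_iff]

lemma hwTowerHeight_X : hwTowerHeight (RatFunc.X : RatFunc K) = 1 := by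
  simp [hwTowerHeight]

lemma hwTowerComp_X_right (R : RatFunc K) : hwTowerComp R RatFunc.X = R := by
  rw [hwTowerComp_eq]
  have h : ∀ q : K[X], aeval (RatFunc.X : RatFunc K) q = algebraMap K[X] (RatFunc K) q := by
    intro q
    rw [← RatFunc.algebraMap_X, aeval_algebraMap_apply, aeval_X_left_apply]
  rw [h, h, RatFunc.num_div_denom]

lemma hwTowerComp_X_left (T : RatFunc K) : hwTowerComp RatFunc.X T = T := by
  simp [hwTowerComp]

end Fermat.Agent.HW
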