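import Fermat.Agent.HW.Plan
import Fermat.Agent.HW.HeightComp
import Fermat.Agent.HW.Height
import Fermat.Agent.HW.Count

/-!
# HW brick: adaptors from the landed pieces to the `Stmt…` interface of `Plan.lean` (helper51)
-/

set_option autoImplicit false

open Polynomial

namespace Fermat.Agent.HW

noncomputable section

section Comp

variable (K : Type*) [Field K]

theorem stmtHtComp : StmtHtComp K := fun R T => hwTowerHeight_comp R T

theorem stmtHtConst : StmtHtConst K := fun R => hwTowerHeight_eq_zero_iff R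

end Comp

section Height

variable {K : Type*} [Field K] (E : WeierstrassCurve K)

theorem stmtHtAddSub : StmtHtAddSub E := by
  intro hΔ R₁ R₂ Rp Rm _ hs hpr
  have : E.IsElliptic := ⟨isUnit_iff_ne_zero.mpr hΔ⟩
  refine ht_add_ht_of_addSub E R₁ R₂ Rp Rm ?_ ?_
  · rw [hpr]; simp only [Fform, RatFunc.algebraMap_eq_C]; ring
  · rw [hs]; simp only [Gform, RatFunc.algebraMap_eq_C]; ring

theorem Ψ₂Sq_ne_zero_of_Δ (hΔ : E.Δ ≠ 0) : E.Ψ₂Sq ≠ 0 := by
  intro h
  have c3 : (4 : K) = 0 := by
    have := congrArg (fun q : K[X] => q.coeff 3) h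
    simpa [WeierstrassCurve.Ψ₂Sq, coeff_X, coeff_C, coeff_X_pow] using this
  have c2 : E.b₂ = 0 := by
    have := congrArg (fun q : K[X] => q.coeff 2) h
    simpa [WeierstrassCurve.Ψ₂Sq, coeff_X, coeff_C, coeff_X_pow] using this
  have c1 : 2 * E.b₄ = 0 := by
    have := congrArg (fun q : K[X] => q.coeff 1) h
    simpa [WeierstrassCurve.Ψ₂Sq, coeff_X, coeff_C, coeff_X_pow] using this
  have c0 : E.b₆ = 0 := by
    have := congrArg (fun q : K[X] => q.coeff 0) h
    simpa [WeierstrassCurve.Ψ₂Sq, coeff_X, coeff_C, coeff_X_pow] using this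
  apply hΔ
  rw [WeierstrassCurve.Δ, c2, c0]
  linear_combination (-4 * E.b₄ ^ 2) * c1

theorem psi2form_eq_aeval (R : RatFunc K) : Psi2form E R = aeval R E.Ψ₂Sq := by
  simp only [Psi2form, WeierstrassCurve.Ψ₂Sq, map_add, map_mul, map_pow, aeval_X, aeval_C,
    map_ofNat]

theorem stmtHtDup : StmtHtDup E := by
  intro hΔ R
  have : E.IsElliptic := ⟨isUnit_iff_ne_zero.mpr hΔ⟩
  by_cases h0 : Psi2form E R = 0
  · -- then `R` is constant and `dupR = 0`
    have hc : ∃ c, R = RatFunc.C c := by
      by_contra hne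
      have htr : Transcendental K R := RatFunc.transcendental_of_ne_C R hne
      rw [psi2form_eq_aeval] at h0
      exact Ψ₂Sq_ne_zero_of_Δ E hΔ ((transcendental_iff.mp htr) _ h0)
    have h1 : ht R = 0 := (hwTowerHeight_eq_zero_iff R).mpr hc
    have h2 : dupR E R = 0 := by unfold dupR; rw [h0, div_zero]
    rw [h1, h2]
    simp [ht]
  · refine ht_of_double E R (dupR E R) ?_
    have : dupR E R * Psi2form E R = Fform E R R := by
      unfold dupR
      exact div_mul_cancel₀ _ h0
    simp only [Psi2form, Fform, RatFunc.algebraMap_eq_C] at this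
    linear_combination this

end Height

section Count

variable (p : ℕ) [Fact p.Prime] (W : WeierstrassCurve (ZMod p))
  (K : Type*) [Field K] [Algebra (ZMod p) K]

theorem stmtCount : StmtCount p W K := by
  intro hp2 hΔ
  have h := Count.count_height_zmod (K := K) p W hp2 hΔ
  have e : (Gform (EK p W K) (RatFunc.X ^ p) (RatFunc.X : RatFunc K)
        + Psi2form (EK p W K) (RatFunc.X : RatFunc K) ^ ((p + 1) / 2))
      / (2 * ((RatFunc.X : RatFunc K) ^ p - RatFunc.X) ^ 2) = Count.xFrobSubOne (K := K) p W := by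
    unfold Count.xFrobSubOne
    congr 1
    · simp only [Gform, Psi2form, WeierstrassCurve.Ψ₂Sq, map_add, map_mul, map_pow,
        RatFunc.algebraMap_X, RatFunc.algebraMap_C, RatFunc.algebraMap_eq_C, map_ofNat]
      ring
    · simp only [map_mul, map_pow, map_sub, RatFunc.algebraMap_X, map_ofNat]
  unfold ht
  rw [e, h]
  rfl

end Count

end

end Fermat.Agent.HW
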