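/-
HW brick, step 3b: pointwise chord formulas in `(x, η)`-coordinates, on top of
`S05/Coords.lean` and `S13/DivXA.lean` (`xOf`, `etaOf`, `sumNum`, `prodNum`).
-/
import Fermat.Agent.S13.DivXA

set_option autoImplicit false
set_option linter.unusedSectionVars false

namespace Fermat.Agent.HW

open WeierstrassCurve WeierstrassCurve.Affine Fermat.Agent.S05 Fermat.Agent.S13.DivX

variable {K : Type*} [Field K] {W : WeierstrassCurve K} [DecidableEq K]

/-- `cub x₁ + cub x₂ - (b₂ + 4x₁ + 4x₂)(x₁ - x₂)² = 2 sumNum`. -/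
theorem cub_add_cub (x₁ x₂ : K) :
    cub W x₁ + cub W x₂ - (W.b₂ + 4 * x₁ + 4 * x₂) * (x₁ - x₂) ^ 2 = 2 * sumNum W x₁ x₂ := by
  simp only [cub, sumNum]; ring

/-- **Chord formula for `P + Q`** (affine points with distinct `x`). -/
theorem chord_add (h2 : (2 : K) ≠ 0) {P Q : W.toAffine.Point} (hP : P ≠ 0) (hQ : Q ≠ 0)
    (hx : xOf P ≠ xOf Q) :
    P + Q ≠ 0 ∧
    2 * xOf (P + Q) * (xOf P - xOf Q) ^ 2 = sumNum W (xOf P) (xOf Q) - etaOf P * etaOf Q ∧
    etaOf (P + Q) * (xOf P - xOf Q) =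
      -((etaOf P - etaOf Q) * (xOf (P + Q) - xOf P) + etaOf P * (xOf P - xOf Q)) := by
  cases P with
  | zero => exact absurd rfl hP
  | some x₁ y₁ h₁ =>
    cases Q with
    | zero => exact absurd rfl hQ
    | some x₂ y₂ h₂ =>
      simp only [xOf_some, etaOf_some] at hx ⊢
      obtain ⟨x₃, y₃, h₃, hadd, hX, hE⟩ := add_of_X_ne h₁ h₂ hx
      rw [hadd]
      simp only [xOf_some, etaOf_some]
      refine ⟨Point.some_ne_zero h₃, ?_, hE⟩
      have hη₁ := eta_sq W h₁.1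
      have hη₂ := eta_sq W h₂.1
      have key : 2 * (2 * x₃ * (x₁ - x₂) ^ 2 - (sumNum W x₁ x₂ - eta W x₁ y₁ * eta W x₂ y₂)) = 0 := by
        have := cub_add_cub (W := W) x₁ x₂
        linear_combination hX + hη₁ + hη₂ + this
      exact sub_eq_zero.mp ((mul_eq_zero.mp key).resolve_left h2)

/-- **Chord formula for `P - Q`** (affine points with distinct `x`). -/
theorem chord_sub (h2 : (2 : K) ≠ 0) {P Q : W.toAffine.Point} (hP : P ≠ 0) (hQ : Q ≠ 0)
    (hx : xOf P ≠ xOf Q) :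
    P - Q ≠ 0 ∧
    2 * xOf (P - Q) * (xOf P - xOf Q) ^ 2 = sumNum W (xOf P) (xOf Q) + etaOf P * etaOf Q ∧
    etaOf (P - Q) * (xOf P - xOf Q) =
      -((etaOf P + etaOf Q) * (xOf (P - Q) - xOf P) + etaOf P * (xOf P - xOf Q)) := by
  have hQ' : -Q ≠ 0 := neg_ne_zero.mpr hQ
  have hx' : xOf P ≠ xOf (-Q) := by rwa [xOf_neg]
  obtain ⟨h0, hX, hE⟩ := chord_add h2 hP hQ' hx'
  rw [← sub_eq_add_neg, xOf_neg, etaOf_neg] at *
  refine ⟨h0, ?_, ?_⟩
  · rw [hX]; ring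
  · rw [hE]; ring

end Fermat.Agent.HW
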