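/-
HW brick, step 5: `StmtCount` of `Plan.lean`, from `Count.lean`.
-/
import Fermat.Agent.HW.Plan
import Fermat.Agent.HW.Count

set_option autoImplicit false

open Polynomial

namespace Fermat.Agent.HW

namespace Count

variable (p : ℕ) [hp : Fact p.Prime] (W : WeierstrassCurve (ZMod p))
  (K : Type*) [Field K] [Algebra (ZMod p) K]

theorem gform_X_eq :
    Gform (EK p W K) (RatFunc.X ^ p) (RatFunc.X : RatFunc K) =
      algebraMap K[X] (RatFunc K)
        (C 2 * (X ^ p + X) * (X ^ p * X) + C (W.map (algebraMap (ZMod p) K)).b₂ * (X ^ p * X) +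
          C (W.map (algebraMap (ZMod p) K)).b₄ * (X ^ p + X) +
          C (W.map (algebraMap (ZMod p) K)).b₆) := by
  simp only [Gform, map_add, map_mul, map_pow, RatFunc.algebraMap_X, RatFunc.algebraMap_C,
    RatFunc.algebraMap_eq_C, map_ofNat]
  ring

theorem psi2form_X_eq' :
    Psi2form (EK p W K) (RatFunc.X : RatFunc K) =
      algebraMap K[X] (RatFunc K) (W.map (algebraMap (ZMod p) K)).Ψ₂Sq := by
  simp only [Psi2form, WeierstrassCurve.Ψ₂Sq, map_add, map_mul, map_pow, RatFunc.algebraMap_X,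
    RatFunc.algebraMap_C, RatFunc.algebraMap_eq_C, map_ofNat]

theorem stmtCount : StmtCount p W K := by
  intro hp2 hΔ
  have h := count_height_zmod (K := K) p W hp2 hΔ
  have e : (Gform (EK p W K) (RatFunc.X ^ p) (RatFunc.X : RatFunc K)
        + Psi2form (EK p W K) (RatFunc.X : RatFunc K) ^ ((p + 1) / 2))
      / (2 * ((RatFunc.X : RatFunc K) ^ p - RatFunc.X) ^ 2) = xFrobSubOne (K := K) p W := by
    rw [gform_X_eq, psi2form_X_eq', xFrobSubOne]
    simp only [map_add, map_mul, map_pow, map_sub, RatFunc.algebraMap_X, RatFunc.algebraMap_C,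
      map_ofNat]
  rw [e, ht, h, WeierstrassCurve.card]

end Count

end Fermat.Agent.HW
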