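import Mathlib

/-!
# HW brick — shared definitions (helper51)

Frobenius relation `φ² − t φ + p = 0` on `E(K)`, `K` algebraically closed of characteristic `p ≠ 2`,
by the elementary "degree = height of the x-coordinate map" argument.
See `NOTES/HW.md` for the piece table.  This file contains ONLY definitions.
-/

set_option autoImplicit false

open Polynomial

namespace Fermat.Agent.HW

noncomputable section

/-! ### rational functions -/

section RatFuncDefs

variable {K : Type*} [Field K]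

/-- height of a rational function: `max (deg num) (deg denom)` (`= [K(X) : K(R)]`). -/
def ht (R : RatFunc K) : ℕ := max R.num.natDegree R.denom.natDegree

/-- `R` is regular at `x` (its reduced denominator does not vanish at `x`). -/
def Reg (R : RatFunc K) (x : K) : Prop := R.denom.eval x ≠ 0

/-- pointwise value `R(x)` (junk value `0` at a pole). -/
def rev (R : RatFunc K) (x : K) : K := RatFunc.eval (RingHom.id K) x R

/-- composition `R ∘ T` of rational functions (junk if `T` is constant). -/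
def rcomp (R T : RatFunc K) : RatFunc K := RatFunc.eval (algebraMap K (RatFunc K)) T R

end RatFuncDefs

/-! ### the forms `G`, `F`, `Ψ₂²`, `preΨ₄` with coefficients from `E`, evaluated in a `K`-algebra -/

section Forms

variable {K : Type*} [CommRing K] {A : Type*} [CommRing A] [Algebra K A] (E : WeierstrassCurve K)

/-- `G(x₁,x₂) = 2x₁x₂(x₁+x₂) + b₂x₁x₂ + b₄(x₁+x₂) + b₆`; `x(P+Q)+x(P−Q) = G/(x₁−x₂)²`. -/
def Gform (x₁ x₂ : A) : A :=
  2 * x₁ * x₂ * (x₁ + x₂) + algebraMap K A E.b₂ * x₁ * x₂ + algebraMap K A E.b₄ * (x₁ + x₂)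
    + algebraMap K A E.b₆

/-- `F(x₁,x₂) = x₁²x₂² − b₄x₁x₂ − b₆(x₁+x₂) − b₈`; `x(P+Q)·x(P−Q) = F/(x₁−x₂)²`. -/
def Fform (x₁ x₂ : A) : A :=
  x₁ ^ 2 * x₂ ^ 2 - algebraMap K A E.b₄ * x₁ * x₂ - algebraMap K A E.b₆ * (x₁ + x₂)
    - algebraMap K A E.b₈

/-- `Ψ₂²(x) = 4x³ + b₂x² + 2b₄x + b₆ = G(x,x) = η²`. -/
def Psi2form (x : A) : A :=
  4 * x ^ 3 + algebraMap K A E.b₂ * x ^ 2 + 2 * algebraMap K A E.b₄ * x + algebraMap K A E.b₆

/-- `preΨ₄(x)` (Mathlib's `WeierstrassCurve.preΨ₄`), evaluated in `A`. -/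
def Pre4form (x : A) : A := Polynomial.aeval x E.preΨ₄

end Forms

/-! ### coordinates of points, represented maps -/

section Points

variable {K : Type*} [Field K] [DecidableEq K] (E : WeierstrassCurve K)

/-- x-coordinate of a point (junk `0` at infinity). -/
def ptX : E.toAffine.Point → K
  | .zero => 0
  | .some x _ _ => x

/-- y-coordinate of a point (junk `0` at infinity). -/
def ptY : E.toAffine.Point → K
  | .zero => 0
  | .some _ y _ => y

/-- `η(P) = 2y + a₁x + a₃` (so `η² = Ψ₂²(x)` and `η(−P) = −η(P)`). -/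
def ptEta (P : E.toAffine.Point) : K := 2 * ptY E P + E.a₁ * ptX E P + E.a₃

/-- `α` is given at `P = (x,y)` by `x(αP) = R(x)`, `η(αP) = η(P)·S(x)`. -/
def GoodAt (α : E.toAffine.Point → E.toAffine.Point) (R S : RatFunc K)
    (P : E.toAffine.Point) : Prop :=
  P ≠ 0 ∧ α P ≠ 0 ∧ Reg R (ptX E P) ∧ Reg S (ptX E P) ∧
    ptX E (α P) = rev R (ptX E P) ∧ ptEta E (α P) = ptEta E P * rev S (ptX E P)

/-- `α` is represented by `(R,S)`: `GoodAt` holds at all but finitely many points. -/
def Rep (α : E.toAffine.Point → E.toAffine.Point) (R S : RatFunc K) : Prop :=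
  ∀ᶠ P in Filter.cofinite, GoodAt E α R S P

/-- the `x`-function of `α + β` -/
def sumR (R₁ S₁ R₂ S₂ : RatFunc K) : RatFunc K :=
  (Gform E R₁ R₂ - Psi2form E RatFunc.X * S₁ * S₂) / (2 * (R₁ - R₂) ^ 2)

/-- the `η`-multiplier of `α + β` -/
def sumS (R₁ S₁ R₂ S₂ : RatFunc K) : RatFunc K :=
  -(S₁ - S₂) * (sumR E R₁ S₁ R₂ S₂ - R₁) / (R₁ - R₂) - S₁

/-- the `x`-function of `2α` -/
def dupR (R : RatFunc K) : RatFunc K := Fform E R R / Psi2form E R

/-- the `η`-multiplier of `2α` -/
def dupS (R S : RatFunc K) : RatFunc K := S * Pre4form E R / Psi2form E R ^ 2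

/-- endomorphisms that are `0` or represented -/
def IsRepr (α : AddMonoid.End E.toAffine.Point) : Prop :=
  α = 0 ∨ ∃ R S : RatFunc K, Rep E (⇑α) R S

open Classical in
/-- the degree of an endomorphism: `ht R` if represented by `(R,S)`, else `0`. -/
def hdeg (α : AddMonoid.End E.toAffine.Point) : ℤ :=
  if h : ∃ R S : RatFunc K, Rep E (⇑α) R S then (ht h.choose : ℤ) else 0

end Points

/-! ### Frobenius -/

section Frob

variable (p : ℕ) [Fact p.Prime] (W : WeierstrassCurve (ZMod p))
  (K : Type*) [Field K] [DecidableEq K] [Algebra (ZMod p) K]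

/-- the curve over `K` -/
abbrev EK : WeierstrassCurve K := W.map (algebraMap (ZMod p) K)

/-- Frobenius endomorphism `(x,y) ↦ (x^p, y^p)` of `E(K)`. -/
def frobPt : AddMonoid.End (EK p W K).toAffine.Point :=
  WeierstrassCurve.Affine.Point.map (W' := W) (FiniteField.frobeniusAlgHom (ZMod p) K)

end Frob

end

end Fermat.Agent.HW
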