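import Fermat.Agent.HW.Sep

/-!
# HW brick, piece KF: `#ker (φ − m) = m² − t m + p` (helper51)

Conditional on K1 (`StmtKerCount`); the unconditional statement is in `KerFinal.lean`.
-/

set_option autoImplicit false

open Polynomial

namespace Fermat.Agent.HW

noncomputable section

section Frob

variable (p : ℕ) [Fact p.Prime] (W : WeierstrassCurve (ZMod p))
  (K : Type*) [Field K] [DecidableEq K] [Algebra (ZMod p) K]

theorem hdeg_frobPt (I : ParInput (EK p W K)) :
    hdeg (EK p W K) (frobPt p W K) = (p : ℤ) := by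
  rw [I.hdeg_eq (RepFrob.stmtRepFrob p W K I.hyp), ht_X_pow]

theorem rep_frobPt_sub_one (I : ParInput (EK p W K)) :
    Rep (EK p W K) (⇑(frobPt p W K + -1))
      (sumR (EK p W K) (RatFunc.X ^ p)
        (Psi2form (EK p W K) (RatFunc.X : RatFunc K) ^ ((p - 1) / 2)) RatFunc.X (-1))
      (sumS (EK p W K) (RatFunc.X ^ p)
        (Psi2form (EK p W K) (RatFunc.X : RatFunc K) ^ ((p - 1) / 2)) RatFunc.X (-1)) := by
  have hp : p.Prime := Fact.out
  exact I.repAdd I.hyp _ _ _ _ _ _ (RepFrob.stmtRepFrob p W K I.hyp) (I.rep_neg I.rep_one)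
    (X_pow_ne_X hp.two_le)

theorem hdeg_frobPt_sub_one (I : ParInput (EK p W K)) (hp2 : p ≠ 2) (hΔ : W.Δ ≠ 0) :
    hdeg (EK p W K) (frobPt p W K - 1) = (Nat.card W.toAffine.Point : ℤ) := by
  have hp : p.Prime := Fact.out
  have hodd : p % 2 = 1 := hp.eq_two_or_odd.resolve_left hp2
  rw [sub_eq_add_neg, I.hdeg_eq (rep_frobPt_sub_one p W K I)]
  have hc := stmtCount p W K hp2 hΔ
  have e : sumR (EK p W K) (RatFunc.X ^ p)
      (Psi2form (EK p W K) (RatFunc.X : RatFunc K) ^ ((p - 1) / 2)) RatFunc.X (-1) =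
      (Gform (EK p W K) (RatFunc.X ^ p) (RatFunc.X : RatFunc K)
        + Psi2form (EK p W K) (RatFunc.X : RatFunc K) ^ ((p + 1) / 2))
      / (2 * ((RatFunc.X : RatFunc K) ^ p - RatFunc.X) ^ 2) := by
    unfold sumR
    have e2 : (p + 1) / 2 = (p - 1) / 2 + 1 := by omega
    rw [e2, pow_succ]
    congr 1
    ring
  rw [e, hc]

/-- the degree of `a φ + b` -/
theorem hdeg_zsmul_frobPt_add (I : ParInput (EK p W K)) (hp2 : p ≠ 2) (hΔ : W.Δ ≠ 0)
    (a b : ℤ) :
    hdeg (EK p W K) (a • frobPt p W K + b • (1 : AddMonoid.End (EK p W K).toAffine.Point))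
      = a ^ 2 * p + a * b * W.traceOfFrobenius + b ^ 2 := by
  set S := reprSubring I with hS
  set h : S → ℤ := fun x => hdeg (EK p W K) (x : AddMonoid.End (EK p W K).toAffine.Point) with hh
  have H : IsParallelogram h := fun x y => I.hdeg_par x.2 y.2
  have h1 : h 1 = 1 := I.hdeg_one
  set φ : S := ⟨frobPt p W K, Or.inr ⟨_, _, RepFrob.stmtRepFrob p W K I.hyp⟩⟩ with hφdef
  have hφ : h φ = (p : ℤ) := hdeg_frobPt p W K I
  have e : W.traceOfFrobenius = (p : ℤ) + 1 - (Nat.card W.toAffine.Point : ℤ) := by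
    rw [WeierstrassCurve.traceOfFrobenius, WeierstrassCurve.card, Nat.card_eq_fintype_card,
      ZMod.card]
  have hφ1 : h (φ - 1) = (p : ℤ) + 1 - W.traceOfFrobenius := by
    show hdeg (EK p W K) (frobPt p W K - 1) = _
    rw [hdeg_frobPt_sub_one p W K I hp2 hΔ, e]
    ring
  exact map_zsmul_add_zsmul_one H h1 φ (p : ℤ) W.traceOfFrobenius hφ hφ1 a b

theorem isRepr_zsmul_frobPt_add (I : ParInput (EK p W K)) (a b : ℤ) :
    IsRepr (EK p W K)
      (a • frobPt p W K + b • (1 : AddMonoid.End (EK p W K).toAffine.Point)) := by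
  have h1 : frobPt p W K ∈ reprSubring I := Or.inr ⟨_, _, RepFrob.stmtRepFrob p W K I.hyp⟩
  exact (reprSubring I).add_mem ((reprSubring I).zsmul_mem h1 a)
    ((reprSubring I).zsmul_mem (reprSubring I).one_mem b)

/-- KF, conditional on K1 -/
theorem stmtKerFrob_of (hK1 : StmtKerCount (EK p W K)) : StmtKerFrob p W K := by
  intro hp2 hΔ hK m hm
  have hp : p.Prime := Fact.out
  have I := parInput (EK p W K) (hyp_EK p W K hp2 hΔ hK)
  set α : AddMonoid.End (EK p W K).toAffine.Point :=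
    (1 : ℤ) • frobPt p W K + (-m) • (1 : AddMonoid.End (EK p W K).toAffine.Point) with hα
  have hdeg_α : hdeg (EK p W K) α = m ^ 2 - W.traceOfFrobenius * m + p := by
    rw [hα, hdeg_zsmul_frobPt_add p W K I hp2 hΔ]
    ring
  have hrep : IsRepr (EK p W K) α := isRepr_zsmul_frobPt_add p W K I 1 (-m)
  rcases hrep with h0 | ⟨R, S, hR⟩
  · exfalso
    rw [h0, I.hdeg_zero] at hdeg_α
    exact hm (hdeg_α ▸ dvd_zero _)
  · have hht : (ht R : ℤ) = m ^ 2 - W.traceOfFrobenius * m + p := by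
      rw [← I.hdeg_eq hR, hdeg_α]
    have hchar : CharP K p := charP_of_injective_algebraMap (algebraMap (ZMod p) K).injective p
    have hsep : RSep R := by
      by_contra hns
      have := stmtInsepDvd (K := K) p hp hchar R hns
      apply hm
      rw [← hht]
      exact_mod_cast this
    have hcount := hK1 I.hyp α R S hR hsep
    rw [← hht, ← hcount]
    congr 1
    refine Nat.card_congr (Equiv.subtypeEquivRight ?_)
    intro P
    have e : α P = frobPt p W K P - m • P := by
      rw [hα]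
      show (1 : ℤ) • frobPt p W K P + (-m) • P = _
      rw [one_smul, neg_smul, sub_eq_add_neg]
    rw [e, sub_eq_zero]

end Frob

end

end Fermat.Agent.HW
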