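import Fermat.Agent.HW.Par
import Fermat.Agent.HW.Adapt
import Fermat.Agent.HW.QuadForm

/-!
# HW brick, piece HW-6: assembly of the Frobenius relation (helper51)
-/

set_option autoImplicit false

open Polynomial

namespace Fermat.Agent.HW

noncomputable section

section Subring

variable {K : Type*} [Field K] [DecidableEq K] {E : WeierstrassCurve K}

/-- the subring of represented endomorphisms -/
def reprSubring (I : ParInput E) : Subring (AddMonoid.End E.toAffine.Point) where
  carrier := {α | IsRepr E α}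
  mul_mem' := fun h h' => I.isRepr_mul h h'
  one_mem' := I.isRepr_one
  add_mem' := fun h h' => I.isRepr_add h h'
  zero_mem' := Or.inl rfl
  neg_mem' := fun h => I.isRepr_neg h

theorem mem_reprSubring (I : ParInput E) (α : AddMonoid.End E.toAffine.Point) :
    α ∈ reprSubring I ↔ IsRepr E α := Iff.rfl

end Subring

section RatFuncAux

variable {K : Type*} [Field K]

theorem ht_X_pow (n : ℕ) : ht ((RatFunc.X : RatFunc K) ^ n) = n := by
  have h := Count.natDegree_num_denom_of_isCoprime (K := K) (a := X ^ n) (b := 1)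
    isCoprime_one_right one_ne_zero
  have e : (RatFunc.X : RatFunc K) ^ n =
      algebraMap K[X] (RatFunc K) (X ^ n) / algebraMap K[X] (RatFunc K) 1 := by
    simp
  unfold ht
  rw [e, h.1, h.2]
  simp

theorem X_pow_ne_X {n : ℕ} (hn : 2 ≤ n) : (RatFunc.X : RatFunc K) ^ n ≠ RatFunc.X := by
  intro h
  have h1 := ht_X_pow (K := K) n
  rw [h] at h1
  have h2 : ht (RatFunc.X : RatFunc K) = 1 := ParInput.ht_X'
  omega

end RatFuncAux

section Frob

variable (p : ℕ) [Fact p.Prime] (W : WeierstrassCurve (ZMod p))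
  (K : Type*) [Field K] [DecidableEq K] [Algebra (ZMod p) K]

/-- the Frobenius relation in `End E(K)`, from the pieces -/
theorem frob_relation_end (I : ParInput (EK p W K)) (hF : StmtRepFrob p W K)
    (hp2 : p ≠ 2) (hΔ : W.Δ ≠ 0) :
    frobPt p W K * frobPt p W K
      - ((p : ℤ) + 1 - (Nat.card W.toAffine.Point : ℤ)) • frobPt p W K
      + (p : ℤ) • (1 : AddMonoid.End (EK p W K).toAffine.Point) = 0 := by
  have hp : p.Prime := Fact.out
  have hodd : p % 2 = 1 := hp.eq_two_or_odd.resolve_left hp2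
  set S := reprSubring I with hS
  set h : S → ℤ := fun a => hdeg (EK p W K) (a : AddMonoid.End (EK p W K).toAffine.Point) with hh
  have H : IsParallelogram h := fun x y => I.hdeg_par x.2 y.2
  have hmul : ∀ a b : S, h (a * b) = h a * h b := fun a b => I.hdeg_mul a.2 b.2
  have h1 : h 1 = 1 := I.hdeg_one
  have hrepφ := hF I.hyp
  set φ : S := ⟨frobPt p W K, Or.inr ⟨_, _, hrepφ⟩⟩ with hφdef
  have hφ : h φ = (p : ℤ) := by
    show hdeg (EK p W K) (frobPt p W K) = p
    rw [I.hdeg_eq hrepφ, ht_X_pow]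
  have hrep1 : Rep (EK p W K) (⇑(-1 : AddMonoid.End (EK p W K).toAffine.Point)) RatFunc.X (-1) :=
    I.rep_neg I.rep_one
  have hne : (RatFunc.X : RatFunc K) ^ p ≠ RatFunc.X := X_pow_ne_X hp.two_le
  have hrepsub := I.repAdd I.hyp _ _ _ _ _ _ hrepφ hrep1 hne
  have hφ1 : h (φ - 1) = (p : ℤ) + 1 - ((p : ℤ) + 1 - (Nat.card W.toAffine.Point : ℤ)) := by
    show hdeg (EK p W K) (frobPt p W K - 1) = _
    rw [sub_eq_add_neg, I.hdeg_eq hrepsub]
    have hc := stmtCount p W K hp2 hΔ
    have e : sumR (EK p W K) (RatFunc.X ^ p)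
        (Psi2form (EK p W K) (RatFunc.X : RatFunc K) ^ ((p - 1) / 2)) RatFunc.X (-1) =
        (Gform (EK p W K) (RatFunc.X ^ p) (RatFunc.X : RatFunc K)
          + Psi2form (EK p W K) (RatFunc.X : RatFunc K) ^ ((p + 1) / 2))
        / (2 * ((RatFunc.X : RatFunc K) ^ p - RatFunc.X) ^ 2) := by
      unfold sumR
      have e2 : (p + 1) / 2 = (p - 1) / 2 + 1 := by omega
      rw [e2, pow_succ]
      congr 1
      ring
    rw [e, hc]
    ring
  have key := frobenius_relation_height_zero H hmul h1 φ (p : ℤ)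
    ((p : ℤ) + 1 - (Nat.card W.toAffine.Point : ℤ)) hφ hφ1
  have hz := I.eq_zero_of_hdeg (Subtype.property _) key
  simpa using hz

/-- the Frobenius relation on points, from the pieces -/
theorem frob_relation_of (I : ParInput (EK p W K)) (hF : StmtRepFrob p W K)
    (hp2 : p ≠ 2) (hΔ : W.Δ ≠ 0) (P : (EK p W K).toAffine.Point) :
    frobPt p W K (frobPt p W K P)
      - ((p : ℤ) + 1 - (Nat.card W.toAffine.Point : ℤ)) • frobPt p W K P + (p : ℤ) • P = 0 := by
  have h := frob_relation_end p W K I hF hp2 hΔ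
  have := DFunLike.congr_fun h P
  exact this

end Frob

end

end Fermat.Agent.HW
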