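import Fermat.Agent.HW.Plan

/-!
# HW brick, piece HW-3d: the degree function on represented endomorphisms (helper51)

From the `Rep` calculus (pieces HW-3a/3c) and the height lemmas (HW-1b, HW-2) we deduce that the
represented endomorphisms form a subring of `End E(K)` on which `hdeg` is multiplicative, positive
and satisfies the exact parallelogram law.
-/

set_option autoImplicit false

open Polynomial

namespace Fermat.Agent.HW

noncomputable section

variable {K : Type*} [Field K] [DecidableEq K] (E : WeierstrassCurve K)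

/-- everything this file consumes -/
structure ParInput : Prop where
  hyp : Hyp E
  existsPt : StmtExistsPt E
  repId : StmtRepId E
  repNeg : StmtRepNeg E
  repEtaSq : StmtRepEtaSq E
  repUnique : StmtRepUnique E
  repNonconst : StmtRepNonconst E
  repInj : StmtRepInj E
  repComp : StmtRepComp E
  repAdd : StmtRepAdd E
  repDup : StmtRepDup E
  sumProd : StmtSumProd E
  htComp : StmtHtComp K
  htAddSub : StmtHtAddSub E
  htDup : StmtHtDup E

variable {E}

namespace ParInput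

variable (I : ParInput E)
include I

theorem infinite_pt : Infinite E.toAffine.Point := by
  have := I.hyp.algClosed
  have : Infinite K := IsAlgClosed.instInfinite
  choose f hf using I.existsPt I.hyp.algClosed I.hyp.disc_ne
  refine Infinite.of_injective f ?_
  intro x y hxy
  rw [← (hf x).2, ← (hf y).2, hxy]

theorem exists_goodAt {α : E.toAffine.Point → E.toAffine.Point} {R S : RatFunc K}
    (h : Rep E α R S) : ∃ P, GoodAt E α R S P := by
  have := I.infinite_pt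
  exact Filter.Eventually.exists h

theorem not_rep_zero (R S : RatFunc K) :
    ¬ Rep E (⇑(0 : AddMonoid.End E.toAffine.Point)) R S := by
  intro h
  obtain ⟨P, hP⟩ := I.exists_goodAt h
  exact hP.2.1 rfl

theorem ne_zero_of_rep {α : AddMonoid.End E.toAffine.Point} {R S : RatFunc K}
    (h : Rep E (⇑α) R S) : α ≠ 0 := by
  rintro rfl
  exact I.not_rep_zero R S h

theorem hdeg_eq {α : AddMonoid.End E.toAffine.Point} {R S : RatFunc K}
    (h : Rep E (⇑α) R S) : hdeg E α = ht R := by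
  have hex : ∃ R S : RatFunc K, Rep E (⇑α) R S := ⟨R, S, h⟩
  unfold hdeg
  rw [dif_pos hex]
  obtain ⟨S', hS'⟩ := hex.choose_spec
  rw [(I.repUnique I.hyp _ _ _ _ _ hS' h).1]

theorem hdeg_zero : hdeg E (0 : AddMonoid.End E.toAffine.Point) = 0 := by
  unfold hdeg
  rw [dif_neg]
  rintro ⟨R, S, h⟩
  exact I.not_rep_zero R S h

theorem stmtHdegEq : StmtHdegEq E := fun _ _ _ _ h => I.hdeg_eq h

theorem rep_one : Rep E (⇑(1 : AddMonoid.End E.toAffine.Point)) RatFunc.X 1 :=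
  I.repId I.hyp

theorem rep_neg {α : AddMonoid.End E.toAffine.Point} {R S : RatFunc K}
    (h : Rep E (⇑α) R S) : Rep E (⇑(-α)) R (-S) :=
  I.repNeg I.hyp _ _ _ h

theorem rep_mul {α β : AddMonoid.End E.toAffine.Point} {R S R' S' : RatFunc K}
    (h : Rep E (⇑α) R S) (h' : Rep E (⇑β) R' S') :
    Rep E (⇑(α * β)) (rcomp R R') (S' * rcomp S R') :=
  I.repComp I.hyp (⇑α) (⇑β) R S R' S' h h' (I.repNonconst I.hyp _ _ _ h')

theorem psi2_X_ne_zero : Psi2form E (RatFunc.X : RatFunc K) ≠ 0 := by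
  have h4 : (4 : K) ≠ 0 := by
    have h2 := I.hyp.two_ne
    have : (4 : K) = 2 * 2 := by norm_num
    rw [this]
    exact mul_ne_zero h2 h2
  have e : Psi2form E (RatFunc.X : RatFunc K) = algebraMap K[X] (RatFunc K) E.Ψ₂Sq := by
    simp only [Psi2form, WeierstrassCurve.Ψ₂Sq, map_add, map_mul, map_pow,
      RatFunc.algebraMap_X, RatFunc.algebraMap_C, RatFunc.algebraMap_eq_C, map_ofNat]
  rw [e]
  exact RatFunc.algebraMap_ne_zero (E.Ψ₂Sq_ne_zero h4)

/-- if two represented endomorphisms have the same `x`-function they are equal or opposite -/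
theorem eq_or_eq_neg {α β : AddMonoid.End E.toAffine.Point} {R S₁ S₂ : RatFunc K}
    (h₁ : Rep E (⇑α) R S₁) (h₂ : Rep E (⇑β) R S₂) : α = β ∨ α = -β := by
  have e₁ := I.repEtaSq I.hyp _ _ _ h₁
  have e₂ := I.repEtaSq I.hyp _ _ _ h₂
  have hsq : S₁ ^ 2 = S₂ ^ 2 :=
    mul_left_cancel₀ I.psi2_X_ne_zero (e₁.symm.trans e₂)
  rcases sq_eq_sq_iff_eq_or_eq_neg.mp hsq with h | h
  · left
    subst h
    exact I.repInj I.hyp _ _ _ _ h₁ h₂
  · right
    subst h
    exact I.repInj I.hyp _ _ _ _ h₁ (I.rep_neg h₂)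

theorem rep_add_self {α : AddMonoid.End E.toAffine.Point} {R S : RatFunc K}
    (h : Rep E (⇑α) R S) : Rep E (⇑(α + α)) (dupR E R) (dupS E R S) :=
  I.repDup I.hyp _ _ _ h (I.repNonconst I.hyp _ _ _ h)

theorem isRepr_one : IsRepr E (1 : AddMonoid.End E.toAffine.Point) :=
  Or.inr ⟨_, _, I.rep_one⟩

theorem isRepr_neg {α : AddMonoid.End E.toAffine.Point} (h : IsRepr E α) : IsRepr E (-α) := by
  rcases h with rfl | ⟨R, S, h⟩
  · left; simp
  · exact Or.inr ⟨_, _, I.rep_neg h⟩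

theorem isRepr_mul {α β : AddMonoid.End E.toAffine.Point} (h : IsRepr E α) (h' : IsRepr E β) :
    IsRepr E (α * β) := by
  rcases h with rfl | ⟨R, S, h⟩
  · left; simp
  rcases h' with rfl | ⟨R', S', h'⟩
  · left; simp
  exact Or.inr ⟨_, _, I.rep_mul h h'⟩

theorem isRepr_add {α β : AddMonoid.End E.toAffine.Point} (h : IsRepr E α) (h' : IsRepr E β) :
    IsRepr E (α + β) := by
  rcases h with rfl | ⟨R₁, S₁, h₁⟩
  · rw [zero_add]; exact h'
  rcases h' with rfl | ⟨R₂, S₂, h₂⟩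
  · rw [add_zero]; exact Or.inr ⟨_, _, h₁⟩
  by_cases hR : R₁ = R₂
  · subst hR
    rcases I.eq_or_eq_neg h₁ h₂ with rfl | rfl
    · exact Or.inr ⟨_, _, I.rep_add_self h₁⟩
    · left; simp
  · exact Or.inr ⟨_, _, I.repAdd I.hyp _ _ _ _ _ _ h₁ h₂ hR⟩

theorem stmtIsReprRing : StmtIsReprRing E := fun _ =>
  ⟨I.isRepr_one, fun _ _ h h' => ⟨I.isRepr_add h h', I.isRepr_neg h, I.isRepr_mul h h'⟩⟩

omit [DecidableEq K] I in
theorem ht_X' : ht (RatFunc.X : RatFunc K) = 1 := by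
  simp [ht]

theorem hdeg_one : hdeg E (1 : AddMonoid.End E.toAffine.Point) = 1 := by
  rw [I.hdeg_eq I.rep_one, ht_X']; rfl

theorem hdeg_neg {α : AddMonoid.End E.toAffine.Point} (h : IsRepr E α) :
    hdeg E (-α) = hdeg E α := by
  rcases h with rfl | ⟨R, S, h⟩
  · simp
  · rw [I.hdeg_eq h, I.hdeg_eq (I.rep_neg h)]

theorem eq_zero_of_hdeg {α : AddMonoid.End E.toAffine.Point} (h : IsRepr E α)
    (h0 : hdeg E α = 0) : α = 0 := by
  rcases h with rfl | ⟨R, S, h⟩
  · rfl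
  · exfalso
    rw [I.hdeg_eq h] at h0
    exact I.repNonconst I.hyp _ _ _ h (by exact_mod_cast h0)

theorem hdeg_mul {α β : AddMonoid.End E.toAffine.Point} (h : IsRepr E α) (h' : IsRepr E β) :
    hdeg E (α * β) = hdeg E α * hdeg E β := by
  rcases h with rfl | ⟨R, S, h⟩
  · simp [I.hdeg_zero]
  rcases h' with rfl | ⟨R', S', h'⟩
  · simp [I.hdeg_zero]
  rw [I.hdeg_eq h, I.hdeg_eq h', I.hdeg_eq (I.rep_mul h h'), I.htComp]
  push_cast
  rfl

theorem hdeg_add_self {α : AddMonoid.End E.toAffine.Point} {R S : RatFunc K}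
    (h : Rep E (⇑α) R S) : hdeg E (α + α) = 4 * hdeg E α := by
  rw [I.hdeg_eq h, I.hdeg_eq (I.rep_add_self h), I.htDup I.hyp.disc_ne]
  push_cast
  rfl

theorem hdeg_par {α β : AddMonoid.End E.toAffine.Point} (h : IsRepr E α) (h' : IsRepr E β) :
    hdeg E (α + β) + hdeg E (α - β) = 2 * hdeg E α + 2 * hdeg E β := by
  rcases h with rfl | ⟨R₁, S₁, h₁⟩
  · rw [zero_add, zero_sub, I.hdeg_neg h', I.hdeg_zero]; ring
  rcases h' with rfl | ⟨R₂, S₂, h₂⟩
  · rw [add_zero, sub_zero, I.hdeg_zero]; ring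
  by_cases hR : R₁ = R₂
  · subst hR
    rcases I.eq_or_eq_neg h₁ h₂ with rfl | rfl
    · rw [sub_self, I.hdeg_zero, I.hdeg_add_self h₁]; ring
    · rw [neg_add_cancel, I.hdeg_zero, sub_eq_add_neg, I.hdeg_add_self h₁,
        I.hdeg_neg (Or.inr ⟨_, _, h₂⟩)]
      ring
  · have hp := I.repAdd I.hyp _ _ _ _ _ _ h₁ h₂ hR
    have hm := I.repAdd I.hyp _ _ _ _ _ _ h₁ (I.rep_neg h₂) hR
    have e₁ := I.repEtaSq I.hyp _ _ _ h₁
    have e₂ := I.repEtaSq I.hyp _ _ _ h₂
    obtain ⟨hs, hpr⟩ := I.sumProd I.hyp.two_ne R₁ S₁ R₂ S₂ hR e₁ e₂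
    have key := I.htAddSub I.hyp.disc_ne R₁ R₂ _ _ hR hs hpr
    have hp' : hdeg E (α + β) = ht (sumR E R₁ S₁ R₂ S₂) := I.hdeg_eq hp
    have hm' : hdeg E (α - β) = ht (sumR E R₁ S₁ R₂ (-S₂)) := by
      rw [sub_eq_add_neg]; exact I.hdeg_eq hm
    rw [hp', hm', I.hdeg_eq h₁, I.hdeg_eq h₂]
    exact_mod_cast key

theorem stmtHdeg : StmtHdeg E := fun _ =>
  ⟨I.hdeg_one, fun _ h h0 => I.eq_zero_of_hdeg h h0, fun _ _ h h' => I.hdeg_mul h h',
    fun _ _ h h' => I.hdeg_par h h'⟩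

end ParInput

end

end Fermat.Agent.HW
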