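import Fermat.Agent.HW.Final

/-!
# HW brick, part 2 — kernels of separable represented endomorphisms (helper51)

K1 : a represented endomorphism `α` with separable `x`-function `R` has `#ker α = ht R`.
K2 : in characteristic `p`, an inseparable `R` has `p ∣ ht R`; in characteristic `0` every
     nonconstant `R` is separable.
KF : `#ker (φ − m) = m² − t m + p` for `p ∤ m² − t m + p`  (`φ` = Frobenius, `t` = trace).
Consumers: EC-adic (b) (charpoly of Frobenius on the Tate module), S58-plan.
-/

set_option autoImplicit false

open Polynomial

namespace Fermat.Agent.HW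

noncomputable section

section Sep

variable {K : Type*} [Field K]

/-- `R` is separable: the Wronskian `num' · denom − num · denom'` is not zero
(equivalently `R ∉ K(X^p)`). -/
def RSep (R : RatFunc K) : Prop :=
  derivative R.num * R.denom - R.num * derivative R.denom ≠ 0

variable (K)

/-- K2 (characteristic `p`): an inseparable function has height divisible by `p`. -/
def StmtInsepDvd : Prop := ∀ (p : ℕ), p.Prime → CharP K p → ∀ R : RatFunc K, ¬ RSep R → p ∣ ht R

/-- K2 (characteristic `0`): a nonconstant function is separable. -/
def StmtSepCharZero : Prop := CharZero K → ∀ R : RatFunc K, ht R ≠ 0 → RSep R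

end Sep

section Ker

variable {K : Type*} [Field K] [DecidableEq K] (E : WeierstrassCurve K)

/-- K1: `#ker α = ht R` for a represented endomorphism with separable `R`.
Proof: choose a good point `P₀` with `u = x(α P₀)` outside the finite set of bad values
(values of `x ∘ α` and of `R ∘ x` at bad points, critical values of `R`, degree-drop values, roots
of `Ψ₂²`); the fibre `α⁻¹(α P₀) = P₀ + ker α` maps bijectively (by `x`) onto the `ht R` distinct
roots of `num − u · denom` (Fermat/Agent/EC/Pencil.lean has the root count). -/
def StmtKerCount : Prop := Hyp E → ∀ (α : AddMonoid.End E.toAffine.Point) (R S : RatFunc K),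
  Rep E (⇑α) R S → RSep R → Nat.card {P : E.toAffine.Point // α P = 0} = ht R

end Ker

section KerFrob

variable (p : ℕ) [Fact p.Prime] (W : WeierstrassCurve (ZMod p))
  (K : Type*) [Field K] [DecidableEq K] [Algebra (ZMod p) K]

/-- KF: the number of solutions of `φ P = m • P` -/
def StmtKerFrob : Prop := p ≠ 2 → W.Δ ≠ 0 → IsAlgClosed K → ∀ m : ℤ,
  ¬ (p : ℤ) ∣ m ^ 2 - W.traceOfFrobenius * m + p →
  (Nat.card {P : (EK p W K).toAffine.Point // frobPt p W K P = m • P} : ℤ)
    = m ^ 2 - W.traceOfFrobenius * m + p

end KerFrob

end

end Fermat.Agent.HW
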