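import Fermat.Agent.HW.Plan2

/-!
# HW brick, piece K2: separability of rational functions (helper51)
-/

set_option autoImplicit false

open Polynomial

namespace Fermat.Agent.HW

noncomputable section

variable {K : Type*} [Field K]

/-- if `a ∣ a'` for the derivative `a'` of `a`, then `a' = 0` -/
theorem sep_derivative_eq_zero_of_dvd {a : K[X]} (h : a ∣ derivative a) : derivative a = 0 := by
  by_contra hne
  have ha : a ≠ 0 := by
    rintro rfl
    simp at hne
  have h1 := natDegree_le_of_dvd h hne
  by_cases hd : a.natDegree = 0
  · rw [natDegree_eq_zero] at hd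
    obtain ⟨c, rfl⟩ := hd
    simp at hne
  · have h2 := natDegree_derivative_lt hd
    omega

/-- an inseparable function has numerator and denominator with zero derivative -/
theorem sep_derivative_num_denom {R : RatFunc K} (h : ¬ RSep R) :
    derivative R.num = 0 ∧ derivative R.denom = 0 := by
  have h0 : derivative R.num * R.denom - R.num * derivative R.denom = 0 := by
    by_contra hne
    exact h hne
  have hcop : IsCoprime R.num R.denom := R.isCoprime_num_denom
  have e : derivative R.num * R.denom = R.num * derivative R.denom := sub_eq_zero.mp h0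
  refine ⟨sep_derivative_eq_zero_of_dvd ?_, sep_derivative_eq_zero_of_dvd ?_⟩
  · exact hcop.dvd_of_dvd_mul_right ⟨derivative R.denom, e⟩
  · exact hcop.symm.dvd_of_dvd_mul_left ⟨derivative R.num, by rw [← e]; ring⟩

theorem sep_dvd_natDegree (p : ℕ) (hp : p.Prime) [CharP K p] {a : K[X]}
    (h : derivative a = 0) : p ∣ a.natDegree := by
  have e := expand_contract p h hp.ne_zero
  rw [← e, natDegree_expand]
  exact Dvd.intro_left _ rfl

theorem stmtInsepDvd : StmtInsepDvd K := by
  intro p hp hchar R hR
  obtain ⟨h1, h2⟩ := sep_derivative_num_denom hR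
  have d1 := sep_dvd_natDegree p hp h1
  have d2 := sep_dvd_natDegree p hp h2
  unfold ht
  rcases max_choice R.num.natDegree R.denom.natDegree with h | h <;> rw [h] <;> assumption

theorem stmtSepCharZero : StmtSepCharZero K := by
  intro hchar R hR hsep
  apply hR
  obtain ⟨h1, h2⟩ := sep_derivative_num_denom (R := R) (fun h => h hsep)
  unfold ht
  rw [Polynomial.derivative_eq_zero.mp h1, Polynomial.derivative_eq_zero.mp h2]
  rfl

end

end Fermat.Agent.HW
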